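/-
S52 (the 3-5 switch), brick K0 (helper51): Klein's icosahedral forms and the explicit
`5`-torsion sections of the universal curve

  `E_p : y² = x³ + 27 H(p) x + 54 T(p)`,   `p = (u, v)`,

i.e. `c₄ = -H(p)`, `c₆ = -T(p)`, `Δ = -f(p)⁵`.  All forms have integer coefficients and all
statements are polynomial identities over an arbitrary commutative ring.

* `kf, kH, kT`        : Klein's forms of degrees 12, 20, 30;  `klein_relation : T² + H³ = 1728 f⁵`;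
* `kfu, kfv`          : the partial derivatives of `kf`;  `euler`;
* `xQ, yQ`            : a point `Q` of order `5` of `E_p` (forms of degrees 10, 15);
* `x2Q, y2Q`          : the point `2Q`;
* `Q_on_curve`, `twoQ_on_curve`, the two duplication identities (`[2]Q = 2Q`, `[2](2Q) = -Q`);
* `kH_zeta`, `kT_zeta`, `kf_zeta` : behaviour under `u ↦ ζ u` with `ζ⁵ = 1`, so that
  `Q(ζʲ u, v)` are `5`-torsion points of the same curve.
-/
import Mathlib.Tactic.Ring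
import Mathlib.Tactic.LinearCombination

set_option autoImplicit false

namespace Fermat.Agent.S52.Klein

variable {R : Type*} [CommRing R]

/-- Klein's form of degree `12` (vertices of the icosahedron). -/
def kf (u v : R) : R := u * v * (u ^ 10 + 11 * u ^ 5 * v ^ 5 - v ^ 10)

/-- Klein's form of degree `20` (face centres), normalised so that `T² + H³ = 1728 f⁵`. -/
def kH (u v : R) : R :=
  -(u ^ 20 + v ^ 20) + 228 * (u ^ 15 * v ^ 5 - u ^ 5 * v ^ 15) - 494 * u ^ 10 * v ^ 10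

/-- Klein's form of degree `30` (edge midpoints). -/
def kT (u v : R) : R :=
  u ^ 30 + v ^ 30 + 522 * (u ^ 25 * v ^ 5 - u ^ 5 * v ^ 25)
    - 10005 * (u ^ 20 * v ^ 10 + u ^ 10 * v ^ 20)

/-- `∂f/∂u`. -/
def kfu (u v : R) : R := 11 * u ^ 10 * v + 66 * u ^ 5 * v ^ 6 - v ^ 11

/-- `∂f/∂v`. -/
def kfv (u v : R) : R := u ^ 11 + 66 * u ^ 6 * v ^ 5 - 11 * u * v ^ 10

/-- `x`-coordinate of the `5`-torsion section `Q`. -/
def xQ (u v : R) : R :=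
  3 * v ^ 10 + 36 * u * v ^ 9 + 72 * u ^ 2 * v ^ 8 + 108 * u ^ 3 * v ^ 7 + 180 * u ^ 4 * v ^ 6
    + 90 * u ^ 5 * v ^ 5 + 72 * u ^ 6 * v ^ 4 - 36 * u ^ 7 * v ^ 3 + 36 * u ^ 8 * v ^ 2
    + 3 * u ^ 10

/-- `y`-coordinate of the `5`-torsion section `Q`. -/
def yQ (u v : R) : R :=
  108 * u * v ^ 14 + 432 * u ^ 2 * v ^ 13 + 972 * u ^ 3 * v ^ 12 + 1620 * u ^ 4 * v ^ 11
    + 2700 * u ^ 5 * v ^ 10 + 3132 * u ^ 6 * v ^ 9 + 2268 * u ^ 7 * v ^ 8 + 648 * u ^ 8 * v ^ 7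
    + 540 * u ^ 9 * v ^ 6 + 432 * u ^ 11 * v ^ 4 + 108 * u ^ 12 * v ^ 3 + 108 * u ^ 13 * v ^ 2

/-- `x`-coordinate of `2Q`. -/
def x2Q (u v : R) : R :=
  3 * v ^ 10 + 36 * u ^ 2 * v ^ 8 + 36 * u ^ 3 * v ^ 7 + 72 * u ^ 4 * v ^ 6 - 90 * u ^ 5 * v ^ 5
    + 180 * u ^ 6 * v ^ 4 - 108 * u ^ 7 * v ^ 3 + 72 * u ^ 8 * v ^ 2 - 36 * u ^ 9 * v
    + 3 * u ^ 10

/-- `y`-coordinate of `2Q`. -/
def y2Q (u v : R) : R :=
  108 * u ^ 2 * v ^ 13 - 108 * u ^ 3 * v ^ 12 + 432 * u ^ 4 * v ^ 11 + 540 * u ^ 6 * v ^ 9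
    - 648 * u ^ 7 * v ^ 8 + 2268 * u ^ 8 * v ^ 7 - 3132 * u ^ 9 * v ^ 6 + 2700 * u ^ 10 * v ^ 5
    - 1620 * u ^ 11 * v ^ 4 + 972 * u ^ 12 * v ^ 3 - 432 * u ^ 13 * v ^ 2 + 108 * u ^ 14 * v

/-- **Klein's relation** `T² + H³ = 1728 f⁵`. -/
theorem klein_relation (u v : R) : kT u v ^ 2 + kH u v ^ 3 = 1728 * kf u v ^ 5 := by
  unfold kT kH kf; ring

/-- Euler's identity for the form `f` of degree `12`. -/
theorem euler (u v : R) : u * kfu u v + v * kfv u v = 12 * kf u v := by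
  unfold kfu kfv kf; ring

/-- `Q` lies on `E_p`. -/
theorem Q_on_curve (u v : R) :
    yQ u v ^ 2 = xQ u v ^ 3 + 27 * kH u v * xQ u v + 54 * kT u v := by
  unfold yQ xQ kH kT; ring

/-- `2Q` lies on `E_p`. -/
theorem twoQ_on_curve (u v : R) :
    y2Q u v ^ 2 = x2Q u v ^ 3 + 27 * kH u v * x2Q u v + 54 * kT u v := by
  unfold y2Q x2Q kH kT; ring

/-- duplication of `Q`, `x`-coordinate: `x(2Q) = λ² - 2 x(Q)` with `λ = (3x² + a)/(2y)`. -/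
theorem dbl_Q_x (u v : R) :
    (3 * xQ u v ^ 2 + 27 * kH u v) ^ 2 = (x2Q u v + 2 * xQ u v) * (2 * yQ u v) ^ 2 := by
  unfold yQ xQ x2Q kH; ring

/-- duplication of `Q`, `y`-coordinate: `y(2Q) = λ (x(Q) - x(2Q)) - y(Q)`. -/
theorem dbl_Q_y (u v : R) :
    (3 * xQ u v ^ 2 + 27 * kH u v) * (xQ u v - x2Q u v) = (y2Q u v + yQ u v) * (2 * yQ u v) := by
  unfold yQ y2Q xQ x2Q kH; ring

/-- duplication of `2Q`, `x`-coordinate: `x(4Q) = x(Q)`. -/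
theorem dbl_twoQ_x (u v : R) :
    (3 * x2Q u v ^ 2 + 27 * kH u v) ^ 2 = (xQ u v + 2 * x2Q u v) * (2 * y2Q u v) ^ 2 := by
  unfold y2Q xQ x2Q kH; ring

/-- duplication of `2Q`, `y`-coordinate: `y(4Q) = -y(Q)`. -/
theorem dbl_twoQ_y (u v : R) :
    (3 * x2Q u v ^ 2 + 27 * kH u v) * (x2Q u v - xQ u v) =
      (-yQ u v + y2Q u v) * (2 * y2Q u v) := by
  unfold yQ y2Q xQ x2Q kH; ring

/-- `x(Q) - x(2Q)` vanishes only at cusps. -/
theorem xQ_sub_x2Q (u v : R) :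
    xQ u v - x2Q u v = 36 * u * v * (u ^ 8 - u ^ 7 * v + 2 * u ^ 6 * v ^ 2 - 3 * u ^ 5 * v ^ 3
      + 5 * u ^ 4 * v ^ 4 + 3 * u ^ 3 * v ^ 5 + 2 * u ^ 2 * v ^ 6 + u * v ^ 7 + v ^ 8) := by
  unfold xQ x2Q; ring

section zeta

variable {ζ : R}

theorem kH_zeta (hζ : ζ ^ 5 = 1) (u v : R) : kH (ζ * u) v = kH u v := by
  have h10 : ζ ^ 10 = 1 := by rw [show 10 = 5 * 2 from rfl, pow_mul, hζ, one_pow]
  have h15 : ζ ^ 15 = 1 := by rw [show 15 = 5 * 3 from rfl, pow_mul, hζ, one_pow]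
  have h20 : ζ ^ 20 = 1 := by rw [show 20 = 5 * 4 from rfl, pow_mul, hζ, one_pow]
  unfold kH
  simp only [mul_pow, hζ, h10, h15, h20, one_mul]

theorem kT_zeta (hζ : ζ ^ 5 = 1) (u v : R) : kT (ζ * u) v = kT u v := by
  have h10 : ζ ^ 10 = 1 := by rw [show 10 = 5 * 2 from rfl, pow_mul, hζ, one_pow]
  have h20 : ζ ^ 20 = 1 := by rw [show 20 = 5 * 4 from rfl, pow_mul, hζ, one_pow]
  have h25 : ζ ^ 25 = 1 := by rw [show 25 = 5 * 5 from rfl, pow_mul, hζ, one_pow]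
  have h30 : ζ ^ 30 = 1 := by rw [show 30 = 5 * 6 from rfl, pow_mul, hζ, one_pow]
  unfold kT
  simp only [mul_pow, hζ, h10, h20, h25, h30, one_mul]

theorem kf_zeta (hζ : ζ ^ 5 = 1) (u v : R) : kf (ζ * u) v = ζ * kf u v := by
  have h10 : ζ ^ 10 = 1 := by rw [show 10 = 5 * 2 from rfl, pow_mul, hζ, one_pow]
  unfold kf
  simp only [mul_pow, hζ, h10, one_mul]
  ring

end zeta

end Fermat.Agent.S52.Klein
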