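/-
S52, brick K0 (helper80): existence of the base point of the Klein / Rubin–Silverberg family.

For an algebraically closed field `K` of characteristic zero and `A B : K` with
`A ^ 3 + B ^ 2 ≠ 0` there is a point `(u, v) : K × K` with `kH u v = A` and `kT u v = B`,
where `kF, kH, kT` are Klein's icosahedral forms of degrees 12, 20, 30
(`kT ^ 2 + kH ^ 3 = 1728 * kF ^ 5`).  All cases (`A = 0`, `B = 0` included) are covered.
-/
import Mathlib

namespace Fermat.Agent.S52.Klein.BasePoint80

open Polynomial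

section Forms

variable {R : Type*} [CommRing R]

/-- Klein's form of degree 12 (vertices of the icosahedron). -/
def kF (u v : R) : R := u * v * (u ^ 10 + 11 * u ^ 5 * v ^ 5 - v ^ 10)

/-- Klein's form of degree 20 (face centres), normalised as `-(u^20 + v^20) + ...`. -/
def kH (u v : R) : R :=
  -(u ^ 20 + v ^ 20) + 228 * (u ^ 15 * v ^ 5 - u ^ 5 * v ^ 15) - 494 * u ^ 10 * v ^ 10

/-- Klein's form of degree 30 (edge midpoints). -/
def kT (u v : R) : R :=
  u ^ 30 + v ^ 30 + 522 * (u ^ 25 * v ^ 5 - u ^ 5 * v ^ 25)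
    - 10005 * (u ^ 20 * v ^ 10 + u ^ 10 * v ^ 20)

/-- The icosahedral syzygy. -/
theorem klein_relation (u v : R) : kT u v ^ 2 + kH u v ^ 3 = 1728 * kF u v ^ 5 := by
  unfold kT kH kF; ring

theorem kF_smul (l u v : R) : kF (l * u) (l * v) = l ^ 12 * kF u v := by
  unfold kF; ring

theorem kH_smul (l u v : R) : kH (l * u) (l * v) = l ^ 20 * kH u v := by
  unfold kH; ring

theorem kT_smul (l u v : R) : kT (l * u) (l * v) = l ^ 30 * kT u v := by
  unfold kT; ring

/-- `H(τ, 1)` as a polynomial in `w = τ ^ 5`. -/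
def hw (w : R) : R := -(w ^ 4 + 1) + 228 * (w ^ 3 - w) - 494 * w ^ 2

/-- `T(τ, 1)` as a polynomial in `w = τ ^ 5`. -/
def tw (w : R) : R := w ^ 6 + 1 + 522 * (w ^ 5 - w) - 10005 * (w ^ 4 + w ^ 2)

theorem kH_one (τ : R) : kH τ 1 = hw (τ ^ 5) := by
  unfold kH hw; ring

theorem kT_one (τ : R) : kT τ 1 = tw (τ ^ 5) := by
  unfold kT tw; ring

/-- Bezout certificate: `hw` and `tw` are coprime (resultant `2^4 * 3^2 * 5^10` up to sign). -/
theorem bezout_hw_tw (w : R) :
    (950431323 + 20237705983 * w - 103588896 * w ^ 2 + 20237108822 * w ^ 3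
        - 1055557719 * w ^ 4 - 2022161 * w ^ 5) * hw w
      + (-455818677 - 1001301767 * w + 461063031 * w ^ 2 - 2022161 * w ^ 3) * tw w
      = -1406250000 := by
  unfold hw tw; ring


/-- Homogeneous Bezout certificate for `(kH, kF)`, `v`-chart. -/
theorem bezout_HF_v (u v : R) :
    v * (3125 * v ^ 10 - 33022 * u ^ 5 * v ^ 5 - 3003 * u ^ 10) * kH u v
      + (-679478 * u ^ 4 * v ^ 15 - 1485989 * u ^ 9 * v ^ 10 + 684695 * u ^ 14 * v ^ 5
          - 3003 * u ^ 19) * kF u v
      = -3125 * v ^ 31 := by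
  unfold kH kF; ring

/-- Homogeneous Bezout certificate for `(kH, kF)`, `u`-chart. -/
theorem bezout_HF_u (u v : R) :
    u * (3125 * u ^ 10 + 33022 * v ^ 5 * u ^ 5 - 3003 * v ^ 10) * kH u v
      + (-679478 * v ^ 4 * u ^ 15 + 1485989 * v ^ 9 * u ^ 10 + 684695 * v ^ 14 * u ^ 5
          + 3003 * v ^ 19) * kF u v
      = -3125 * u ^ 31 := by
  unfold kH kF; ring

/-- Homogeneous Bezout certificate for `(kT, kF)`, `v`-chart. -/
theorem bezout_TF_v (u v : R) :
    v * (1953125 * v ^ 10 - 21652136 * u ^ 5 * v ^ 5 - 1968252 * u ^ 10) * kT u v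
      + (-1041183386 * u ^ 4 * v ^ 25 - 19693586131 * u ^ 9 * v ^ 20 - 13582603 * u ^ 14 * v ^ 15
          - 19691649129 * u ^ 19 * v ^ 10 + 1027428908 * u ^ 24 * v ^ 5
          + 1968252 * u ^ 29) * kF u v
      = 1953125 * v ^ 41 := by
  unfold kT kF; ring

/-- Homogeneous Bezout certificate for `(kH, kT)`, `v`-chart. -/
theorem bezout_HT_v (u v : R) :
    (950431323 * v ^ 25 + 20237705983 * u ^ 5 * v ^ 20 - 103588896 * u ^ 10 * v ^ 15
        + 20237108822 * u ^ 15 * v ^ 10 - 1055557719 * u ^ 20 * v ^ 5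
        - 2022161 * u ^ 25) * kH u v
      + (-455818677 * v ^ 15 - 1001301767 * u ^ 5 * v ^ 10 + 461063031 * u ^ 10 * v ^ 5
          - 2022161 * u ^ 15) * kT u v
      = -1406250000 * v ^ 45 := by
  unfold kH kT; ring

/-- The symmetry `(u, v) ↦ (-v, u)` of the Klein forms. -/
theorem kF_rot (u v : R) : kF (-v) u = kF u v := by unfold kF; ring
theorem kH_rot (u v : R) : kH (-v) u = kH u v := by unfold kH; ring
theorem kT_rot (u v : R) : kT (-v) u = kT u v := by unfold kT; ring

/-- Homogeneous Bezout certificate for `(kH, kT)`, `u`-chart (from the rotation symmetry). -/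
theorem bezout_HT_u (u v : R) :
    (950431323 * u ^ 25 - 20237705983 * v ^ 5 * u ^ 20 - 103588896 * v ^ 10 * u ^ 15
        - 20237108822 * v ^ 15 * u ^ 10 - 1055557719 * v ^ 20 * u ^ 5
        + 2022161 * v ^ 25) * kH u v
      + (-455818677 * u ^ 15 + 1001301767 * v ^ 5 * u ^ 10 + 461063031 * v ^ 10 * u ^ 5
          + 2022161 * v ^ 15) * kT u v
      = -1406250000 * u ^ 45 := by
  unfold kH kT; ring

/-- Homogeneous Bezout certificate for `(kT, kF)`, `u`-chart. -/
theorem bezout_TF_u (u v : R) :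
    u * (1953125 * u ^ 10 + 21652136 * v ^ 5 * u ^ 5 - 1968252 * v ^ 10) * kT u v
      + (-1041183386 * v ^ 4 * u ^ 25 + 19693586131 * v ^ 9 * u ^ 20 - 13582603 * v ^ 14 * u ^ 15
          + 19691649129 * v ^ 19 * u ^ 10 + 1027428908 * v ^ 24 * u ^ 5
          - 1968252 * v ^ 29) * kF u v
      = 1953125 * u ^ 41 := by
  unfold kT kF; ring

end Forms

section Field

variable {K : Type*} [Field K]

theorem not_hw_tw_zero [CharZero K] (w : K) (h1 : hw w = 0) (h2 : tw w = 0) : False := by
  have h := bezout_hw_tw w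
  rw [h1, h2, mul_zero, mul_zero, add_zero] at h
  have : (-1406250000 : K) ≠ 0 := by norm_num
  exact this h.symm

/-- The polynomial (in `w = τ ^ 5`) whose roots are the `τ`-invariants of the base points. -/
noncomputable def basePoly (A B : K) : K[X] :=
  C (B ^ 2) * (-(X ^ 4 + 1) + 228 * (X ^ 3 - X) - 494 * X ^ 2) ^ 3
    - C (A ^ 3) * (X ^ 6 + 1 + 522 * (X ^ 5 - X) - 10005 * (X ^ 4 + X ^ 2)) ^ 2

theorem basePoly_eval (A B w : K) :
    (basePoly A B).eval w = B ^ 2 * hw w ^ 3 - A ^ 3 * tw w ^ 2 := by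
  unfold basePoly hw tw
  simp

theorem basePoly_natDegree (A B : K) (hD : A ^ 3 + B ^ 2 ≠ 0) :
    (basePoly A B).natDegree = 12 := by
  unfold basePoly
  compute_degree!
  rw [coeff_one]
  simp only [Int.negSucc_eq]
  norm_num
  intro h
  apply hD
  linear_combination -h

theorem exists_basePoint [IsAlgClosed K] [CharZero K] (A B : K) (hD : A ^ 3 + B ^ 2 ≠ 0) :
    ∃ u v : K, kH u v = A ∧ kT u v = B := by
  have hnd := basePoly_natDegree A B hD
  have hdeg : (basePoly A B).degree ≠ 0 := by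
    intro h0
    have := natDegree_eq_zero_iff_degree_le_zero.mpr (le_of_eq h0)
    omega
  obtain ⟨w, hw0⟩ := IsAlgClosed.exists_root (basePoly A B) hdeg
  rw [IsRoot.def, basePoly_eval] at hw0
  obtain ⟨τ, hτ⟩ := IsAlgClosed.exists_pow_nat_eq w (n := 5) (by norm_num)
  by_cases hA : A = 0
  · subst hA
    have hB : B ≠ 0 := by
      rintro rfl
      simp at hD
    have hh : hw w = 0 := by
      have h1 : B ^ 2 * hw w ^ 3 = 0 := by linear_combination hw0
      rcases mul_eq_zero.mp h1 with h | h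
      · exact absurd (pow_eq_zero_iff (two_ne_zero)|>.mp h) hB
      · exact pow_eq_zero_iff (by norm_num) |>.mp h
    have hk : tw w ≠ 0 := fun hk => not_hw_tw_zero w hh hk
    obtain ⟨l, hl⟩ := IsAlgClosed.exists_pow_nat_eq (B / tw w) (n := 30) (by norm_num)
    refine ⟨l * τ, l * 1, ?_, ?_⟩
    · rw [kH_smul, kH_one, hτ, hh, mul_zero]
    · rw [kT_smul, kT_one, hτ, hl]
      field_simp
  · by_cases hB : B = 0
    · subst hB
      have hk : tw w = 0 := by
        have h1 : A ^ 3 * tw w ^ 2 = 0 := by linear_combination -hw0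
        rcases mul_eq_zero.mp h1 with h | h
        · exact absurd (pow_eq_zero_iff (by norm_num)|>.mp h) hA
        · exact pow_eq_zero_iff (by norm_num) |>.mp h
      have hh : hw w ≠ 0 := fun hh => not_hw_tw_zero w hh hk
      obtain ⟨l, hl⟩ := IsAlgClosed.exists_pow_nat_eq (A / hw w) (n := 20) (by norm_num)
      refine ⟨l * τ, l * 1, ?_, ?_⟩
      · rw [kH_smul, kH_one, hτ, hl]
        field_simp
      · rw [kT_smul, kT_one, hτ, hk, mul_zero]
    · have hh : hw w ≠ 0 := by
        intro hh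
        have h1 : A ^ 3 * tw w ^ 2 = 0 := by rw [hh] at hw0; linear_combination -hw0
        rcases mul_eq_zero.mp h1 with h | h
        · exact absurd (pow_eq_zero_iff (by norm_num)|>.mp h) hA
        · exact not_hw_tw_zero w hh (pow_eq_zero_iff (by norm_num) |>.mp h)
      have hk : tw w ≠ 0 := by
        intro hk
        have h1 : B ^ 2 * hw w ^ 3 = 0 := by rw [hk] at hw0; linear_combination hw0
        rcases mul_eq_zero.mp h1 with h | h
        · exact absurd (pow_eq_zero_iff (by norm_num)|>.mp h) hB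
        · exact hh (pow_eq_zero_iff (by norm_num) |>.mp h)
      obtain ⟨l, hl⟩ := IsAlgClosed.exists_pow_nat_eq (B * hw w / (A * tw w)) (n := 10)
        (by norm_num)
      refine ⟨l * τ, l * 1, ?_, ?_⟩
      · rw [kH_smul, kH_one, hτ, show l ^ 20 = (l ^ 10) ^ 2 by ring, hl]
        field_simp
        linear_combination hw0
      · rw [kT_smul, kT_one, hτ, show l ^ 30 = (l ^ 10) ^ 3 by ring, hl]
        field_simp
        linear_combination hw0


/-- At a base point with `A ^ 3 + B ^ 2 ≠ 0` the form `kF` does not vanish. -/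
theorem kF_ne_zero_of_eq [CharZero K] {u v A B : K} (hD : A ^ 3 + B ^ 2 ≠ 0)
    (hH : kH u v = A) (hT : kT u v = B) : kF u v ≠ 0 := by
  intro h0
  apply hD
  have := klein_relation u v
  rw [hH, hT, h0] at this
  linear_combination this

/-- Base point together with non-vanishing of `kF`. -/
theorem exists_basePoint' [IsAlgClosed K] [CharZero K] (A B : K) (hD : A ^ 3 + B ^ 2 ≠ 0) :
    ∃ u v : K, kH u v = A ∧ kT u v = B ∧ kF u v ≠ 0 := by
  obtain ⟨u, v, hH, hT⟩ := exists_basePoint A B hD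
  exact ⟨u, v, hH, hT, kF_ne_zero_of_eq hD hH hT⟩

end Field

end Fermat.Agent.S52.Klein.BasePoint80
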