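import Mathlib

/-!
# S52, brick K1-min (forms): Klein forms and the polynomial identities behind the 5-torsion

Klein's icosahedral forms `kF` (degree 12), `kH` (degree 20), `kT` (degree 30) satisfy
`kT ^ 2 + kH ^ 3 = 1728 * kF ^ 5`.  For `u v` in a field `K` (with `2, 3, 5` invertible) and
`kF u v ≠ 0`, the curve `E_(u,v) : y ^ 2 = x ^ 3 + 27 * kH u v * x + 54 * kT u v` carries the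
point `(kX u v, kY u v)` (forms of degree 10 and 15 with rational coefficients), which is killed
by `5`.  If moreover `z : K` is a primitive fifth root of unity, `(kX (z * u) v, kY (z * u) v)`
is a second point of order `5` on the same curve, independent of the first.  Hence
`Nat.card E_(u,v)[5] = 25` over ANY such field (no algebraic closedness), in particular over a
rational function field.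
-/

set_option autoImplicit false

open WeierstrassCurve WeierstrassCurve.Affine

namespace Fermat.Agent.S52.Klein.Forms86

section forms

variable {R : Type*} [CommRing R]

/-- Klein's form of degree 12 (vertices of the icosahedron). -/
def kF (u v : R) : R := u * v * (u ^ 10 + 11 * u ^ 5 * v ^ 5 - v ^ 10)

/-- Klein's form of degree 20 (faces). -/
def kH (u v : R) : R :=
  -(u ^ 20 + v ^ 20) + 228 * (u ^ 15 * v ^ 5 - u ^ 5 * v ^ 15) - 494 * u ^ 10 * v ^ 10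

/-- Klein's form of degree 30 (edges). -/
def kT (u v : R) : R :=
  u ^ 30 + v ^ 30 + 522 * (u ^ 25 * v ^ 5 - u ^ 5 * v ^ 25)
    - 10005 * (u ^ 20 * v ^ 10 + u ^ 10 * v ^ 20)

/-- `x`-coordinate of the rational section of order 5. -/
def kX (u v : R) : R :=
  3 * (u ^ 10 + 12 * u ^ 8 * v ^ 2 - 12 * u ^ 7 * v ^ 3 + 24 * u ^ 6 * v ^ 4 + 30 * u ^ 5 * v ^ 5
    + 60 * u ^ 4 * v ^ 6 + 36 * u ^ 3 * v ^ 7 + 24 * u ^ 2 * v ^ 8 + 12 * u * v ^ 9 + v ^ 10)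

/-- `y`-coordinate of the rational section of order 5. -/
def kY (u v : R) : R :=
  108 * u * v ^ 2 * (u ^ 12 + u ^ 11 * v + 4 * u ^ 10 * v ^ 2 + 5 * u ^ 8 * v ^ 4
    + 6 * u ^ 7 * v ^ 5 + 21 * u ^ 6 * v ^ 6 + 29 * u ^ 5 * v ^ 7 + 25 * u ^ 4 * v ^ 8
    + 15 * u ^ 3 * v ^ 9 + 9 * u ^ 2 * v ^ 10 + 4 * u * v ^ 11 + v ^ 12)

/-- slope of the tangent line at the rational section. -/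
def kL (u v : R) : R :=
  3 * u ^ 5 - 6 * u ^ 4 * v + 18 * u ^ 3 * v ^ 2 + 6 * u ^ 2 * v ^ 3 + 12 * u * v ^ 4 + 3 * v ^ 5

/-- cofactor: `kY * kGY = 108 * kF ^ 2`. -/
def kGY (u v : R) : R :=
    u ^ 9 - u ^ 8 * v - 3 * u ^ 7 * v ^ 2 + 7 * u ^ 6 * v ^ 3 - 7 * u ^ 4 * v ^ 5 + 7 * u ^ 3 * v ^ 6
      - 4 * u ^ 2 * v ^ 7 + u * v ^ 8

/-- cofactor: `(kX (z u) v - kX u v) * kG1 = 180 * kF ^ 2`. -/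
def kG1 (z u v : R) : R :=
    -2 * z ^ 3 * u ^ 14 + z ^ 2 * u ^ 14 - z * u ^ 14 - 3 * u ^ 14 + 2 * z ^ 3 * u ^ 13 * v + 4 * z ^ 2 * u ^ 13 * v
      + z * u ^ 13 * v + 3 * u ^ 13 * v + 11 * z ^ 3 * u ^ 12 * v ^ 2 - 3 * z ^ 2 * u ^ 12 * v ^ 2
      + 8 * z * u ^ 12 * v ^ 2 + 4 * u ^ 12 * v ^ 2 - 19 * z ^ 3 * u ^ 11 * v ^ 3 - 13 * z ^ 2 * u ^ 11 * v ^ 3
      - 7 * z * u ^ 11 * v ^ 3 - 26 * u ^ 11 * v ^ 3 - 15 * z ^ 3 * u ^ 10 * v ^ 4 + 20 * z ^ 2 * u ^ 10 * v ^ 4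
      - 20 * z * u ^ 10 * v ^ 4 + 15 * u ^ 10 * v ^ 4 + 48 * z ^ 3 * u ^ 9 * v ^ 5 + 26 * z ^ 2 * u ^ 9 * v ^ 5
      + 24 * z * u ^ 9 * v ^ 5 + 22 * u ^ 9 * v ^ 5 - 13 * z ^ 3 * u ^ 8 * v ^ 6 - 26 * z ^ 2 * u ^ 8 * v ^ 6
      + 31 * z * u ^ 8 * v ^ 6 - 57 * u ^ 8 * v ^ 6 - 24 * z ^ 3 * u ^ 7 * v ^ 7 + 2 * z ^ 2 * u ^ 7 * v ^ 7
      - 22 * z * u ^ 7 * v ^ 7 - 11 * u ^ 7 * v ^ 7 + 26 * z ^ 3 * u ^ 6 * v ^ 8 + 2 * z ^ 2 * u ^ 6 * v ^ 8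
      - 22 * z * u ^ 6 * v ^ 8 + 4 * u ^ 6 * v ^ 8 - 20 * z ^ 3 * u ^ 5 * v ^ 9 - 15 * z ^ 2 * u ^ 5 * v ^ 9
      + 15 * z * u ^ 5 * v ^ 9 + 20 * u ^ 5 * v ^ 9 + 12 * z ^ 3 * u ^ 4 * v ^ 10 + 19 * z ^ 2 * u ^ 4 * v ^ 10
      + 6 * z * u ^ 4 * v ^ 10 - 7 * u ^ 4 * v ^ 10 - 7 * z ^ 3 * u ^ 3 * v ^ 11 - 14 * z ^ 2 * u ^ 3 * v ^ 11
      - 16 * z * u ^ 3 * v ^ 11 + 2 * u ^ 3 * v ^ 11 + 4 * z ^ 3 * u ^ 2 * v ^ 12 + 8 * z ^ 2 * u ^ 2 * v ^ 12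
      + 12 * z * u ^ 2 * v ^ 12 + 6 * u ^ 2 * v ^ 12 - z ^ 3 * u * v ^ 13 - 2 * z ^ 2 * u * v ^ 13
      - 3 * z * u * v ^ 13 - 4 * u * v ^ 13

/-- cofactor: `(kX (z u) v - kX v (-u)) * kG2 = 36 * kF ^ 2`. -/
def kG2 (z u v : R) : R :=
    u ^ 13 * v - z ^ 3 * u ^ 12 * v ^ 2 + 2 * u ^ 12 * v ^ 2 - 4 * z ^ 3 * u ^ 11 * v ^ 3 + z ^ 2 * u ^ 11 * v ^ 3
      + z * u ^ 11 * v ^ 3 + u ^ 11 * v ^ 3 - 5 * z ^ 3 * u ^ 10 * v ^ 4 + 5 * z ^ 2 * u ^ 10 * v ^ 4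
      + 5 * z * u ^ 10 * v ^ 4 + 10 * z ^ 2 * u ^ 9 * v ^ 5 + 10 * z * u ^ 9 * v ^ 5 - 5 * u ^ 9 * v ^ 5
      + 10 * z ^ 3 * u ^ 8 * v ^ 6 + 10 * z ^ 2 * u ^ 8 * v ^ 6 + 10 * z * u ^ 8 * v ^ 6 - 4 * u ^ 8 * v ^ 6
      + 14 * z ^ 3 * u ^ 7 * v ^ 7 - 3 * u ^ 7 * v ^ 7 - 4 * z ^ 3 * u ^ 6 * v ^ 8 - 14 * z ^ 2 * u ^ 6 * v ^ 8
      - 14 * z * u ^ 6 * v ^ 8 - 14 * u ^ 6 * v ^ 8 - 15 * z ^ 3 * u ^ 5 * v ^ 9 - 10 * z ^ 2 * u ^ 5 * v ^ 9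
      - 10 * z * u ^ 5 * v ^ 9 + 5 * z ^ 2 * u ^ 4 * v ^ 10 + 5 * z * u ^ 4 * v ^ 10 + 10 * u ^ 4 * v ^ 10
      + 5 * z ^ 3 * u ^ 3 * v ^ 11 + 5 * z ^ 2 * u ^ 3 * v ^ 11 + 5 * z * u ^ 3 * v ^ 11 + 4 * u ^ 3 * v ^ 11
      + z ^ 3 * u ^ 2 * v ^ 12 - 2 * u ^ 2 * v ^ 12 - z ^ 3 * u * v ^ 13 - z ^ 2 * u * v ^ 13 - z * u * v ^ 13
      - u * v ^ 13

theorem klein_relation (u v : R) : kT u v ^ 2 + kH u v ^ 3 = 1728 * kF u v ^ 5 := by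
  unfold kT kH kF; ring

theorem kF_swap (u v : R) : kF v (-u) = kF u v := by unfold kF; ring

theorem kH_swap (u v : R) : kH v (-u) = kH u v := by unfold kH; ring

theorem kT_swap (u v : R) : kT v (-u) = kT u v := by unfold kT; ring

theorem kX_neg (u v : R) : kX (-u) (-v) = kX u v := by unfold kX; ring

theorem kY_neg (u v : R) : kY (-u) (-v) = -kY u v := by unfold kY; ring

/-- the rational section lies on the universal curve. -/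
theorem kY_sq (u v : R) :
    kY u v ^ 2 = kX u v ^ 3 + 27 * kH u v * kX u v + 54 * kT u v := by
  unfold kY kX kH kT; ring

theorem kL_mul (u v : R) : kL u v * (2 * kY u v) = 3 * kX u v ^ 2 + 27 * kH u v := by
  unfold kL kY kX kH; ring

theorem kX_double (u v : R) : kL u v ^ 2 - 2 * kX u v = kX v (-u) := by
  unfold kL kX; ring

theorem kY_double (u v : R) : -(kL u v * (kX v (-u) - kX u v) + kY u v) = kY v (-u) := by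
  unfold kL kX kY; ring

theorem kY_mul_kGY (u v : R) : kY u v * kGY u v = 108 * kF u v ^ 2 := by
  unfold kY kGY kF; ring

theorem pow_five_eq_one {z : R} (hz : z ^ 4 + z ^ 3 + z ^ 2 + z + 1 = 0) : z ^ 5 = 1 := by
  linear_combination (z - 1) * hz

theorem kH_zeta {z : R} (hz : z ^ 5 = 1) (u v : R) : kH (z * u) v = kH u v := by
  unfold kH
  linear_combination (-(1 + z ^ 5 + z ^ 10 + z ^ 15) * u ^ 20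
    + 228 * (1 + z ^ 5 + z ^ 10) * u ^ 15 * v ^ 5 - 228 * u ^ 5 * v ^ 15
    - 494 * (1 + z ^ 5) * u ^ 10 * v ^ 10) * hz

theorem kT_zeta {z : R} (hz : z ^ 5 = 1) (u v : R) : kT (z * u) v = kT u v := by
  unfold kT
  linear_combination ((1 + z ^ 5 + z ^ 10 + z ^ 15 + z ^ 20 + z ^ 25) * u ^ 30
    + 522 * (1 + z ^ 5 + z ^ 10 + z ^ 15 + z ^ 20) * u ^ 25 * v ^ 5 - 522 * u ^ 5 * v ^ 25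
    - 10005 * (1 + z ^ 5 + z ^ 10 + z ^ 15) * u ^ 20 * v ^ 10
    - 10005 * (1 + z ^ 5) * u ^ 10 * v ^ 20) * hz

theorem kF_zeta {z : R} (hz : z ^ 5 = 1) (u v : R) : kF (z * u) v = z * kF u v := by
  unfold kF
  linear_combination (z * (1 + z ^ 5) * u ^ 11 * v + 11 * z * u ^ 6 * v ^ 6) * hz

theorem kX_sep1 {z : R} (hz : z ^ 4 + z ^ 3 + z ^ 2 + z + 1 = 0) (u v : R) :
    (kX (z * u) v - kX u v) * kG1 z u v = 180 * kF u v ^ 2 := by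
  unfold kX kG1 kF
  linear_combination
    (-6 * z ^ 9 * u ^ 24 + 9 * z ^ 8 * u ^ 24 - 6 * z ^ 7 * u ^ 24 - 6 * z ^ 6 * u ^ 24 + 9 * z ^ 5 * u ^ 24
        - 6 * z ^ 4 * u ^ 24 + 9 * z ^ 3 * u ^ 24 - 6 * z ^ 2 * u ^ 24 - 6 * z * u ^ 24 + 9 * u ^ 24
        + 6 * z ^ 9 * u ^ 23 * v + 6 * z ^ 8 * u ^ 23 * v - 9 * z ^ 7 * u ^ 23 * v + 6 * z ^ 6 * u ^ 23 * v
        - 9 * z ^ 5 * u ^ 23 * v + 6 * z ^ 4 * u ^ 23 * v + 6 * z ^ 3 * u ^ 23 * v - 9 * z ^ 2 * u ^ 23 * v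
        + 6 * z * u ^ 23 * v - 9 * u ^ 23 * v + 33 * z ^ 9 * u ^ 22 * v ^ 2 - 42 * z ^ 8 * u ^ 22 * v ^ 2
        - 39 * z ^ 7 * u ^ 22 * v ^ 2 + 96 * z ^ 6 * u ^ 22 * v ^ 2 - 84 * z ^ 5 * u ^ 22 * v ^ 2
        - 39 * z ^ 4 * u ^ 22 * v ^ 2 + 66 * z ^ 3 * u ^ 22 * v ^ 2 - 39 * z ^ 2 * u ^ 22 * v ^ 2
        + 96 * z * u ^ 22 * v ^ 2 - 84 * u ^ 22 * v ^ 2 - 57 * z ^ 9 * u ^ 21 * v ^ 3 + 18 * z ^ 8 * u ^ 21 * v ^ 3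
        + 90 * z ^ 7 * u ^ 21 * v ^ 3 + 87 * z ^ 6 * u ^ 21 * v ^ 3 - 138 * z ^ 5 * u ^ 21 * v ^ 3
        + 87 * z ^ 4 * u ^ 21 * v ^ 3 - 18 * z ^ 3 * u ^ 21 * v ^ 3 - 18 * z ^ 2 * u ^ 21 * v ^ 3
        + 87 * z * u ^ 21 * v ^ 3 - 138 * u ^ 21 * v ^ 3 - 45 * z ^ 9 * u ^ 20 * v ^ 4 + 105 * z ^ 8 * u ^ 20 * v ^ 4
        + 276 * z ^ 7 * u ^ 20 * v ^ 4 - 471 * z ^ 6 * u ^ 20 * v ^ 4 + 135 * z ^ 5 * u ^ 20 * v ^ 4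
        + 135 * z ^ 4 * u ^ 20 * v ^ 4 - 255 * z ^ 3 * u ^ 20 * v ^ 4 + 240 * z ^ 2 * u ^ 20 * v ^ 4
        - 255 * z * u ^ 20 * v ^ 4 + 135 * u ^ 20 * v ^ 4 + 144 * z ^ 9 * u ^ 19 * v ^ 5 - 66 * z ^ 8 * u ^ 19 * v ^ 5
        - 690 * z ^ 7 * u ^ 19 * v ^ 5 - 186 * z ^ 6 * u ^ 19 * v ^ 5 + 798 * z ^ 5 * u ^ 19 * v ^ 5
        - 972 * z ^ 4 * u ^ 19 * v ^ 5 + 1068 * z ^ 3 * u ^ 19 * v ^ 5 - 582 * z ^ 2 * u ^ 19 * v ^ 5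
        - 582 * z * u ^ 19 * v ^ 5 + 1068 * u ^ 19 * v ^ 5 - 39 * z ^ 9 * u ^ 18 * v ^ 6 - 39 * z ^ 8 * u ^ 18 * v ^ 6
        - 369 * z ^ 7 * u ^ 18 * v ^ 6 + 1680 * z ^ 6 * u ^ 18 * v ^ 6 - 693 * z ^ 5 * u ^ 18 * v ^ 6
        + 177 * z ^ 4 * u ^ 18 * v ^ 6 + 717 * z ^ 3 * u ^ 18 * v ^ 6 - 1323 * z ^ 2 * u ^ 18 * v ^ 6
        + 1212 * z * u ^ 18 * v ^ 6 - 1323 * u ^ 18 * v ^ 6 - 72 * z ^ 9 * u ^ 17 * v ^ 7 + 78 * z ^ 8 * u ^ 17 * v ^ 7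
        + 1656 * z ^ 7 * u ^ 17 * v ^ 7 - 219 * z ^ 6 * u ^ 17 * v ^ 7 - 2667 * z ^ 5 * u ^ 17 * v ^ 7
        + 2718 * z ^ 4 * u ^ 17 * v ^ 7 - 2442 * z ^ 3 * u ^ 17 * v ^ 7 + 1962 * z ^ 2 * u ^ 17 * v ^ 7
        + 1077 * z * u ^ 17 * v ^ 7 - 2883 * u ^ 17 * v ^ 7 + 78 * z ^ 9 * u ^ 16 * v ^ 8 - 72 * z ^ 8 * u ^ 16 * v ^ 8
        - 540 * z ^ 7 * u ^ 16 * v ^ 8 - 2118 * z ^ 6 * u ^ 16 * v ^ 8 + 1752 * z ^ 5 * u ^ 16 * v ^ 8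
        - 2208 * z ^ 4 * u ^ 16 * v ^ 8 + 1692 * z ^ 3 * u ^ 16 * v ^ 8 + 1008 * z ^ 2 * u ^ 16 * v ^ 8
        - 2856 * z * u ^ 16 * v ^ 8 + 3264 * u ^ 16 * v ^ 8 - 60 * z ^ 9 * u ^ 15 * v ^ 9 + 15 * z ^ 8 * u ^ 15 * v ^ 9
        - 774 * z ^ 7 * u ^ 15 * v ^ 9 + 1419 * z ^ 6 * u ^ 15 * v ^ 9 + 3000 * z ^ 5 * u ^ 15 * v ^ 9
        - 4650 * z ^ 4 * u ^ 15 * v ^ 9 + 3165 * z ^ 3 * u ^ 15 * v ^ 9 - 4302 * z ^ 2 * u ^ 15 * v ^ 9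
        + 2697 * z * u ^ 15 * v ^ 9 - 510 * u ^ 15 * v ^ 9 + 36 * z ^ 9 * u ^ 14 * v ^ 10 + 21 * z ^ 8 * u ^ 14 * v ^ 10
        + 897 * z ^ 7 * u ^ 14 * v ^ 10 - 39 * z ^ 6 * u ^ 14 * v ^ 10 - 2715 * z ^ 5 * u ^ 14 * v ^ 10
        + 5220 * z ^ 4 * u ^ 14 * v ^ 10 - 1095 * z ^ 3 * u ^ 14 * v ^ 10 - 1767 * z ^ 2 * u ^ 14 * v ^ 10
        - 1875 * z * u ^ 14 * v ^ 10 + 1317 * u ^ 14 * v ^ 10 - 21 * z ^ 9 * u ^ 13 * v ^ 11 - 21 * z ^ 8 * u ^ 13 * v ^ 11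
        - 726 * z ^ 7 * u ^ 13 * v ^ 11 - 702 * z ^ 6 * u ^ 13 * v ^ 11 + 210 * z ^ 5 * u ^ 13 * v ^ 11
        + 1725 * z ^ 4 * u ^ 13 * v ^ 11 + 4065 * z ^ 3 * u ^ 13 * v ^ 11 - 240 * z ^ 2 * u ^ 13 * v ^ 11
        - 5778 * z * u ^ 13 * v ^ 11 + 1488 * u ^ 13 * v ^ 11 + 12 * z ^ 9 * u ^ 12 * v ^ 12 + 12 * z ^ 8 * u ^ 12 * v ^ 12
        + 444 * z ^ 7 * u ^ 12 * v ^ 12 + 954 * z ^ 6 * u ^ 12 * v ^ 12 + 1206 * z ^ 5 * u ^ 12 * v ^ 12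
        - 5424 * z ^ 4 * u ^ 12 * v ^ 12 - 1644 * z ^ 3 * u ^ 12 * v ^ 12 + 3720 * z ^ 2 * u ^ 12 * v ^ 12
        + 8460 * z * u ^ 12 * v ^ 12 - 12024 * u ^ 12 * v ^ 12 - 3 * z ^ 9 * u ^ 11 * v ^ 13 - 3 * z ^ 8 * u ^ 11 * v ^ 13
        - 255 * z ^ 7 * u ^ 11 * v ^ 13 - 687 * z ^ 6 * u ^ 11 * v ^ 13 - 1752 * z ^ 5 * u ^ 11 * v ^ 13
        + 3813 * z ^ 4 * u ^ 11 * v ^ 13 - 3927 * z ^ 3 * u ^ 11 * v ^ 13 + 969 * z ^ 2 * u ^ 11 * v ^ 13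
        - 2055 * z * u ^ 11 * v ^ 13 + 3900 * u ^ 11 * v ^ 13 + 144 * z ^ 7 * u ^ 10 * v ^ 14 + 396 * z ^ 6 * u ^ 10 * v ^ 14
        + 1260 * z ^ 5 * u ^ 10 * v ^ 14 - 1440 * z ^ 4 * u ^ 10 * v ^ 14 + 3330 * z ^ 3 * u ^ 10 * v ^ 14
        - 4932 * z ^ 2 * u ^ 10 * v ^ 14 - 1098 * z * u ^ 10 * v ^ 14 + 2340 * u ^ 10 * v ^ 14
        - 36 * z ^ 7 * u ^ 9 * v ^ 15 - 180 * z ^ 6 * u ^ 9 * v ^ 15 - 684 * z ^ 5 * u ^ 9 * v ^ 15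
        + 396 * z ^ 4 * u ^ 9 * v ^ 15 - 2754 * z ^ 3 * u ^ 9 * v ^ 15 + 4014 * z ^ 2 * u ^ 9 * v ^ 15
        - 414 * z * u ^ 9 * v ^ 15 - 342 * u ^ 9 * v ^ 15 + 36 * z ^ 6 * u ^ 8 * v ^ 16 + 324 * z ^ 5 * u ^ 8 * v ^ 16
        - 306 * z ^ 4 * u ^ 8 * v ^ 16 + 1854 * z ^ 3 * u ^ 8 * v ^ 16 - 1656 * z ^ 2 * u ^ 8 * v ^ 16
        + 1296 * z * u ^ 8 * v ^ 16 - 1548 * u ^ 8 * v ^ 16 - 72 * z ^ 5 * u ^ 7 * v ^ 17 + 288 * z ^ 4 * u ^ 7 * v ^ 17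
        - 972 * z ^ 3 * u ^ 7 * v ^ 17 + 324 * z ^ 2 * u ^ 7 * v ^ 17 - 1296 * z * u ^ 7 * v ^ 17
        + 2520 * u ^ 7 * v ^ 17 - 90 * z ^ 4 * u ^ 6 * v ^ 18 + 630 * z ^ 3 * u ^ 6 * v ^ 18 - 126 * z ^ 2 * u ^ 6 * v ^ 18
        + 738 * z * u ^ 6 * v ^ 18 - 1152 * u ^ 6 * v ^ 18 - 180 * z ^ 3 * u ^ 5 * v ^ 19 + 252 * z ^ 2 * u ^ 5 * v ^ 19
        - 252 * z * u ^ 5 * v ^ 19 + 180 * u ^ 5 * v ^ 19 - 108 * z ^ 2 * u ^ 4 * v ^ 20 + 180 * z * u ^ 4 * v ^ 20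
        - 72 * u ^ 4 * v ^ 20 - 72 * z * u ^ 3 * v ^ 21 + 72 * u ^ 3 * v ^ 21 - 36 * u ^ 2 * v ^ 22) * hz

theorem kX_sep2 {z : R} (hz : z ^ 4 + z ^ 3 + z ^ 2 + z + 1 = 0) (u v : R) :
    (kX (z * u) v - kX v (-u)) * kG2 z u v = 36 * kF u v ^ 2 := by
  unfold kX kG2 kF
  linear_combination
    (3 * z ^ 6 * u ^ 23 * v - 3 * z ^ 5 * u ^ 23 * v + 3 * z * u ^ 23 * v - 3 * u ^ 23 * v - 3 * z ^ 9 * u ^ 22 * v ^ 2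
        + 3 * z ^ 8 * u ^ 22 * v ^ 2 + 6 * z ^ 6 * u ^ 22 * v ^ 2 - 6 * z ^ 5 * u ^ 22 * v ^ 2
        - 3 * z ^ 4 * u ^ 22 * v ^ 2 + 3 * z ^ 3 * u ^ 22 * v ^ 2 + 6 * z * u ^ 22 * v ^ 2 - 6 * u ^ 22 * v ^ 2
        - 12 * z ^ 9 * u ^ 21 * v ^ 3 + 15 * z ^ 8 * u ^ 21 * v ^ 3 - 3 * z ^ 5 * u ^ 21 * v ^ 3
        + 24 * z ^ 4 * u ^ 21 * v ^ 3 - 21 * z ^ 3 * u ^ 21 * v ^ 3 - 3 * u ^ 21 * v ^ 3 - 15 * z ^ 9 * u ^ 20 * v ^ 4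
        + 30 * z ^ 8 * u ^ 20 * v ^ 4 - 36 * z ^ 7 * u ^ 20 * v ^ 4 + 21 * z ^ 6 * u ^ 20 * v ^ 4
        + 57 * z ^ 4 * u ^ 20 * v ^ 4 - 78 * z ^ 3 * u ^ 20 * v ^ 4 + 21 * z * u ^ 20 * v ^ 4 + 30 * z ^ 8 * u ^ 19 * v ^ 5
        - 144 * z ^ 7 * u ^ 19 * v ^ 5 + 171 * z ^ 6 * u ^ 19 * v ^ 5 - 21 * z ^ 5 * u ^ 19 * v ^ 5
        - 78 * z ^ 3 * u ^ 19 * v ^ 5 + 99 * z * u ^ 19 * v ^ 5 - 21 * u ^ 19 * v ^ 5 + 30 * z ^ 9 * u ^ 18 * v ^ 6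
        - 180 * z ^ 7 * u ^ 18 * v ^ 6 + 462 * z ^ 6 * u ^ 18 * v ^ 6 - 240 * z ^ 5 * u ^ 18 * v ^ 6
        - 78 * z ^ 4 * u ^ 18 * v ^ 6 + 408 * z * u ^ 18 * v ^ 6 - 330 * u ^ 18 * v ^ 6 + 42 * z ^ 9 * u ^ 17 * v ^ 7
        - 42 * z ^ 8 * u ^ 17 * v ^ 7 + 531 * z ^ 6 * u ^ 17 * v ^ 7 - 639 * z ^ 5 * u ^ 17 * v ^ 7
        - 228 * z ^ 4 * u ^ 17 * v ^ 7 + 408 * z ^ 3 * u ^ 17 * v ^ 7 + 639 * z * u ^ 17 * v ^ 7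
        - 639 * u ^ 17 * v ^ 7 - 12 * z ^ 9 * u ^ 16 * v ^ 8 - 30 * z ^ 8 * u ^ 16 * v ^ 8 + 360 * z ^ 7 * u ^ 16 * v ^ 8
        - 678 * z ^ 5 * u ^ 16 * v ^ 8 - 156 * z ^ 4 * u ^ 16 * v ^ 8 + 924 * z ^ 3 * u ^ 16 * v ^ 8
        - 408 * u ^ 16 * v ^ 8 - 45 * z ^ 9 * u ^ 15 * v ^ 9 + 15 * z ^ 8 * u ^ 15 * v ^ 9 + 504 * z ^ 7 * u ^ 15 * v ^ 9
        - 834 * z ^ 6 * u ^ 15 * v ^ 9 + 117 * z ^ 4 * u ^ 15 * v ^ 9 + 807 * z ^ 3 * u ^ 15 * v ^ 9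
        + 72 * z ^ 2 * u ^ 15 * v ^ 9 - 816 * z * u ^ 15 * v ^ 9 + 15 * z ^ 8 * u ^ 14 * v ^ 10
        - 144 * z ^ 7 * u ^ 14 * v ^ 10 - 849 * z ^ 6 * u ^ 14 * v ^ 10 + 1194 * z ^ 5 * u ^ 14 * v ^ 10
        + 627 * z ^ 3 * u ^ 14 * v ^ 10 + 108 * z ^ 2 * u ^ 14 * v ^ 10 - 1443 * z * u ^ 14 * v ^ 10
        + 816 * u ^ 14 * v ^ 10 + 15 * z ^ 9 * u ^ 13 * v ^ 11 - 540 * z ^ 7 * u ^ 13 * v ^ 11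
        + 321 * z ^ 6 * u ^ 13 * v ^ 11 + 1356 * z ^ 5 * u ^ 13 * v ^ 11 + 267 * z ^ 4 * u ^ 13 * v ^ 11
        + 69 * z * u ^ 13 * v ^ 11 - 660 * u ^ 13 * v ^ 11 + 3 * z ^ 9 * u ^ 12 * v ^ 12 - 3 * z ^ 8 * u ^ 12 * v ^ 12
        + 714 * z ^ 6 * u ^ 12 * v ^ 12 - 462 * z ^ 5 * u ^ 12 * v ^ 12 + 723 * z ^ 4 * u ^ 12 * v ^ 12
        - 183 * z ^ 3 * u ^ 12 * v ^ 12 + 2172 * z * u ^ 12 * v ^ 12 - 2136 * u ^ 12 * v ^ 12 - 3 * z ^ 9 * u ^ 11 * v ^ 13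
        + 180 * z ^ 7 * u ^ 11 * v ^ 13 - 1257 * z ^ 5 * u ^ 11 * v ^ 13 - 39 * z ^ 4 * u ^ 11 * v ^ 13
        + 1296 * z ^ 3 * u ^ 11 * v ^ 13 - 180 * z ^ 2 * u ^ 11 * v ^ 13 + 3 * u ^ 11 * v ^ 13
        + 36 * z ^ 7 * u ^ 10 * v ^ 14 - 216 * z ^ 6 * u ^ 10 * v ^ 14 - 1062 * z ^ 4 * u ^ 10 * v ^ 14
        - 162 * z ^ 3 * u ^ 10 * v ^ 14 + 252 * z ^ 2 * u ^ 10 * v ^ 14 - 828 * z * u ^ 10 * v ^ 14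
        - 36 * z ^ 7 * u ^ 9 * v ^ 15 - 36 * z ^ 6 * u ^ 9 * v ^ 15 + 396 * z ^ 5 * u ^ 9 * v ^ 15
        - 2142 * z ^ 3 * u ^ 9 * v ^ 15 + 288 * z ^ 2 * u ^ 9 * v ^ 15 + 54 * z * u ^ 9 * v ^ 15
        + 648 * u ^ 9 * v ^ 15 + 36 * z ^ 6 * u ^ 8 * v ^ 16 + 72 * z ^ 5 * u ^ 8 * v ^ 16 + 378 * z ^ 4 * u ^ 8 * v ^ 16
        - 900 * z ^ 2 * u ^ 8 * v ^ 16 + 342 * z * u ^ 8 * v ^ 16 + 396 * u ^ 8 * v ^ 16 - 72 * z ^ 5 * u ^ 7 * v ^ 17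
        + 90 * z ^ 4 * u ^ 7 * v ^ 17 + 810 * z ^ 3 * u ^ 7 * v ^ 17 - 648 * z * u ^ 7 * v ^ 17
        + 144 * u ^ 7 * v ^ 17 - 90 * z ^ 4 * u ^ 6 * v ^ 18 + 180 * z ^ 3 * u ^ 6 * v ^ 18 + 360 * z ^ 2 * u ^ 6 * v ^ 18
        - 450 * u ^ 6 * v ^ 18 - 180 * z ^ 3 * u ^ 5 * v ^ 19 + 108 * z ^ 2 * u ^ 5 * v ^ 19 + 252 * z * u ^ 5 * v ^ 19
        - 108 * z ^ 2 * u ^ 4 * v ^ 20 + 72 * z * u ^ 4 * v ^ 20 + 108 * u ^ 4 * v ^ 20 - 72 * z * u ^ 3 * v ^ 21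
        + 36 * u ^ 3 * v ^ 21 - 36 * u ^ 2 * v ^ 22) * hz

end forms

end Fermat.Agent.S52.Klein.Forms86
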