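import Mathlib
import Fermat.Agent.DivPoly.CountFinal
import Fermat.Agent.S52.Klein.Forms86

/-!
# S52, brick K1-min: the universal Klein curve has full 5-torsion over any field with `ζ₅`

For `u v` in a field `K` (with `2, 3, 5` invertible) and `kF u v ≠ 0`, the curve
`kE u v : y ^ 2 = x ^ 3 + 27 * kH u v * x + 54 * kT u v` carries the point `(kX u v, kY u v)`,
which is killed by `5` (`five_nsmul_sec`).  If `z : K` satisfies `z^4+z^3+z^2+z+1 = 0`, the point
`(kX (z * u) v, kY (z * u) v)` is a second point of order `5` on the same curve, not a multiple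
of the first (`exists_indep_points`).  Hence `Nat.card (kE u v)[5] = 25` (`card_torsionBy_five`)
over ANY such field, e.g. a rational function field.
-/

set_option autoImplicit false

open WeierstrassCurve WeierstrassCurve.Affine

namespace Fermat.Agent.S52.Klein.Tors86

open Fermat.Agent.S52.Klein.Forms86

section short

variable {K : Type*} [Field K]

/-- the short Weierstrass curve `y² = x³ + a x + b`. -/
def short (a b : K) : Affine K := ⟨0, 0, 0, a, b⟩

@[simp] lemma short_a₁ (a b : K) : (short a b).a₁ = 0 := rfl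
@[simp] lemma short_a₂ (a b : K) : (short a b).a₂ = 0 := rfl
@[simp] lemma short_a₃ (a b : K) : (short a b).a₃ = 0 := rfl
@[simp] lemma short_a₄ (a b : K) : (short a b).a₄ = a := rfl
@[simp] lemma short_a₆ (a b : K) : (short a b).a₆ = b := rfl

lemma short_Δ (a b : K) : (short a b).Δ = -16 * (4 * a ^ 3 + 27 * b ^ 2) := by
  simp only [WeierstrassCurve.Δ, WeierstrassCurve.b₂, WeierstrassCurve.b₄, WeierstrassCurve.b₆,
    WeierstrassCurve.b₈, short_a₁, short_a₂, short_a₃, short_a₄, short_a₆]
  ring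

lemma short_equation (a b x y : K) :
    (short a b).Equation x y ↔ y ^ 2 = x ^ 3 + a * x + b := by
  rw [equation_iff]
  simp only [short_a₁, short_a₂, short_a₃, short_a₄, short_a₆]
  constructor <;> intro h <;> linear_combination h

lemma short_nonsingular {a b x y : K} (hΔ : (short a b).Δ ≠ 0)
    (h : y ^ 2 = x ^ 3 + a * x + b) : (short a b).Nonsingular x y :=
  (equation_iff_nonsingular_of_Δ_ne_zero hΔ).mp ((short_equation a b x y).mpr h)

variable [DecidableEq K]

/-- doubling on a short Weierstrass curve with a given slope. -/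
lemma some_add_self {a b x y ℓ x' y' : K} (h : (short a b).Nonsingular x y)
    (h' : (short a b).Nonsingular x' y') (h2y : 2 * y ≠ 0)
    (hℓ : ℓ * (2 * y) = 3 * x ^ 2 + a) (hx' : ℓ ^ 2 - 2 * x = x')
    (hy' : -(ℓ * (x' - x) + y) = y') :
    Point.some x y h + Point.some x y h = Point.some x' y' h' := by
  have hne : y ≠ (short a b).negY x y := by
    simp only [negY, short_a₁, short_a₃]
    intro hh
    apply h2y
    linear_combination hh
  have hs : (short a b).slope x x y y = ℓ := by
    rw [slope_of_Y_ne rfl hne]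
    simp only [negY, short_a₁, short_a₂, short_a₃, short_a₄]
    rw [div_eq_iff (by intro h0; apply h2y; linear_combination h0)]
    linear_combination -hℓ
  rw [Point.add_self_of_Y_ne hne, Point.some.injEq]
  constructor
  · rw [hs]
    simp only [addX, short_a₁, short_a₂]
    linear_combination hx'
  · rw [hs]
    simp only [addY, negY, negAddY, addX, short_a₁, short_a₂, short_a₃]
    subst hx'
    linear_combination hy'

end short

section klein

variable {K : Type*} [Field K]

/-- the universal curve over the Klein cone. -/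
def kE (u v : K) : Affine K := short (27 * kH u v) (54 * kT u v)

lemma kE_Δ (u v : K) : (kE u v).Δ = -(6 ^ 12) * kF u v ^ 5 := by
  rw [kE, short_Δ]
  linear_combination (-16 * 78732) * klein_relation u v

lemma kE_Δ_ne_zero {u v : K} (h2 : (2 : K) ≠ 0) (h3 : (3 : K) ≠ 0) (hf : kF u v ≠ 0) :
    (kE u v).Δ ≠ 0 := by
  rw [kE_Δ]
  have h6 : (6 : K) ≠ 0 := by
    have : (6 : K) = 2 * 3 := by norm_num
    rw [this]; exact mul_ne_zero h2 h3
  exact mul_ne_zero (neg_ne_zero.mpr (pow_ne_zero _ h6)) (pow_ne_zero _ hf)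

/-- the rational section at `(u, v)` as a point of `short a b` with
`a = 27 H(u,v)`, `b = 54 T(u,v)`. -/
lemma sec_nonsingular {a b : K} (hΔ : (short a b).Δ ≠ 0) {u v : K} (ha : a = 27 * kH u v)
    (hb : b = 54 * kT u v) : (short a b).Nonsingular (kX u v) (kY u v) :=
  short_nonsingular hΔ (by rw [ha, hb]; exact kY_sq u v)

lemma two_kY_ne_zero (h2 : (2 : K) ≠ 0) (h3 : (3 : K) ≠ 0) {u v : K} (hf : kF u v ≠ 0) :
    2 * kY u v ≠ 0 := by
  intro h0
  have hy : kY u v = 0 := by
    rcases mul_eq_zero.mp h0 with h | h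
    · exact absurd h h2
    · exact h
  have h1 := kY_mul_kGY u v
  rw [hy, zero_mul] at h1
  have h108 : (108 : K) ≠ 0 := by
    have : (108 : K) = 2 ^ 2 * 3 ^ 3 := by norm_num
    rw [this]; exact mul_ne_zero (pow_ne_zero _ h2) (pow_ne_zero _ h3)
  exact mul_ne_zero h108 (pow_ne_zero 2 hf) h1.symm

variable [DecidableEq K]

/-- the rational section is killed by `5`. -/
theorem five_nsmul_sec {a b : K} (h2 : (2 : K) ≠ 0) (h3 : (3 : K) ≠ 0)
    (hΔ : (short a b).Δ ≠ 0) {u v : K} (ha : a = 27 * kH u v) (hb : b = 54 * kT u v)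
    (hf : kF u v ≠ 0) :
    (5 : ℕ) • Point.some _ _ (sec_nonsingular hΔ ha hb) = 0 := by
  have ha' : a = 27 * kH v (-u) := by rw [kH_swap]; exact ha
  have hb' : b = 54 * kT v (-u) := by rw [kT_swap]; exact hb
  have hf' : kF v (-u) ≠ 0 := by rw [kF_swap]; exact hf
  have hneg : (short a b).Nonsingular (kX u v) (-kY u v) := by
    refine short_nonsingular hΔ ?_
    rw [ha, hb, neg_sq]; exact kY_sq u v
  have h1 : Point.some _ _ (sec_nonsingular hΔ ha hb) + Point.some _ _ (sec_nonsingular hΔ ha hb)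
      = Point.some _ _ (sec_nonsingular hΔ ha' hb') :=
    some_add_self (ℓ := kL u v) _ _ (two_kY_ne_zero h2 h3 hf) (by rw [ha]; exact kL_mul u v)
      (kX_double u v) (kY_double u v)
  have h2' : Point.some _ _ (sec_nonsingular hΔ ha' hb') +
      Point.some _ _ (sec_nonsingular hΔ ha' hb') = Point.some _ _ hneg :=
    some_add_self (ℓ := kL v (-u)) _ _ (two_kY_ne_zero h2 h3 hf')
      (by rw [ha']; exact kL_mul v (-u))
      (by rw [kX_double v (-u), kX_neg]) (by rw [← kX_neg u v, kY_double v (-u), kY_neg])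
  have hnegP : Point.some _ _ hneg = -Point.some _ _ (sec_nonsingular hΔ ha hb) := by
    rw [Point.neg_some, Point.some.injEq]
    refine ⟨rfl, ?_⟩
    simp only [negY, short_a₁, short_a₃]
    ring
  generalize Point.some _ _ (sec_nonsingular hΔ ha hb) = P at h1 h2' hnegP ⊢
  calc (5 : ℕ) • P = (P + P) + (P + P) + P := by abel
    _ = -P + P := by rw [h1, h2', hnegP]
    _ = 0 := neg_add_cancel P

omit [DecidableEq K] in
/-- a point with a different `x`-coordinate is neither the point nor its negative. -/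
lemma ne_of_X_ne {W : Affine K} {x y x' y' : K} (h : W.Nonsingular x y)
    (h' : W.Nonsingular x' y') (hx : x ≠ x') :
    Point.some x y h ≠ Point.some x' y' h' ∧ Point.some x y h ≠ -Point.some x' y' h' := by
  constructor
  · intro he
    rw [Point.some.injEq] at he
    exact hx he.1
  · intro he
    rw [Point.neg_some, Point.some.injEq] at he
    exact hx he.1

/-- Two independent points of order `5` on the universal curve. -/
theorem exists_indep_points (h2 : (2 : K) ≠ 0) (h3 : (3 : K) ≠ 0) (h5 : (5 : K) ≠ 0) {z : K}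
    (hz : z ^ 4 + z ^ 3 + z ^ 2 + z + 1 = 0) {u v : K} (hf : kF u v ≠ 0) :
    ∃ P Q : (kE u v).Point, (5 : ℕ) • P = 0 ∧ (5 : ℕ) • Q = 0 ∧ P ≠ 0 ∧ ∀ k : ℕ, Q ≠ k • P := by
  unfold kE
  have hΔ : (short (27 * kH u v) (54 * kT u v)).Δ ≠ 0 := kE_Δ_ne_zero h2 h3 hf
  have hz5 : z ^ 5 = 1 := pow_five_eq_one hz
  have hz0 : z ≠ 0 := by
    intro h0
    rw [h0] at hz5
    norm_num at hz5
  have ha : 27 * kH u v = 27 * kH (z * u) v := by rw [kH_zeta hz5]
  have hb : 54 * kT u v = 54 * kT (z * u) v := by rw [kT_zeta hz5]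
  have hfz : kF (z * u) v ≠ 0 := by
    rw [kF_zeta hz5]; exact mul_ne_zero hz0 hf
  have ha' : 27 * kH u v = 27 * kH v (-u) := by rw [kH_swap]
  have hb' : 54 * kT u v = 54 * kT v (-u) := by rw [kT_swap]
  have hP5 := five_nsmul_sec h2 h3 hΔ rfl rfl hf
  have hQ5 := five_nsmul_sec h2 h3 hΔ ha hb hfz
  have hff : kF u v ^ 2 ≠ 0 := pow_ne_zero 2 hf
  have h180 : (180 : K) ≠ 0 := by
    have : (180 : K) = 2 ^ 2 * 3 ^ 2 * 5 := by norm_num
    rw [this]
    exact mul_ne_zero (mul_ne_zero (pow_ne_zero _ h2) (pow_ne_zero _ h3)) h5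
  have h36 : (36 : K) ≠ 0 := by
    have : (36 : K) = 2 ^ 2 * 3 ^ 2 := by norm_num
    rw [this]
    exact mul_ne_zero (pow_ne_zero _ h2) (pow_ne_zero _ h3)
  have hx1 : kX (z * u) v ≠ kX u v := by
    intro he
    have h1 := kX_sep1 hz u v
    rw [he, sub_self, zero_mul] at h1
    exact mul_ne_zero h180 hff h1.symm
  have hx2 : kX (z * u) v ≠ kX v (-u) := by
    intro he
    have h1 := kX_sep2 hz u v
    rw [he, sub_self, zero_mul] at h1
    exact mul_ne_zero h36 hff h1.symm
  have hd : Point.some _ _ (sec_nonsingular hΔ rfl rfl) + Point.some _ _ (sec_nonsingular hΔ rfl rfl)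
      = Point.some _ _ (sec_nonsingular hΔ ha' hb') :=
    some_add_self (ℓ := kL u v) _ _ (two_kY_ne_zero h2 h3 hf) (kL_mul u v)
      (kX_double u v) (kY_double u v)
  have hn1 := ne_of_X_ne (sec_nonsingular hΔ ha hb) (sec_nonsingular hΔ rfl rfl) hx1
  have hn2 := ne_of_X_ne (sec_nonsingular hΔ ha hb) (sec_nonsingular hΔ ha' hb') hx2
  have hQ0 : Point.some _ _ (sec_nonsingular hΔ ha hb) ≠ 0 := Point.some_ne_zero _
  have hP0 : Point.some _ _ (sec_nonsingular hΔ (u := u) (v := v) rfl rfl) ≠ 0 :=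
    Point.some_ne_zero _
  refine ⟨Point.some _ _ (sec_nonsingular hΔ rfl rfl), Point.some _ _ (sec_nonsingular hΔ ha hb),
    hP5, hQ5, hP0, ?_⟩
  rw [← hd] at hn2
  generalize Point.some _ _ (sec_nonsingular hΔ ha hb) = Q at hn1 hn2 hQ0 hQ5 ⊢
  generalize Point.some _ _ (sec_nonsingular hΔ (u := u) (v := v) rfl rfl) = P
    at hn1 hn2 hP0 hP5 ⊢
  intro k he
  have hk : k • P = (k % 5) • P := by
    conv_lhs => rw [← Nat.div_add_mod k 5, add_nsmul, mul_nsmul, hP5, nsmul_zero, zero_add]
  rw [hk] at he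
  have hlt : k % 5 < 5 := Nat.mod_lt _ (by norm_num)
  have h3P : (3 : ℕ) • P = -(P + P) := by
    rw [eq_neg_iff_add_eq_zero, ← hP5]; abel
  have h4P : (4 : ℕ) • P = -P := by
    rw [eq_neg_iff_add_eq_zero, ← hP5]; abel
  interval_cases (k % 5)
  · rw [zero_nsmul] at he; exact hQ0 he
  · rw [one_nsmul] at he; exact hn1.1 he
  · rw [two_nsmul] at he; exact hn2.1 he
  · rw [h3P] at he; exact hn2.2 he
  · rw [h4P] at he; exact hn1.2 he

end klein

section count

/-- Two independent elements of order `5` give at least `25` elements in the `5`-torsion. -/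
theorem card_torsionBy_ge {M : Type*} [AddCommGroup M] (P Q : M) (hP : (5 : ℕ) • P = 0)
    (hQ : (5 : ℕ) • Q = 0) (hP0 : P ≠ 0) (hPQ : ∀ k : ℕ, Q ≠ k • P)
    [Finite (Submodule.torsionBy ℤ M ((5 : ℕ) : ℤ))] :
    25 ≤ Nat.card (Submodule.torsionBy ℤ M ((5 : ℕ) : ℤ)) := by
  classical
  have : Fact (Nat.Prime 5) := ⟨by norm_num⟩
  have hmem : ∀ x : M, (5 : ℕ) • x = 0 → x ∈ Submodule.torsionBy ℤ M ((5 : ℕ) : ℤ) := by
    intro x hx
    rw [Submodule.mem_torsionBy_iff, natCast_zsmul]
    exact hx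
  have hkill : ∀ x : Submodule.torsionBy ℤ M ((5 : ℕ) : ℤ), (5 : ℕ) • x = 0 := by
    intro x
    apply Subtype.ext
    have h := (Submodule.mem_torsionBy_iff _ _).mp x.2
    rw [natCast_zsmul] at h
    simpa using h
  let _ : Module (ZMod 5) (Submodule.torsionBy ℤ M ((5 : ℕ) : ℤ)) :=
    AddCommGroup.zmodModule hkill
  generalize hT : Submodule.torsionBy ℤ M ((5 : ℕ) : ℤ) = T at *
  let p : T := ⟨P, hmem P hP⟩
  let q : T := ⟨Q, hmem Q hQ⟩
  have hsmul : ∀ (c : ZMod 5) (x : T), c • x = c.val • x := by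
    intro c x
    conv_lhs => rw [← ZMod.natCast_zmod_val c]
    exact Nat.cast_smul_eq_nsmul (ZMod 5) c.val x
  have hli : LinearIndependent (ZMod 5) ![p, q] := by
    rw [LinearIndependent.pair_iff]
    intro s t hst
    by_cases ht : t = 0
    · subst ht
      rw [zero_smul, add_zero] at hst
      refine ⟨?_, rfl⟩
      by_contra hs
      have : p = 0 := by
        have := congrArg (fun x => s⁻¹ • x) hst
        simpa [smul_smul, inv_mul_cancel₀ hs] using this
      exact hP0 (congrArg Subtype.val this)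
    · exfalso
      have hq : q = (-(t⁻¹ * s)) • p := by
        have := congrArg (fun x => t⁻¹ • x) hst
        simp only [smul_add, smul_smul, inv_mul_cancel₀ ht, one_smul, smul_zero] at this
        rw [neg_smul, eq_neg_iff_add_eq_zero, add_comm]
        exact this
      rw [hsmul] at hq
      have := congrArg Subtype.val hq
      simp only [p, q, Submodule.coe_smul_of_tower] at this
      exact hPQ _ this
  have : Fintype T := Fintype.ofFinite T
  have hfin : Module.Finite (ZMod 5) T := Module.Finite.of_finite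
  have h2 : 2 ≤ Module.finrank (ZMod 5) T := by
    have := hli.fintype_card_le_finrank
    simpa using this
  have hc : Fintype.card T = 5 ^ Module.finrank (ZMod 5) T := by
    have := Module.card_eq_pow_finrank (K := ZMod 5) (V := T)
    rwa [ZMod.card] at this
  rw [Nat.card_eq_fintype_card, hc]
  calc 25 = 5 ^ 2 := by norm_num
    _ ≤ 5 ^ Module.finrank (ZMod 5) T := Nat.pow_le_pow_right (by norm_num) h2

variable {K : Type*} [Field K] [DecidableEq K]

/-- **Full 5-torsion of the universal Klein curve** over any field containing a primitive fifth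
root of unity in which `2, 3, 5` are invertible. -/
theorem card_torsionBy_five (h2 : (2 : K) ≠ 0) (h3 : (3 : K) ≠ 0) (h5 : (5 : K) ≠ 0) {z : K}
    (hz : z ^ 4 + z ^ 3 + z ^ 2 + z + 1 = 0) {u v : K} (hf : kF u v ≠ 0) :
    Nat.card (Submodule.torsionBy ℤ (kE u v).Point ((5 : ℕ) : ℤ)) = 25 := by
  have h5' : ((5 : ℕ) : K) ≠ 0 := by exact_mod_cast h5
  have hodd : Odd 5 := by decide
  have := Fermat.Agent.DivPoly.CountFinal.finite_torsionBy (W := kE u v) hodd h5'
  have hle := Fermat.Agent.DivPoly.CountFinal.card_torsionBy_le (W := kE u v) hodd h5'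
  obtain ⟨P, Q, hP, hQ, hP0, hPQ⟩ := exists_indep_points h2 h3 h5 hz hf
  have hge := card_torsionBy_ge P Q hP hQ hP0 hPQ
  omega

/-- the same with the literal `5 : ℤ`. -/
theorem card_torsionBy_five' (h2 : (2 : K) ≠ 0) (h3 : (3 : K) ≠ 0) (h5 : (5 : K) ≠ 0) {z : K}
    (hz : z ^ 4 + z ^ 3 + z ^ 2 + z + 1 = 0) {u v : K} (hf : kF u v ≠ 0) :
    Nat.card (Submodule.torsionBy ℤ (kE u v).Point (5 : ℤ)) = 25 := by
  have h := card_torsionBy_five h2 h3 h5 hz hf
  rwa [Nat.cast_ofNat] at h

end count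

end Fermat.Agent.S52.Klein.Tors86
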