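/-
S52 (the 3-5 switch), the (B)-glue (helper80).

Inputs:
* `BasePoint80` (existence of the base point `p₀`), `Defs51` (Klein forms),
* `Tors86.card_torsionBy_five` (full `5`-torsion of the universal Klein curve over any field
  containing `ζ₅`, away from the cusps),
* the specialisation theorem of `Spec/Main20` (taken here as a hypothesis `SpecShape` of exactly
  the type posted by helper20, so that this file does not wait for it),
* `TorsTransport74.exists_hom_of_short`.

Output: for an integral model `W` (`Δ ≠ 0`), a base point `p₀ = (u0, v0) ∈ ℚ̄²` with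
`kH p₀ = -c₄(W)`, `kT p₀ = -c₆(W)`, a rational parameter `t` and an integral model `W₂`
(`Δ ≠ 0`) whose invariants are `c₄(W₂) = -kH (p₀ + t q₀)`, `c₆(W₂) = -kT (p₀ + t q₀)`,
`q₀ = (kfv, -kfu)(p₀)`, there is an additive, surjective, `G_ℚ`-equivariant map
`Tors W 5 → Tors W₂ 5`: this is the last conjunct of `TopWiring84.FamilyStmt`.
The only input from the twist identities (`Twist32`) is that the coefficients of the pencil are
polynomials with rational coefficients: `a4.map (algebraMap ℚ ℚ̄) = 27 * kH (Upoly) (Vpoly)`.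
-/
import Mathlib
import Fermat.Prelude.Def_FLTPrelim_GaloisRep
import Fermat.Agent.S52.Klein.Defs51
import Fermat.Agent.S52.Klein.BasePoint80
import Fermat.Agent.S52.Klein.Tors86
import Fermat.Agent.S52.Model.ModelClose74
import Fermat.Agent.S52.Model.TorsTransport74

set_option autoImplicit false

open WeierstrassCurve WeierstrassCurve.Affine WeierstrassCurve.Affine.Point

namespace Fermat.Agent.S52.Klein.BGlue80

open Fermat.Agent.S52.Klein
open Fermat.Agent.S52.Model.ModelClose74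
open Fermat.Agent.S52.Model.TorsTransport74
open Polynomial

local notation "Qb" => AlgebraicClosure ℚ
local notation "GQ" => (AlgebraicClosure ℚ ≃ₐ[ℚ] AlgebraicClosure ℚ)

/-! ### Bridges between the copies of the Klein forms -/

section bridge
variable {R : Type*} [CommRing R]
theorem kF_eq (u v : R) : BasePoint80.kF u v = kf u v := rfl
theorem kH_eq (u v : R) : BasePoint80.kH u v = kH u v := rfl
theorem kT_eq (u v : R) : BasePoint80.kT u v = kT u v := rfl
theorem kF86_eq (u v : R) : Forms86.kF u v = kf u v := rfl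
theorem kH86_eq (u v : R) : Forms86.kH u v = kH u v := rfl
theorem kT86_eq (u v : R) : Forms86.kT u v = kT u v := rfl
end bridge

/-- Existence of the base point, in the normalisation of the plan: `c₄ = -H(p₀)`, `c₆ = -T(p₀)`. -/
theorem exists_basePoint51 {K : Type*} [Field K] [IsAlgClosed K] [CharZero K] (c4 c6 : K)
    (h : c4 ^ 3 - c6 ^ 2 ≠ 0) : ∃ u v : K, kH u v = -c4 ∧ kT u v = -c6 ∧ kf u v ≠ 0 := by
  have hD : (-c4) ^ 3 + (-c6) ^ 2 ≠ 0 := by
    intro h0; apply h; linear_combination -h0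
  obtain ⟨u, v, hH, hT, hF⟩ := BasePoint80.exists_basePoint' (-c4) (-c6) hD
  exact ⟨u, v, hH, hT, hF⟩

/-- Existence of the base point for an integral model with `Δ ≠ 0`. -/
theorem exists_basePoint_of_model (W : WeierstrassCurve ℤ) (hΔ : W.Δ ≠ 0) :
    ∃ u v : Qb, kH u v = -(W.c₄ : Qb) ∧ kT u v = -(W.c₆ : Qb) ∧ kf u v ≠ 0 := by
  apply exists_basePoint51
  have h := W.c_relation
  have h' : ((W.c₄ : ℤ) : Qb) ^ 3 - ((W.c₆ : ℤ) : Qb) ^ 2 = ((1728 * W.Δ : ℤ) : Qb) := by
    rw [h]; push_cast; ring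
  rw [h']
  exact_mod_cast mul_ne_zero (by norm_num) hΔ

/-! ### Ring homomorphisms commute with the forms -/

section maps
variable {R S : Type*} [CommRing R] [CommRing S] (φ : R →+* S)

theorem map_kf (u v : R) : φ (kf u v) = kf (φ u) (φ v) := by
  simp only [kf, map_mul, map_add, map_sub, map_pow, map_ofNat]
theorem map_kH (u v : R) : φ (kH u v) = kH (φ u) (φ v) := by
  simp only [kH, map_mul, map_add, map_sub, map_neg, map_pow, map_ofNat]
theorem map_kT (u v : R) : φ (kT u v) = kT (φ u) (φ v) := by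
  simp only [kT, map_mul, map_add, map_sub, map_pow, map_ofNat]
theorem map_kfu (u v : R) : φ (kfu u v) = kfu (φ u) (φ v) := by
  simp only [kfu, map_mul, map_add, map_sub, map_pow, map_ofNat]
theorem map_kfv (u v : R) : φ (kfv u v) = kfv (φ u) (φ v) := by
  simp only [kfv, map_mul, map_add, map_sub, map_pow, map_ofNat]

end maps

/-! ### The generic point of the line `p₀ + t q₀` -/

section generic
variable {F : Type*} [Field F]

/-- First coordinate of the generic point `p₀ + t q₀`, `q₀ = (f_v, -f_u)(p₀)`, of the line. -/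
noncomputable def Upoly (u0 v0 : F) : F[X] := C u0 + X * C (kfv u0 v0)
/-- Second coordinate of the generic point of the line. -/
noncomputable def Vpoly (u0 v0 : F) : F[X] := C v0 - X * C (kfu u0 v0)

theorem eval_Upoly (u0 v0 t : F) : (Upoly u0 v0).eval t = u0 + t * kfv u0 v0 := by
  simp only [Upoly, eval_add, eval_C, eval_mul, eval_X]
theorem eval_Vpoly (u0 v0 t : F) : (Vpoly u0 v0).eval t = v0 - t * kfu u0 v0 := by
  simp only [Vpoly, eval_sub, eval_C, eval_mul, eval_X]

theorem kf_poly_ne_zero {u0 v0 : F} (h : kf u0 v0 ≠ 0) : kf (Upoly u0 v0) (Vpoly u0 v0) ≠ 0 := by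
  intro h0
  apply h
  have := congrArg (evalRingHom (0 : F)) h0
  rw [map_kf, _root_.map_zero] at this
  simpa [Upoly, Vpoly] using this

theorem kf_generic_ne_zero {u0 v0 : F} (h : kf u0 v0 ≠ 0) :
    kf (algebraMap F[X] (RatFunc F) (Upoly u0 v0)) (algebraMap F[X] (RatFunc F) (Vpoly u0 v0))
      ≠ 0 := by
  rw [← map_kf]
  intro h0
  exact kf_poly_ne_zero h
    ((map_eq_zero_iff _ (IsFractionRing.injective F[X] (RatFunc F))).mp h0)

/-- A primitive fifth root of unity in an algebraically closed field. -/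
theorem exists_zeta [IsAlgClosed F] : ∃ z : F, z ^ 4 + z ^ 3 + z ^ 2 + z + 1 = 0 := by
  have hdeg : (X ^ 4 + X ^ 3 + X ^ 2 + X + 1 : F[X]).degree ≠ 0 := by
    have : (X ^ 4 + X ^ 3 + X ^ 2 + X + 1 : F[X]).degree = 4 := by compute_degree!
    rw [this]; norm_num
  obtain ⟨z, hz⟩ := IsAlgClosed.exists_root _ hdeg
  exact ⟨z, by simpa using hz⟩

/-- **The generic member of the pencil has full `5`-torsion over `F(T)`.** -/
theorem card_generic [IsAlgClosed F] [CharZero F] [DecidableEq (RatFunc F)] {u0 v0 : F}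
    (h : kf u0 v0 ≠ 0) :
    Nat.card (Submodule.torsionBy ℤ
      (Tors86.kE (algebraMap F[X] (RatFunc F) (Upoly u0 v0))
        (algebraMap F[X] (RatFunc F) (Vpoly u0 v0))).Point ((5 : ℕ) : ℤ)) = 25 := by
  obtain ⟨z, hz⟩ := exists_zeta (F := F)
  have hz' : (algebraMap F (RatFunc F) z) ^ 4 + (algebraMap F (RatFunc F) z) ^ 3
      + (algebraMap F (RatFunc F) z) ^ 2 + algebraMap F (RatFunc F) z + 1 = 0 := by
    rw [← map_pow, ← map_pow, ← map_pow, ← map_add, ← map_add, ← map_add, ← map_one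
      (algebraMap F (RatFunc F)), ← map_add, hz, _root_.map_zero]
  exact Tors86.card_torsionBy_five (by norm_num) (by norm_num) (by norm_num) hz'
    (kf_generic_ne_zero h)

end generic


/-! ### The specialisation statement (shape of `Spec/Main20.exists_equivariant_addEquiv`) -/

/-- The generic fibre over `ℚ̄(T)` of a Weierstrass curve over `ℚ[T]`. -/
noncomputable def genFibre (Wp : WeierstrassCurve ℚ[X]) : WeierstrassCurve (RatFunc Qb) :=
  Wp.map ((algebraMap Qb[X] (RatFunc Qb)).comp (Polynomial.mapRingHom (algebraMap ℚ Qb)))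

/-- The specialisation theorem (helper20, `Spec/Main20`), for `k = ℚ`, `F = ℚ̄`. -/
def SpecShape : Prop :=
  ∀ [DecidableEq (RatFunc Qb)] (Wp : WeierstrassCurve ℚ[X]) {n : ℕ} (_ : Odd n)
    (_ : n ^ 2 ≤ Nat.card (Submodule.torsionBy ℤ (genFibre Wp).toAffine.Point (n : ℤ)))
    (t0 t1 : ℚ) (_ : (Wp.map (Polynomial.evalRingHom t0)).Δ ≠ 0)
    (_ : (Wp.map (Polynomial.evalRingHom t1)).Δ ≠ 0),
    ∃ φ : TorsQ (Wp.map (Polynomial.evalRingHom t0)) n ≃+
        TorsQ (Wp.map (Polynomial.evalRingHom t1)) n,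
      ∀ (σ : GQ) (x : TorsQ (Wp.map (Polynomial.evalRingHom t0)) n), φ (σ • x) = σ • φ x

/-- Transport of the conclusion of `SpecShape` along equalities of curves. -/
theorem transport_equiv {E0 E0' E1 E1' : WeierstrassCurve ℚ} (h0 : E0 = E0') (h1 : E1 = E1')
    {n : ℕ}
    (H : ∃ φ : TorsQ E0 n ≃+ TorsQ E1 n, ∀ (σ : GQ) (x : TorsQ E0 n), φ (σ • x) = σ • φ x) :
    ∃ φ : TorsQ E0' n ≃+ TorsQ E1' n, ∀ (σ : GQ) (x : TorsQ E0' n), φ (σ • x) = σ • φ x := by
  subst h0; subst h1; exact H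

/-- Discriminant of the short curve of the invariants. -/
theorem shortCurve_Δ {R : Type*} [CommRing R] (c4 c6 : R) :
    (shortCurve c4 c6).Δ = 1259712 * (c4 ^ 3 - c6 ^ 2) := by
  simp only [WeierstrassCurve.Δ, WeierstrassCurve.b₂, WeierstrassCurve.b₄, WeierstrassCurve.b₆,
    WeierstrassCurve.b₈, shortCurve_a₁, shortCurve_a₂, shortCurve_a₃, shortCurve_a₄,
    shortCurve_a₆]
  ring

theorem shortCurve_Δ_ne_zero (W : WeierstrassCurve ℤ) (hΔ : W.Δ ≠ 0) :
    (shortCurve (W.c₄ : ℚ) (W.c₆ : ℚ)).Δ ≠ 0 := by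
  rw [shortCurve_Δ]
  have h : ((W.c₄ : ℤ) : ℚ) ^ 3 - ((W.c₆ : ℤ) : ℚ) ^ 2 = ((1728 * W.Δ : ℤ) : ℚ) := by
    rw [W.c_relation]; push_cast; ring
  rw [h]
  exact mul_ne_zero (by norm_num) (by exact_mod_cast mul_ne_zero (by norm_num) hΔ)

/-- The pencil with given coefficient polynomials. -/
noncomputable def pencil (a4 a6 : ℚ[X]) : WeierstrassCurve ℚ[X] := ⟨0, 0, 0, a4, a6⟩

section main

variable {u0 v0 : Qb} {a4 a6 : ℚ[X]}

/-- Values of the coefficient polynomials at a rational parameter. -/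
theorem algebraMap_eval_a4
    (hA : a4.map (algebraMap ℚ Qb) = 27 * kH (Upoly u0 v0) (Vpoly u0 v0)) (s : ℚ) :
    algebraMap ℚ Qb (a4.eval s)
      = 27 * kH (u0 + (s : Qb) * kfv u0 v0) (v0 - (s : Qb) * kfu u0 v0) := by
  have h := congrArg (Polynomial.evalRingHom (algebraMap ℚ Qb s)) hA
  rw [Polynomial.coe_evalRingHom, Polynomial.eval_map, Polynomial.eval₂_at_apply] at h
  rw [h, ← Polynomial.coe_evalRingHom, map_mul, map_kH, Polynomial.coe_evalRingHom,
    eval_Upoly, eval_Vpoly, eq_ratCast]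
  simp


theorem algebraMap_eval_a6
    (hB : a6.map (algebraMap ℚ Qb) = 54 * kT (Upoly u0 v0) (Vpoly u0 v0)) (s : ℚ) :
    algebraMap ℚ Qb (a6.eval s)
      = 54 * kT (u0 + (s : Qb) * kfv u0 v0) (v0 - (s : Qb) * kfu u0 v0) := by
  have h := congrArg (Polynomial.evalRingHom (algebraMap ℚ Qb s)) hB
  rw [Polynomial.coe_evalRingHom, Polynomial.eval_map, Polynomial.eval₂_at_apply] at h
  rw [h, ← Polynomial.coe_evalRingHom, map_mul, map_kT, Polynomial.coe_evalRingHom,
    eval_Upoly, eval_Vpoly, eq_ratCast]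
  simp

/-- The member of the pencil at a rational parameter is the short curve of its invariants. -/
theorem pencil_eval_eq
    (hA : a4.map (algebraMap ℚ Qb) = 27 * kH (Upoly u0 v0) (Vpoly u0 v0))
    (hB : a6.map (algebraMap ℚ Qb) = 54 * kT (Upoly u0 v0) (Vpoly u0 v0)) (s c4' c6' : ℚ)
    (hH : kH (u0 + (s : Qb) * kfv u0 v0) (v0 - (s : Qb) * kfu u0 v0) = -(c4' : Qb))
    (hT : kT (u0 + (s : Qb) * kfv u0 v0) (v0 - (s : Qb) * kfu u0 v0) = -(c6' : Qb)) :
    (pencil a4 a6).map (Polynomial.evalRingHom s) = shortCurve c4' c6' := by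
  have hinj : Function.Injective (algebraMap ℚ Qb) := (algebraMap ℚ Qb).injective
  have h4 : a4.eval s = -27 * c4' := by
    apply hinj
    rw [algebraMap_eval_a4 hA, hH, eq_ratCast]
    push_cast; ring
  have h6 : a6.eval s = -54 * c6' := by
    apply hinj
    rw [algebraMap_eval_a6 hB, hT, eq_ratCast]
    push_cast; ring
  ext
  · simp [pencil]
  · simp [pencil]
  · simp [pencil]
  · simp [pencil, h4]
  · simp [pencil, h6]

/-- The generic fibre of the pencil is the universal Klein curve at the generic point. -/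
theorem genFibre_pencil
    (hA : a4.map (algebraMap ℚ Qb) = 27 * kH (Upoly u0 v0) (Vpoly u0 v0))
    (hB : a6.map (algebraMap ℚ Qb) = 54 * kT (Upoly u0 v0) (Vpoly u0 v0)) :
    genFibre (pencil a4 a6) = Tors86.kE (algebraMap Qb[X] (RatFunc Qb) (Upoly u0 v0))
      (algebraMap Qb[X] (RatFunc Qb) (Vpoly u0 v0)) := by
  unfold genFibre Tors86.kE Tors86.short pencil
  ext
  · simp
  · simp
  · simp
  · simp only [WeierstrassCurve.map_a₄, RingHom.comp_apply, Polynomial.coe_mapRingHom, hA, map_mul,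
      map_kH, kH86_eq, map_ofNat]
  · simp only [WeierstrassCurve.map_a₆, RingHom.comp_apply, Polynomial.coe_mapRingHom, hB, map_mul,
      map_kT, kT86_eq, map_ofNat]

/-- `kf p₀ ≠ 0` at a base point of a model with `Δ ≠ 0`. -/
theorem kf_ne_zero_of_model (W : WeierstrassCurve ℤ) (hΔ : W.Δ ≠ 0)
    (hH0 : kH u0 v0 = -(W.c₄ : Qb)) (hT0 : kT u0 v0 = -(W.c₆ : Qb)) : kf u0 v0 ≠ 0 := by
  intro h0
  have h1 := klein_relation u0 v0
  rw [hH0, hT0, h0] at h1
  have h2 : ((1728 * W.Δ : ℤ) : Qb) = 0 := by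
    rw [W.c_relation]; push_cast; linear_combination -h1
  have : (1728 * W.Δ : ℤ) = 0 := by exact_mod_cast h2
  exact hΔ (by omega)

/-- **The (B)-glue**, from the specialisation theorem and the rationality of the pencil. -/
theorem exists_hom_member_of_polys (hspec : SpecShape) (W W2 : WeierstrassCurve ℤ)
    (hΔ : W.Δ ≠ 0) (hΔ2 : W2.Δ ≠ 0)
    (hH0 : kH u0 v0 = -(W.c₄ : Qb)) (hT0 : kT u0 v0 = -(W.c₆ : Qb))
    (hA : a4.map (algebraMap ℚ Qb) = 27 * kH (Upoly u0 v0) (Vpoly u0 v0))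
    (hB : a6.map (algebraMap ℚ Qb) = 54 * kT (Upoly u0 v0) (Vpoly u0 v0)) (t : ℚ)
    (hH : kH (u0 + (t : Qb) * kfv u0 v0) (v0 - (t : Qb) * kfu u0 v0) = -(W2.c₄ : Qb))
    (hT : kT (u0 + (t : Qb) * kfv u0 v0) (v0 - (t : Qb) * kfu u0 v0) = -(W2.c₆ : Qb)) :
    ∃ φ : TorsQ (W.map (Int.castRingHom ℚ)) 5 →+ TorsQ (W2.map (Int.castRingHom ℚ)) 5,
      Function.Surjective φ ∧
        ∀ (σ : GQ) (x : TorsQ (W.map (Int.castRingHom ℚ)) 5), φ (σ • x) = σ • φ x := by
  classical
  have hf : kf u0 v0 ≠ 0 := kf_ne_zero_of_model W hΔ hH0 hT0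
  have e0 : (pencil a4 a6).map (Polynomial.evalRingHom 0)
      = shortCurve (W.c₄ : ℚ) (W.c₆ : ℚ) := by
    apply pencil_eval_eq hA hB
    · simpa using hH0
    · simpa using hT0
  have e1 : (pencil a4 a6).map (Polynomial.evalRingHom t)
      = shortCurve (W2.c₄ : ℚ) (W2.c₆ : ℚ) := by
    apply pencil_eval_eq hA hB
    · simpa using hH
    · simpa using hT
  have hgen : 5 ^ 2 ≤ Nat.card (Submodule.torsionBy ℤ
      (genFibre (pencil a4 a6)).toAffine.Point ((5 : ℕ) : ℤ)) := by
    rw [genFibre_pencil hA hB]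
    exact (card_generic hf).ge
  obtain ⟨ψ, hψ⟩ := transport_equiv e0 e1
    (hspec (pencil a4 a6) (by decide : Odd 5) hgen 0 t
      (by rw [e0]; exact shortCurve_Δ_ne_zero W hΔ)
      (by rw [e1]; exact shortCurve_Δ_ne_zero W2 hΔ2))
  exact exists_hom_of_short W W2 5 ψ.toAddMonoidHom ψ.surjective hψ

end main

end Fermat.Agent.S52.Klein.BGlue80
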