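/-
S52 (the 3-5 switch), brick K1' (helper51): the Taylor polynomials of Klein's forms along the line
`p + t q(p)`, `q(p) = (∂f/∂v, -∂f/∂u)(p)` (the tangent direction of the level curve of `f`):

  `H(p + t q) = hTw (H p) (T p) t`,  `T(p + t q) = tTw (H p) (T p) t`,
  `f(p + t q) = f(p) * gTw (H p) (T p) t`

(proved in `TwistH51`, `TwistT51`, `TwistF51`), where `hTw, tTw, gTw` are the explicit polynomials
below, with INTEGER coefficients in `H, T, t` (degrees `20, 30, 12` in `t`).  Consequently the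
family `c₄(t) = -hTw (-c₄) (-c₆) t`, `c₆(t) = -tTw (-c₄) (-c₆) t` attached to an integral model
consists of integers for integer `t`.
-/
import Mathlib.Tactic.Ring
import Mathlib.Tactic.LinearCombination
import Mathlib.Algebra.Ring.Hom.Defs
import Mathlib.Algebra.Group.Hom.Defs

set_option autoImplicit false

namespace Fermat.Agent.S52.Klein.Twist51

variable {R : Type*} [CommRing R]

/-- Taylor polynomial of `H` along the line. -/
def hTw (H T t : R) : R :=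
  (H)
    + (-20 * T) * t
    + (-190 * H ^ 2) * t ^ 2
    + (1140 * H * T) * t ^ 3
    + (-5700 * T ^ 2 - 855 * H ^ 3) * t ^ 4
    + (-15504 * H ^ 2 * T) * t ^ 5
    + (-63840 * H * T ^ 2 - 102600 * H ^ 4) * t ^ 6
    + (182400 * T ^ 3 + 259920 * H ^ 3 * T) * t ^ 7
    + (-1126320 * H ^ 2 * T ^ 2 - 1000350 * H ^ 5) * t ^ 8
    + (7904000 * H * T ^ 3 + 7736040 * H ^ 4 * T) * t ^ 9
    + (-15808000 * T ^ 4 - 5619744 * H ^ 3 * T ^ 2 + 10003500 * H ^ 6) * t ^ 10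
    + (-54853760 * H ^ 2 * T ^ 3 - 54685800 * H ^ 5 * T) * t ^ 11
    + (37939200 * H * T ^ 4 - 7202520 * H ^ 4 * T ^ 2 - 45015750 * H ^ 7) * t ^ 12
    + (-58368000 * T ^ 5 - 23201280 * H ^ 3 * T ^ 3 + 35089200 * H ^ 6 * T) * t ^ 13
    + (-287462400 * H ^ 2 * T ^ 4 - 495188640 * H ^ 5 * T ^ 2 - 207765000 * H ^ 8) * t ^ 14
    + (466944000 * H * T ^ 5 + 882458496 * H ^ 4 * T ^ 3 + 415530000 * H ^ 7 * T) * t ^ 15
    + (-583680000 * T ^ 6 - 1220474880 * H ^ 3 * T ^ 4 - 714711600 * H ^ 6 * T ^ 2 - 77911875 * H ^ 9) * t ^ 16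
    + (-361881600 * H ^ 2 * T ^ 5 - 715080960 * H ^ 5 * T ^ 3 - 353200500 * H ^ 8 * T) * t ^ 17
    + (-622592000 * H * T ^ 6 - 2026391040 * H ^ 4 * T ^ 4 - 2182917600 * H ^ 7 * T ^ 2 - 779118750 * H ^ 10) * t ^ 18
    + (655360000 * T ^ 7 + 2005401600 * H ^ 3 * T ^ 5 + 2044414080 * H ^ 6 * T ^ 3 + 694372500 * H ^ 9 * T) * t ^ 19
    + (180224000 * H ^ 2 * T ^ 6 + 544997376 * H ^ 5 * T ^ 4 + 549301500 * H ^ 8 * T ^ 2 + 184528125 * H ^ 11) * t ^ 20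

/-- Taylor polynomial of `T` along the line. -/
def tTw (H T t : R) : R :=
  (T)
    + (30 * H ^ 2) * t
    + (-435 * H * T) * t ^ 2
    + (2900 * T ^ 2 - 1160 * H ^ 3) * t ^ 3
    + (27405 * H ^ 2 * T) * t ^ 4
    + (-46980 * H * T ^ 2 + 95526 * H ^ 4) * t ^ 5
    + (156600 * T ^ 3 - 437175 * H ^ 3 * T) * t ^ 6
    + (3915000 * H ^ 2 * T ^ 2 + 1879200 * H ^ 5) * t ^ 7
    + (-14407200 * H * T ^ 3 - 8554275 * H ^ 4 * T) * t ^ 8
    + (32016000 * T ^ 4 + 42021000 * H ^ 3 * T ^ 2 + 24312150 * H ^ 6) * t ^ 9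
    + (-216588240 * H ^ 2 * T ^ 3 - 246633255 * H ^ 5 * T) * t ^ 10
    + (1459929600 * H * T ^ 4 + 1352475900 * H ^ 4 * T ^ 2 - 162081000 * H ^ 7) * t ^ 11
    + (-2433216000 * T ^ 5 + 1612005600 * H ^ 3 * T ^ 3 + 4131714825 * H ^ 6 * T) * t ^ 12
    + (-12044419200 * H ^ 2 * T ^ 4 - 5235216300 * H ^ 5 * T ^ 2 + 6928962750 * H ^ 8) * t ^ 13
    + (-43045111800 * H ^ 4 * T ^ 3 - 43190534475 * H ^ 7 * T) * t ^ 14
    + (79420170240 * H ^ 3 * T ^ 4 + 79575287760 * H ^ 6 * T ^ 2) * t ^ 15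
    + (-297825638400 * H ^ 2 * T ^ 5 - 474659611200 * H ^ 5 * T ^ 3 - 176688550125 * H ^ 8 * T) * t ^ 16
    + (700766208000 * H * T ^ 6 + 935084908800 * H ^ 4 * T ^ 4 - 77604382800 * H ^ 7 * T ^ 2 - 311803323750 * H ^ 10) * t ^ 17
    + (-778629120000 * T ^ 7 + 303665356800 * H ^ 3 * T ^ 5 + 2776512362400 * H ^ 6 * T ^ 3 + 1694131392375 * H ^ 9 * T) * t ^ 18
    + (-4290656256000 * H ^ 2 * T ^ 6 - 8100765158400 * H ^ 5 * T ^ 4 - 3481840250100 * H ^ 8 * T ^ 2 + 328214025000 * H ^ 11) * t ^ 19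
    + (3442360320000 * H * T ^ 7 + 3892110842880 * H ^ 4 * T ^ 5 - 2424887357760 * H ^ 7 * T ^ 3 - 2874607835625 * H ^ 10 * T) * t ^ 20
    + (-3278438400000 * T ^ 8 - 5125838438400 * H ^ 3 * T ^ 6 - 2709129888000 * H ^ 6 * T ^ 4 - 3077188825500 * H ^ 9 * T ^ 2 - 2215444668750 * H ^ 12) * t ^ 21
    + (-4573421568000 * H ^ 2 * T ^ 7 - 7701051801600 * H ^ 5 * T ^ 5 - 1724509423800 * H ^ 8 * T ^ 3 + 1403114956875 * H ^ 11 * T) * t ^ 22
    + (-6157762560000 * H * T ^ 8 - 30337884979200 * H ^ 4 * T ^ 6 - 49888700928000 * H ^ 7 * T ^ 4 - 33414470973000 * H ^ 10 * T ^ 2 - 7705894500000 * H ^ 13) * t ^ 23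
    + (5131468800000 * T ^ 9 + 22779445248000 * H ^ 3 * T ^ 7 + 35246094796800 * H ^ 6 * T ^ 5 + 22687218914400 * H ^ 9 * T ^ 3 + 5089101159375 * H ^ 12 * T) * t ^ 24
    + (-18216714240000 * H ^ 2 * T ^ 8 - 71274600677376 * H ^ 5 * T ^ 6 - 105528606261120 * H ^ 8 * T ^ 4 - 70097953635000 * H ^ 11 * T ^ 2 - 17627233668750 * H ^ 14) * t ^ 25
    + (41051750400000 * H * T ^ 9 + 163803539865600 * H ^ 4 * T ^ 7 + 245438120632320 * H ^ 7 * T ^ 5 + 163672057566000 * H ^ 10 * T ^ 3 + 40985726371875 * H ^ 13 * T) * t ^ 26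
    + (-30408704000000 * T ^ 10 - 111934439424000 * H ^ 3 * T ^ 8 - 143803576074240 * H ^ 6 * T ^ 6 - 63806176396800 * H ^ 9 * T ^ 4 + 8104032382500 * H ^ 12 * T ^ 2 + 9632368125000 * H ^ 15) * t ^ 27
    + (-21438136320000 * H ^ 2 * T ^ 9 - 85731449241600 * H ^ 5 * T ^ 7 - 128580522647040 * H ^ 8 * T ^ 5 - 85719228804000 * H ^ 11 * T ^ 3 - 21432019078125 * H ^ 14 * T) * t ^ 28
    + (-5033164800000 * H * T ^ 10 - 31344427008000 * H ^ 4 * T ^ 8 - 75042714746880 * H ^ 7 * T ^ 6 - 87394892457600 * H ^ 10 * T ^ 4 - 49873523512500 * H ^ 13 * T ^ 2 - 11210083593750 * H ^ 16) * t ^ 29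
    + (3355443200000 * T ^ 11 + 17532190720000 * H ^ 3 * T ^ 9 + 36574189977600 * H ^ 6 * T ^ 7 + 38083944628224 * H ^ 9 * T ^ 5 + 19796866155000 * H ^ 12 * T ^ 3 + 4110363984375 * H ^ 15 * T) * t ^ 30

/-- Taylor polynomial of `f / f(p)` along the line. -/
def gTw (H T t : R) : R :=
  (1)
    + (66 * H) * t ^ 2
    + (-440 * T) * t ^ 3
    + (-1485 * H ^ 2) * t ^ 4
    + (3168 * H * T) * t ^ 5
    + (-10560 * T ^ 2 - 5940 * H ^ 3) * t ^ 6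
    + (-4752 * H ^ 2 * T) * t ^ 7
    + (-63360 * H * T ^ 2 - 66825 * H ^ 4) * t ^ 8
    + (140800 * T ^ 3 + 142560 * H ^ 3 * T) * t ^ 9
    + (133056 * H ^ 2 * T ^ 2 + 133650 * H ^ 5) * t ^ 10
    + (-61440 * H * T ^ 3 - 61560 * H ^ 4 * T) * t ^ 11
    + (102400 * T ^ 4 + 193536 * H ^ 3 * T ^ 2 + 91125 * H ^ 6) * t ^ 12

theorem hTw_zero (H T : R) : hTw H T 0 = H := by
  unfold hTw; ring

theorem tTw_zero (H T : R) : tTw H T 0 = T := by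
  unfold tTw; ring

theorem gTw_zero (H T : R) : gTw H T 0 = 1 := by
  unfold gTw; ring

end Fermat.Agent.S52.Klein.Twist51
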