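/-
S52, brick K1' (helper51): `H(p + t q(p)) = hTw (H p) (T p) t` (one `ring` identity of degree 220).
-/
import Mathlib.Tactic.Ring
import Fermat.Agent.S52.Klein.Defs51
import Fermat.Agent.S52.Klein.TwistDefs51

set_option autoImplicit false

namespace Fermat.Agent.S52.Klein.Twist51

open Fermat.Agent.S52.Klein

variable {R : Type*} [CommRing R]

set_option maxHeartbeats 4000000 in
theorem kH_twist (u v t : R) :
    kH (u + t * kfv u v) (v - t * kfu u v) = hTw (kH u v) (kT u v) t := by
  unfold hTw kH kT kfu kfv
  ring

end Fermat.Agent.S52.Klein.Twist51
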