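/-
S52, brick K1' (helper51): the relation `(T² + H³) g⁵ - h³ = τ²` between the Taylor polynomials
(Klein's relation along the line), an identity in `ℤ[H, T, t]`.
-/
import Mathlib.Tactic.Ring
import Fermat.Agent.S52.Klein.TwistDefs51

set_option autoImplicit false

namespace Fermat.Agent.S52.Klein.Twist51

variable {R : Type*} [CommRing R]

set_option maxHeartbeats 4000000 in
theorem twist_relation (H T t : R) :
    (T ^ 2 + H ^ 3) * gTw H T t ^ 5 - hTw H T t ^ 3 = tTw H T t ^ 2 := by
  unfold gTw hTw tTw
  ring

end Fermat.Agent.S52.Klein.Twist51
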