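/-
S52, brick K1' (helper51): `T(p + t q(p)) = tTw (H p) (T p) t`, in any commutative ring.

Instead of a brute force `ring` identity of degree 330, we use Klein's relation along the line:
`T(p(t))² = 1728 f(p(t))⁵ - H(p(t))³ = (T² + H³) g⁵ - h³ = τ²` (`TwistH51`, `TwistF51`,
`TwistRel51`); in the domain `ℤ[u, v, t]` this gives `T(p(t)) = ± τ`, the sign is fixed by
evaluating at `(u, v, t) = (1, 0, 0)`, and the identity is transported to any commutative ring.
-/
import Mathlib
import Fermat.Agent.S52.Klein.Defs51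
import Fermat.Agent.S52.Klein.TwistDefs51
import Fermat.Agent.S52.Klein.TwistH51
import Fermat.Agent.S52.Klein.TwistF51
import Fermat.Agent.S52.Klein.TwistRel51

set_option autoImplicit false

namespace Fermat.Agent.S52.Klein.Twist51

open Fermat.Agent.S52.Klein

section maps

variable {R S : Type*} [CommRing R] [CommRing S] (φ : R →+* S)

theorem map_kf (u v : R) : φ (kf u v) = kf (φ u) (φ v) := by
  simp only [kf, map_add, map_sub, map_mul, map_pow, map_ofNat]

theorem map_kH (u v : R) : φ (kH u v) = kH (φ u) (φ v) := by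
  simp only [kH, map_add, map_sub, map_mul, map_pow, map_neg, map_ofNat]

theorem map_kT (u v : R) : φ (kT u v) = kT (φ u) (φ v) := by
  simp only [kT, map_add, map_sub, map_mul, map_pow, map_ofNat]

theorem map_kfu (u v : R) : φ (kfu u v) = kfu (φ u) (φ v) := by
  simp only [kfu, map_add, map_sub, map_mul, map_pow, map_ofNat]

theorem map_kfv (u v : R) : φ (kfv u v) = kfv (φ u) (φ v) := by
  simp only [kfv, map_add, map_sub, map_mul, map_pow, map_ofNat]

theorem map_hTw (H T t : R) : φ (hTw H T t) = hTw (φ H) (φ T) (φ t) := by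
  simp only [hTw, map_add, map_sub, map_mul, map_pow, map_neg, map_ofNat]

theorem map_tTw (H T t : R) : φ (tTw H T t) = tTw (φ H) (φ T) (φ t) := by
  simp only [tTw, map_add, map_sub, map_mul, map_pow, map_neg, map_ofNat]

theorem map_gTw (H T t : R) : φ (gTw H T t) = gTw (φ H) (φ T) (φ t) := by
  simp only [gTw, map_add, map_sub, map_mul, map_pow, map_neg, map_ofNat, map_one]

end maps

variable {R : Type*} [CommRing R]

/-- the square of the identity, from Klein's relation along the line. -/
theorem kT_twist_sq (u v t : R) :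
    kT (u + t * kfv u v) (v - t * kfu u v) ^ 2 = tTw (kH u v) (kT u v) t ^ 2 := by
  have h1 := klein_relation (u + t * kfv u v) (v - t * kfu u v)
  rw [kH_twist, kf_twist] at h1
  have h2 := klein_relation u v
  have h3 := twist_relation (kH u v) (kT u v) t
  linear_combination h1 - (gTw (kH u v) (kT u v) t) ^ 5 * h2 + h3

/-- the identity in the universal ring `ℤ[u, v, t]`. -/
theorem kT_twist_mv :
    kT ((MvPolynomial.X 0 : MvPolynomial (Fin 3) ℤ) +
          MvPolynomial.X 2 * kfv (MvPolynomial.X 0) (MvPolynomial.X 1))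
        (MvPolynomial.X 1 - MvPolynomial.X 2 * kfu (MvPolynomial.X 0) (MvPolynomial.X 1)) =
      tTw (kH (MvPolynomial.X 0 : MvPolynomial (Fin 3) ℤ) (MvPolynomial.X 1))
        (kT (MvPolynomial.X 0) (MvPolynomial.X 1)) (MvPolynomial.X 2) := by
  have hsq := kT_twist_sq (MvPolynomial.X 0 : MvPolynomial (Fin 3) ℤ) (MvPolynomial.X 1)
    (MvPolynomial.X 2)
  rcases sq_eq_sq_iff_eq_or_eq_neg.mp hsq with h | h
  · exact h
  · exfalso
    have h' := congrArg (MvPolynomial.eval (![1, 0, 0] : Fin 3 → ℤ)) h
    rw [map_neg, map_kT, map_tTw, map_kH, map_kT] at h'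
    simp only [map_add, map_sub, map_mul, MvPolynomial.eval_X, Matrix.cons_val_zero,
      Matrix.cons_val_one, Matrix.cons_val_two, Matrix.head_cons, Matrix.tail_cons,
      zero_mul, add_zero, sub_zero] at h'
    rw [tTw_zero] at h'
    have h1 : kT (1 : ℤ) 0 = 1 := by norm_num [kT]
    rw [h1] at h'
    norm_num at h'

/-- **`T(p + t q(p)) = tTw (H p) (T p) t`** in any commutative ring. -/
theorem kT_twist (u v t : R) :
    kT (u + t * kfv u v) (v - t * kfu u v) = tTw (kH u v) (kT u v) t := by
  have h := congrArg (MvPolynomial.eval₂Hom (Int.castRingHom R) (![u, v, t] : Fin 3 → R))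
    kT_twist_mv
  rw [map_kT, map_tTw, map_kH, map_kT] at h
  simpa only [map_add, map_sub, map_mul, map_kfu, map_kfv, MvPolynomial.eval₂Hom_X',
    Matrix.cons_val_zero, Matrix.cons_val_one, Matrix.cons_val_two, Matrix.head_cons,
    Matrix.tail_cons] using h

end Fermat.Agent.S52.Klein.Twist51
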