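/-
S52 (3-5 switch), route (C), Klein-side brick "C-link" -- helper99.

RIGIDITY of the base point and the `j = 1728` member `t*` of the twisted Klein family.

Setting (conventions of the S52 squad): Klein's forms `f = kF` (degree 12), `H = kH` (degree 20),
`T = kT` (degree 30); universal curve `E_p : y² = x³ + 27 H(p) x + 54 T(p)`; the rational
5-torsion section `P₁₀(p) = (X10 p, Y10 p)`; twisted family `p(t) = p₀ + t q₀`,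
`q₀ = (f_v, -f_u)(p₀)`.

Results (pure algebra, Mathlib only):
* `sumA`, `sumB` : character sums of the ten forms `X10 (ζ^b u) v`, `X10 v (-(ζ^b u))`
  (`= x`-coordinates of ten 5-torsion points of `E_p`) isolate the monomials `u⁴v⁶`, `u⁵v⁵`.
* `rigid` : if `(u', v')` has the same ten values as `(u, v)` (`u v ≠ 0`) then
  `(u', v') = lam (u, v)` with `lam ^ 10 = 1`.
* `tstar` : `t* = (i v - u) / (f_v + i f_u)`; `kT_tstar`, `kH_tstar_ne` : the member at `t*` has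
  `T = 0` (so `c₆ = 0`, `j = 1728`) and `H ≠ 0`.
* `map_tstar_of_fixed` : a ring endomorphism `σ` fixing `ζ`, `i` and the ten `x`-coordinates
  fixes `t*`.
* `exists_tstar` : packaged form (choice of the sign of `i` making the denominator nonzero).
-/
import Mathlib

set_option autoImplicit false

namespace Fermat.Agent.S52.Klein.Rigid99

section forms

variable {R : Type*} [CommRing R]

/-- Klein's icosahedral form of degree `12`. -/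
def kF (u v : R) : R := u * v * (u ^ 10 + 11 * u ^ 5 * v ^ 5 - v ^ 10)

/-- `∂f/∂u`. -/
def kFu (u v : R) : R := 11 * u ^ 10 * v + 66 * u ^ 5 * v ^ 6 - v ^ 11

/-- `∂f/∂v`. -/
def kFv (u v : R) : R := u ^ 11 + 66 * u ^ 6 * v ^ 5 - 11 * u * v ^ 10

/-- Klein's Hessian form of degree `20` (Klein's sign: `T² + H³ = 1728 f⁵`). -/
def kH (u v : R) : R :=
  -(u ^ 20 + v ^ 20) + 228 * (u ^ 15 * v ^ 5 - u ^ 5 * v ^ 15) - 494 * u ^ 10 * v ^ 10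

/-- Klein's form of degree `30`. -/
def kT (u v : R) : R :=
  u ^ 30 + v ^ 30 + 522 * (u ^ 25 * v ^ 5 - u ^ 5 * v ^ 25)
    - 10005 * (u ^ 20 * v ^ 10 + u ^ 10 * v ^ 20)

/-- The `x`-coordinate (a form of degree `10` with rational coefficients) of the rational
5-torsion section `P₁₀` of `y² = x³ + 27 H x + 54 T`. -/
def X10 (u v : R) : R :=
  3 * (u ^ 10 + 12 * u ^ 8 * v ^ 2 - 12 * u ^ 7 * v ^ 3 + 24 * u ^ 6 * v ^ 4 + 30 * u ^ 5 * v ^ 5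
    + 60 * u ^ 4 * v ^ 6 + 36 * u ^ 3 * v ^ 7 + 24 * u ^ 2 * v ^ 8 + 12 * u * v ^ 9 + v ^ 10)

/-- Euler's identity for `f`. -/
lemma euler (u v : R) : u * kFu u v + v * kFv u v = 12 * kF u v := by
  simp only [kF, kFu, kFv]; ring

/-- Klein's syzygy. -/
lemma syzygy (u v : R) : kT u v ^ 2 + kH u v ^ 3 = 1728 * kF u v ^ 5 := by
  simp only [kF, kH, kT]; ring

lemma kFu_smul (w u v : R) : kFu (w * u) (w * v) = w ^ 11 * kFu u v := by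
  simp only [kFu]; ring

lemma kFv_smul (w u v : R) : kFv (w * u) (w * v) = w ^ 11 * kFv u v := by
  simp only [kFv]; ring

lemma kF_smul (w u v : R) : kF (w * u) (w * v) = w ^ 12 * kF u v := by
  simp only [kF]; ring

lemma kH_smul (w u v : R) : kH (w * u) (w * v) = w ^ 20 * kH u v := by
  simp only [kH]; ring

lemma kT_smul (w u v : R) : kT (w * u) (w * v) = w ^ 30 * kT u v := by
  simp only [kT]; ring

lemma map_X10 {S : Type*} [CommRing S] (φ : R →+* S) (u v : R) :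
    φ (X10 u v) = X10 (φ u) (φ v) := by
  simp only [X10, map_mul, map_add, map_sub, map_pow, map_ofNat]

lemma map_kFu {S : Type*} [CommRing S] (φ : R →+* S) (u v : R) :
    φ (kFu u v) = kFu (φ u) (φ v) := by
  simp only [kFu, map_mul, map_add, map_sub, map_pow, map_ofNat]

lemma map_kFv {S : Type*} [CommRing S] (φ : R →+* S) (u v : R) :
    φ (kFv u v) = kFv (φ u) (φ v) := by
  simp only [kFv, map_mul, map_add, map_sub, map_pow, map_ofNat]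

/-- The ten `x`-coordinate forms `X_(1,b)`, `b < 5`. -/
def XA (ζ : R) (b : ℕ) (u v : R) : R := X10 (ζ ^ b * u) v

/-- The ten `x`-coordinate forms `X_(2,b)`, `b < 5` (up to relabelling `b`). -/
def XB (ζ : R) (b : ℕ) (u v : R) : R := X10 v (-(ζ ^ b * u))

/-- Character sum isolating `u⁴ v⁶`. -/
lemma sumA (ζ u v : R) (hζ : ζ ^ 4 + ζ ^ 3 + ζ ^ 2 + ζ + 1 = 0) :
    XA ζ 0 u v + ζ * XA ζ 1 u v + ζ ^ 2 * XA ζ 2 u v + ζ ^ 3 * XA ζ 3 u v + ζ ^ 4 * XA ζ 4 u v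
      = 900 * (u ^ 4 * v ^ 6) := by
  simp only [XA, X10]
  linear_combination
    (3 * ζ ^ 40 * u ^ 10 - 3 * ζ ^ 39 * u ^ 10 + 3 * ζ ^ 35 * u ^ 10 - 3 * ζ ^ 34 * u ^ 10 + 36 * ζ ^ 32 * u ^ 8 * v ^ 2 - 36 * ζ ^ 31 * u ^ 8 * v ^ 2 + 3 * ζ ^ 30 * u ^ 10 - 3 * ζ ^ 28 * u ^ 10 - 36 * ζ ^ 28 * u ^ 7 * v ^ 3 + 36 * ζ ^ 27 * u ^ 8 * v ^ 2 + 36 * ζ ^ 27 * u ^ 7 * v ^ 3 - 36 * ζ ^ 26 * u ^ 8 * v ^ 2 + 3 * ζ ^ 25 * u ^ 10 + 72 * ζ ^ 24 * u ^ 6 * v ^ 4 - 3 * ζ ^ 23 * u ^ 10 + 36 * ζ ^ 23 * u ^ 8 * v ^ 2 - 36 * ζ ^ 23 * u ^ 7 * v ^ 3 - 72 * ζ ^ 23 * u ^ 6 * v ^ 4 + 36 * ζ ^ 22 * u ^ 7 * v ^ 3 - 36 * ζ ^ 21 * u ^ 8 * v ^ 2 + 3 * ζ ^ 20 * u ^ 10 - 36 * ζ ^ 20 * u ^ 7 * v ^ 3 + 90 * ζ ^ 20 * u ^ 5 * v ^ 5 + 36 * ζ ^ 19 * u ^ 7 * v ^ 3 + 72 * ζ ^ 19 * u ^ 6 * v ^ 4 - 90 * ζ ^ 19 * u ^ 5 * v ^ 5 + 36 * ζ ^ 18 * u ^ 8 * v ^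 2 - 36 * ζ ^ 18 * u ^ 7 * v ^ 3 - 72 * ζ ^ 18 * u ^ 6 * v ^ 4 - 3 * ζ ^ 17 * u ^ 10 + 36 * ζ ^ 17 * u ^ 7 * v ^ 3 + 72 * ζ ^ 17 * u ^ 6 * v ^ 4 - 36 * ζ ^ 16 * u ^ 8 * v ^ 2 - 72 * ζ ^ 16 * u ^ 6 * v ^ 4 + 180 * ζ ^ 16 * u ^ 4 * v ^ 6 + 3 * ζ ^ 15 * u ^ 10 - 36 * ζ ^ 15 * u ^ 7 * v ^ 3 + 90 * ζ ^ 15 * u ^ 5 * v ^ 5 - 180 * ζ ^ 15 * u ^ 4 * v ^ 6 + 36 * ζ ^ 14 * u ^ 8 * v ^ 2 + 36 * ζ ^ 14 * u ^ 7 * v ^ 3 + 72 * ζ ^ 14 * u ^ 6 * v ^ 4 - 36 * ζ ^ 13 * u ^ 7 * v ^ 3 - 72 * ζ ^ 13 * u ^ 6 * v ^ 4 - 90 * ζ ^ 13 * u ^ 5 * v ^ 5 - 3 * ζ ^ 12 * u ^ 10 + 72 * ζ ^ 12 * u ^ 6 * v ^ 4 + 108 * ζ ^ 12 * u ^ 3 * v ^ 7 - 36 * ζ ^ 11 * u ^ 8 * v ^ 2 + 36 * ζ ^ 11 * u ^ 7 * v ^ 3 - 72 * ζ ^ 11 * u ^ 6 * v ^ 4 + 360 * ζ ^ 11 * u ^ 4 * v ^ 6 - 108 * ζ ^ 11 * u ^ 3 * v ^ 7 + 3 * ζ ^ 10 * u ^ 10 - 36 * ζ ^ 10 * u ^ 7 * v ^ 3 +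 72 * ζ ^ 10 * u ^ 6 * v ^ 4 + 90 * ζ ^ 10 * u ^ 5 * v ^ 5 - 360 * ζ ^ 10 * u ^ 4 * v ^ 6 + 36 * ζ ^ 9 * u ^ 8 * v ^ 2 + 36 * ζ ^ 9 * u ^ 7 * v ^ 3 - 36 * ζ ^ 8 * u ^ 7 * v ^ 3 - 72 * ζ ^ 8 * u ^ 6 * v ^ 4 + 108 * ζ ^ 8 * u ^ 3 * v ^ 7 + 72 * ζ ^ 8 * u ^ 2 * v ^ 8 + 72 * ζ ^ 7 * u ^ 6 * v ^ 4 - 90 * ζ ^ 7 * u ^ 5 * v ^ 5 - 72 * ζ ^ 7 * u ^ 2 * v ^ 8 - 3 * ζ ^ 6 * u ^ 10 - 36 * ζ ^ 6 * u ^ 8 * v ^ 2 + 36 * ζ ^ 6 * u ^ 7 * v ^ 3 - 72 * ζ ^ 6 * u ^ 6 * v ^ 4 + 540 * ζ ^ 6 * u ^ 4 * v ^ 6 - 108 * ζ ^ 6 * u ^ 3 * v ^ 7 + 3 * ζ ^ 5 * u ^ 10 + 36 * ζ ^ 5 * u ^ 8 * v ^ 2 - 36 * ζ ^ 5 * u ^ 7 * v ^ 3 + 72 * ζ ^ 5 * u ^ 6 * v ^ 4 + 90 * ζ ^ 5 * u ^ 5 * v ^ 5 - 540 * ζ ^ 5 * u ^ 4 * v ^ 6 + 72 * ζ ^ 5 * u ^ 2 * v ^ 8 + 108 * ζ ^ 4 * u ^ 3 * v ^ 7 - 72 * ζ ^ 4 * u ^ 2 * v ^ 8 + 36 * ζ ^ 4 * u * v ^ 9 + 72 * ζ ^ 3 * u ^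 2 * v ^ 8 - 36 * ζ ^ 3 * u * v ^ 9 + 36 * ζ ^ 2 * u * v ^ 9 - 3 * ζ * u ^ 10 - 36 * ζ * u ^ 8 * v ^ 2 + 36 * ζ * u ^ 7 * v ^ 3 - 72 * ζ * u ^ 6 * v ^ 4 - 90 * ζ * u ^ 5 * v ^ 5 + 720 * ζ * u ^ 4 * v ^ 6 - 108 * ζ * u ^ 3 * v ^ 7 - 72 * ζ * u ^ 2 * v ^ 8 - 36 * ζ * u * v ^ 9 + 3 * u ^ 10 + 36 * u ^ 8 * v ^ 2 - 36 * u ^ 7 * v ^ 3 + 72 * u ^ 6 * v ^ 4 + 90 * u ^ 5 * v ^ 5 - 720 * u ^ 4 * v ^ 6 + 108 * u ^ 3 * v ^ 7 + 72 * u ^ 2 * v ^ 8 + 36 * u * v ^ 9 + 3 * v ^ 10) * hζ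

/-- Character sums isolating `u⁵ v⁵`. -/
lemma sumB (ζ u v : R) (hζ : ζ ^ 4 + ζ ^ 3 + ζ ^ 2 + ζ + 1 = 0) :
    (XA ζ 0 u v + XA ζ 1 u v + XA ζ 2 u v + XA ζ 3 u v + XA ζ 4 u v)
      - (XB ζ 0 u v + XB ζ 1 u v + XB ζ 2 u v + XB ζ 3 u v + XB ζ 4 u v)
      = 900 * (u ^ 5 * v ^ 5) := by
  simp only [XA, XB, X10]
  linear_combination
    (36 * ζ ^ 32 * u ^ 9 * v - 36 * ζ ^ 31 * u ^ 9 * v - 36 * ζ ^ 28 * u ^ 8 * v ^ 2 + 36 * ζ ^ 27 * u ^ 9 * v + 36 * ζ ^ 27 * u ^ 8 * v ^ 2 - 36 * ζ ^ 26 * u ^ 9 * v + 72 * ζ ^ 24 * u ^ 7 * v ^ 3 + 36 * ζ ^ 23 * u ^ 9 * v - 36 * ζ ^ 23 * u ^ 8 * v ^ 2 - 72 * ζ ^ 23 * u ^ 7 * v ^ 3 + 36 * ζ ^ 22 * u ^ 8 * v ^ 2 - 36 * ζ ^ 21 * u ^ 9 * v - 36 * ζ ^ 20 * u ^ 8 * v ^ 2 - 108 * ζ ^ 20 * u ^ 6 * v ^ 4 + 36 * ζ ^ 19 * u ^ 8 * v ^ 2 + 72 * ζ ^ 19 * u ^ 7 * v ^ 3 + 108 * ζ ^ 19 * u ^ 6 *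 v ^ 4 + 36 * ζ ^ 18 * u ^ 9 * v - 36 * ζ ^ 18 * u ^ 8 * v ^ 2 - 72 * ζ ^ 18 * u ^ 7 * v ^ 3 + 36 * ζ ^ 17 * u ^ 8 * v ^ 2 + 72 * ζ ^ 17 * u ^ 7 * v ^ 3 - 36 * ζ ^ 16 * u ^ 9 * v - 72 * ζ ^ 16 * u ^ 7 * v ^ 3 + 180 * ζ ^ 16 * u ^ 5 * v ^ 5 - 36 * ζ ^ 15 * u ^ 8 * v ^ 2 - 108 * ζ ^ 15 * u ^ 6 * v ^ 4 - 180 * ζ ^ 15 * u ^ 5 * v ^ 5 + 36 * ζ ^ 14 * u ^ 9 * v + 36 * ζ ^ 14 * u ^ 8 * v ^ 2 + 72 * ζ ^ 14 * u ^ 7 * v ^ 3 - 36 * ζ ^ 13 * u ^ 8 * v ^ 2 - 72 * ζ ^ 13 * u ^ 7 * v ^ 3 + 108 * ζ ^ 13 * u ^ 6 * v ^ 4 + 72 * ζ ^ 12 * u ^ 7 * v ^ 3 + 108 * ζ ^ 12 * u ^ 4 * v ^ 6 - 36 * ζ ^ 11 * u ^ 9 * v + 36 * ζ ^ 11 * u ^ 8 * v ^ 2 - 72 * ζ ^ 11 * u ^ 7 * v ^ 3 + 360 * ζ ^ 11 * u ^ 5 * v ^ 5 - 108 * ζ ^ 11 * u ^ 4 * v ^ 6 - 36 * ζ ^ 10 * u ^ 8 * v ^ 2 + 72 * ζ ^ 10 * u ^ 7 * v ^ 3 - 108 * ζ ^ 10 * u ^ 6 * v ^ 4 - 360 * ζ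 ^ 10 * u ^ 5 * v ^ 5 + 36 * ζ ^ 9 * u ^ 9 * v + 36 * ζ ^ 9 * u ^ 8 * v ^ 2 - 36 * ζ ^ 8 * u ^ 8 * v ^ 2 - 72 * ζ ^ 8 * u ^ 7 * v ^ 3 + 108 * ζ ^ 8 * u ^ 4 * v ^ 6 + 72 * ζ ^ 8 * u ^ 3 * v ^ 7 + 72 * ζ ^ 7 * u ^ 7 * v ^ 3 + 108 * ζ ^ 7 * u ^ 6 * v ^ 4 - 72 * ζ ^ 7 * u ^ 3 * v ^ 7 - 36 * ζ ^ 6 * u ^ 9 * v + 36 * ζ ^ 6 * u ^ 8 * v ^ 2 - 72 * ζ ^ 6 * u ^ 7 * v ^ 3 + 540 * ζ ^ 6 * u ^ 5 * v ^ 5 - 108 * ζ ^ 6 * u ^ 4 * v ^ 6 + 36 * ζ ^ 5 * u ^ 9 * v - 36 * ζ ^ 5 * u ^ 8 * v ^ 2 + 72 * ζ ^ 5 * u ^ 7 * v ^ 3 - 108 * ζ ^ 5 * u ^ 6 * v ^ 4 - 540 * ζ ^ 5 * u ^ 5 * v ^ 5 + 72 * ζ ^ 5 * u ^ 3 * v ^ 7 + 108 * ζ ^ 4 * u ^ 4 * v ^ 6 - 72 * ζ ^ 4 * u ^ 3 * v ^ 7 + 36 * ζ ^ 4 * u ^ 2 * v ^ 8 + 72 * ζ ^ 3 * u ^ 3 * v ^ 7 - 36 * ζ ^ 3 * u ^ 2 * v ^ 8 + 36 * ζ ^ 2 * u ^ 2 * v ^ 8 - 36 * ζ * u ^ 9 * v + 36 * ζ * u ^ 8 * v ^ 2 -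 72 * ζ * u ^ 7 * v ^ 3 + 108 * ζ * u ^ 6 * v ^ 4 + 720 * ζ * u ^ 5 * v ^ 5 - 108 * ζ * u ^ 4 * v ^ 6 - 72 * ζ * u ^ 3 * v ^ 7 - 36 * ζ * u ^ 2 * v ^ 8 + 36 * u ^ 9 * v - 36 * u ^ 8 * v ^ 2 + 72 * u ^ 7 * v ^ 3 - 108 * u ^ 6 * v ^ 4 - 720 * u ^ 5 * v ^ 5 + 108 * u ^ 4 * v ^ 6 + 72 * u ^ 3 * v ^ 7 + 36 * u ^ 2 * v ^ 8 + 36 * u * v ^ 9) * hζ

/-- `T(i μ, μ) = 0`. -/
lemma kT_I (i μ : R) (hi : i ^ 2 = -1) : kT (i * μ) μ = 0 := by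
  simp only [kT]
  linear_combination
    (μ ^ 30 * (i ^ 28 - i ^ 26 + i ^ 24 + 522 * i ^ 23 - i ^ 22 - 522 * i ^ 21 + i ^ 20 + 522 * i ^ 19 - 10006 * i ^ 18 - 522 * i ^ 17 + 10006 * i ^ 16 + 522 * i ^ 15 - 10006 * i ^ 14 - 522 * i ^ 13 + 10006 * i ^ 12 + 522 * i ^ 11 - 10006 * i ^ 10 - 522 * i ^ 9 + i ^ 8 + 522 * i ^ 7 - i ^ 6 - 522 * i ^ 5 + i ^ 4 - i ^ 2 + 1)) * hi

/-- `H(i μ, μ) = μ²⁰ (492 - 456 i)`. -/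
lemma kH_I (i μ : R) (hi : i ^ 2 = -1) : kH (i * μ) μ = μ ^ 20 * (492 - 456 * i) := by
  simp only [kH]
  linear_combination
    (μ ^ 20 * (-i ^ 18 + i ^ 16 - i ^ 14 + 228 * i ^ 13 + i ^ 12 - 228 * i ^ 11 - i ^ 10 + 228 * i ^ 9 - 493 * i ^ 8 - 228 * i ^ 7 + 493 * i ^ 6 + 228 * i ^ 5 - 493 * i ^ 4 - 456 * i ^ 3 + 493 * i ^ 2 + 456 * i - 493)) * hi

end forms

section field

variable {K : Type*} [Field K]

/-- **Rigidity.** The ten `x`-coordinates `X_(1,b)(p)`, `X_(2,b)(p)` determine `p = (u, v)`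
(`u v ≠ 0`) up to a tenth root of unity. -/
theorem rigid (ζ u v u' v' : K) (hζ : ζ ^ 4 + ζ ^ 3 + ζ ^ 2 + ζ + 1 = 0) (h30 : (30 : K) ≠ 0)
    (hu : u ≠ 0) (hv : v ≠ 0)
    (hA : ∀ b < 5, XA ζ b u' v' = XA ζ b u v) (hB : ∀ b < 5, XB ζ b u' v' = XB ζ b u v) :
    ∃ lam : K, lam ^ 10 = 1 ∧ u' = lam * u ∧ v' = lam * v := by
  have h900 : (900 : K) ≠ 0 := by
    have h : (900 : K) = 30 * 30 := by norm_num
    rw [h]; exact mul_ne_zero h30 h30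
  have e4 : u' ^ 4 * v' ^ 6 = u ^ 4 * v ^ 6 := by
    have h1 := sumA ζ u' v' hζ
    have h2 := sumA ζ u v hζ
    rw [hA 0 (by norm_num), hA 1 (by norm_num), hA 2 (by norm_num), hA 3 (by norm_num),
      hA 4 (by norm_num)] at h1
    exact mul_left_cancel₀ h900 (h1.symm.trans h2)
  have e5 : u' ^ 5 * v' ^ 5 = u ^ 5 * v ^ 5 := by
    have h1 := sumB ζ u' v' hζ
    have h2 := sumB ζ u v hζ
    rw [hA 0 (by norm_num), hA 1 (by norm_num), hA 2 (by norm_num), hA 3 (by norm_num),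
      hA 4 (by norm_num), hB 0 (by norm_num), hB 1 (by norm_num), hB 2 (by norm_num),
      hB 3 (by norm_num), hB 4 (by norm_num)] at h1
    exact mul_left_cancel₀ h900 (h1.symm.trans h2)
  have hcross : u * v' = u' * v := by
    have h : u ^ 4 * v ^ 5 * (u * v' - u' * v) = 0 := by
      linear_combination (-v') * e5 + u' * e4
    have h45 : u ^ 4 * v ^ 5 ≠ 0 := mul_ne_zero (pow_ne_zero _ hu) (pow_ne_zero _ hv)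
    have := (mul_eq_zero.mp h).resolve_left h45
    exact sub_eq_zero.mp this
  refine ⟨u' / u, ?_, ?_, ?_⟩
  · have hc5 : u ^ 5 * v' ^ 5 = u' ^ 5 * v ^ 5 := by
      have := congrArg (fun x => x ^ 5) hcross
      simpa only [mul_pow] using this
    have h10 : u' ^ 10 * v ^ 5 = u ^ 10 * v ^ 5 := by
      linear_combination (-(u' ^ 5)) * hc5 + u ^ 5 * e5
    have h10' : u' ^ 10 = u ^ 10 := mul_right_cancel₀ (pow_ne_zero _ hv) h10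
    rw [div_pow, h10', div_self (pow_ne_zero _ hu)]
  · field_simp
  · field_simp
    linear_combination hcross

/-- The parameter `t*` of the member of the twisted family `p + t (f_v, -f_u)(p)` that lies over
the zero `(i : 1)` of `T`. -/
noncomputable def tstar (i u v : K) : K := (i * v - u) / (kFv u v + i * kFu u v)

/-- `t*` is invariant under scaling the base point by a tenth root of unity. -/
lemma tstar_smul (i lam u v : K) (hlam : lam ^ 10 = 1) :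
    tstar i (lam * u) (lam * v) = tstar i u v := by
  have hl : lam ≠ 0 := by
    rintro rfl
    norm_num at hlam
  unfold tstar
  rw [kFv_smul, kFu_smul]
  by_cases hD : kFv u v + i * kFu u v = 0
  · have : lam ^ 11 * kFv u v + i * (lam ^ 11 * kFu u v) = 0 := by
      linear_combination lam ^ 11 * hD
    rw [this, hD, div_zero, div_zero]
  · have hD' : lam ^ 11 * kFv u v + i * (lam ^ 11 * kFu u v) ≠ 0 := by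
      have : lam ^ 11 * kFv u v + i * (lam ^ 11 * kFu u v)
          = lam ^ 11 * (kFv u v + i * kFu u v) := by ring
      rw [this]
      exact mul_ne_zero (pow_ne_zero _ hl) hD
    rw [div_eq_div_iff hD' hD]
    linear_combination (-(lam * (i * v - u) * (kFv u v + i * kFu u v))) * hlam

/-- **`σ` fixes `t*`.** A ring endomorphism of `K` fixing `ζ`, `i` and the ten `x`-coordinates
`X_(1,b)(p)`, `X_(2,b)(p)` of 5-torsion points of `E_p` fixes `t*(p)`. -/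
theorem map_tstar_of_fixed (σ : K →+* K) (ζ i u v : K)
    (hζ : ζ ^ 4 + ζ ^ 3 + ζ ^ 2 + ζ + 1 = 0) (h30 : (30 : K) ≠ 0)
    (hu : u ≠ 0) (hv : v ≠ 0) (hσζ : σ ζ = ζ) (hσi : σ i = i)
    (hA : ∀ b < 5, σ (XA ζ b u v) = XA ζ b u v) (hB : ∀ b < 5, σ (XB ζ b u v) = XB ζ b u v) :
    σ (tstar i u v) = tstar i u v := by
  have hA' : ∀ b < 5, XA ζ b (σ u) (σ v) = XA ζ b u v := by
    intro b hb
    have := hA b hb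
    simpa only [XA, map_X10, map_mul, map_pow, hσζ] using this
  have hB' : ∀ b < 5, XB ζ b (σ u) (σ v) = XB ζ b u v := by
    intro b hb
    have := hB b hb
    simpa only [XB, map_X10, map_mul, map_pow, map_neg, hσζ] using this
  obtain ⟨lam, hlam, hu', hv'⟩ := rigid ζ u v (σ u) (σ v) hζ h30 hu hv hA' hB'
  have h1 : σ (tstar i u v) = tstar i (σ u) (σ v) := by
    unfold tstar
    rw [map_div₀, map_sub, map_mul, map_add, map_mul, map_kFv, map_kFu, hσi]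
  rw [h1, hu', hv', tstar_smul i lam u v hlam]

/-- The point `p + t* q(p)` is `μ (i, 1)`. -/
lemma tstar_point (i u v : K) (hD : kFv u v + i * kFu u v ≠ 0) :
    u + tstar i u v * kFv u v = i * (v - tstar i u v * kFu u v) := by
  unfold tstar
  field_simp
  ring

/-- The member at `t*` has `T = 0` (i.e. `c₆ = 0`, `j = 1728`). -/
theorem kT_tstar (i u v : K) (hi : i ^ 2 = -1) (hD : kFv u v + i * kFu u v ≠ 0) :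
    kT (u + tstar i u v * kFv u v) (v - tstar i u v * kFu u v) = 0 := by
  rw [tstar_point i u v hD]
  exact kT_I i _ hi

/-- The member at `t*` has `H ≠ 0` (i.e. `c₄ ≠ 0`). -/
theorem kH_tstar_ne (i u v : K) (hi : i ^ 2 = -1) (h30 : (30 : K) ≠ 0)
    (hF : kF u v ≠ 0) (hD : kFv u v + i * kFu u v ≠ 0) :
    kH (u + tstar i u v * kFv u v) (v - tstar i u v * kFu u v) ≠ 0 := by
  rw [tstar_point i u v hD, kH_I i _ hi]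
  have h2 : (2 : K) ≠ 0 := fun h => h30 (by linear_combination 15 * h)
  have h3 : (3 : K) ≠ 0 := fun h => h30 (by linear_combination 10 * h)
  have h5 : (5 : K) ≠ 0 := fun h => h30 (by linear_combination 6 * h)
  have hc : (492 - 456 * i : K) ≠ 0 := by
    intro h
    have h' : (450000 : K) = 0 := by
      linear_combination (492 + 456 * i) * h + 207936 * hi
    have : (450000 : K) = 2 ^ 4 * 3 ^ 2 * 5 ^ 5 := by norm_num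
    rw [this] at h'
    exact (mul_ne_zero (mul_ne_zero (pow_ne_zero _ h2) (pow_ne_zero _ h3)) (pow_ne_zero _ h5)) h'
  have hμ : v - tstar i u v * kFu u v ≠ 0 := by
    intro hμ
    have hU : u + tstar i u v * kFv u v = 0 := by
      rw [tstar_point i u v hD, hμ, mul_zero]
    have h12 : (12 : K) * kF u v = 0 := by
      rw [← euler]
      linear_combination kFu u v * hU + kFv u v * hμ
    have h12' : (12 : K) ≠ 0 := by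
      have : (12 : K) = 2 * 2 * 3 := by norm_num
      rw [this]; exact mul_ne_zero (mul_ne_zero h2 h2) h3
    exact hF ((mul_eq_zero.mp h12).resolve_left h12')
  exact mul_ne_zero (pow_ne_zero _ hμ) hc

/-- One of the two signs of `i` gives a nonzero denominator. -/
lemma exists_sign (i u v : K) (h30 : (30 : K) ≠ 0) (hi : i ^ 2 = -1) (hF : kF u v ≠ 0) :
    kFv u v + i * kFu u v ≠ 0 ∨ kFv u v + (-i) * kFu u v ≠ 0 := by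
  by_contra hcon
  rw [not_or, not_not, not_not] at hcon
  obtain ⟨h1, h2⟩ := hcon
  have h2' : (2 : K) ≠ 0 := fun h => h30 (by linear_combination 15 * h)
  have h3' : (3 : K) ≠ 0 := fun h => h30 (by linear_combination 10 * h)
  have hi0 : i ≠ 0 := by
    rintro rfl
    norm_num at hi
  have hv0 : kFv u v = 0 := by
    have : (2 : K) * kFv u v = 0 := by linear_combination h1 + h2
    exact (mul_eq_zero.mp this).resolve_left h2'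
  have hu0 : kFu u v = 0 := by
    have : (2 * i) * kFu u v = 0 := by linear_combination h1 - h2
    exact (mul_eq_zero.mp this).resolve_left (mul_ne_zero h2' hi0)
  have h12 : (12 : K) * kF u v = 0 := by
    rw [← euler, hu0, hv0]; ring
  have h12' : (12 : K) ≠ 0 := by
    have : (12 : K) = 2 * 2 * 3 := by norm_num
    rw [this]; exact mul_ne_zero (mul_ne_zero h2' h2') h3'
  exact hF ((mul_eq_zero.mp h12).resolve_left h12')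

/-- **Packaged form.** For a base point `p = (u, v)` with `f(p) ≠ 0` there are a square root `e`
of `-1` (`e = ± i`) and a parameter `t` such that the member `p + t (f_v, -f_u)(p)` of the twisted
family has `T = 0`, `H ≠ 0`, and `t` is fixed by every ring endomorphism fixing `ζ`, `i` and the
ten `x`-coordinates `X_(1,b)(p)`, `X_(2,b)(p)`. -/
theorem exists_tstar (ζ i u v : K) (hζ : ζ ^ 4 + ζ ^ 3 + ζ ^ 2 + ζ + 1 = 0)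
    (hi : i ^ 2 = -1) (h30 : (30 : K) ≠ 0) (hF : kF u v ≠ 0) :
    ∃ t : K, kT (u + t * kFv u v) (v - t * kFu u v) = 0 ∧
      kH (u + t * kFv u v) (v - t * kFu u v) ≠ 0 ∧
      ∀ σ : K →+* K, σ ζ = ζ → σ i = i →
        (∀ b < 5, σ (XA ζ b u v) = XA ζ b u v) → (∀ b < 5, σ (XB ζ b u v) = XB ζ b u v) →
        σ t = t := by
  have hu : u ≠ 0 := by
    rintro rfl
    simp [kF] at hF
  have hv : v ≠ 0 := by
    rintro rfl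
    simp [kF] at hF
  rcases exists_sign i u v h30 hi hF with hD | hD
  · exact ⟨tstar i u v, kT_tstar i u v hi hD, kH_tstar_ne i u v hi h30 hF hD,
      fun σ hσζ hσi hA hB => map_tstar_of_fixed σ ζ i u v hζ h30 hu hv hσζ hσi hA hB⟩
  · have hi' : (-i) ^ 2 = -1 := by rw [neg_sq]; exact hi
    exact ⟨tstar (-i) u v, kT_tstar (-i) u v hi' hD, kH_tstar_ne (-i) u v hi' h30 hF hD,
      fun σ hσζ hσi hA hB =>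
        map_tstar_of_fixed σ ζ (-i) u v hζ h30 hu hv hσζ (by rw [map_neg, hσi]) hA hB⟩

end field

end Fermat.Agent.S52.Klein.Rigid99
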