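/-
S52 (the 3-5 switch), end of the (B)-chain (helper80).

From `BGlue80` (generic member + transport) and `Spec/SpecShape20` (helper20's specialisation
theorem): brick (B) in the two shapes consumed by the assemblies,

* `Assembly84.CongSpec W c4T c6T`  (helper84), and
* the short-curve form of `Assembly51.BrickB` (helper51),

for ANY integer-valued polynomial functions `c4T t = P4.eval t`, `c6T t = P6.eval t` satisfying the
line contract `Assembly84.LineSpec` (values of Klein's `H`, `T` along the line `p₀ + t q₀` at integer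
parameters).  No explicit Taylor table is needed here: a polynomial identity over `ℚ̄` is recovered
from its values at the integers.
-/
import Mathlib
import Fermat.Agent.S52.Klein.BGlue80
import Fermat.Agent.S52.Spec.SpecShape20
import Fermat.Agent.S52.Asm.Assembly84

set_option autoImplicit false

open WeierstrassCurve WeierstrassCurve.Affine WeierstrassCurve.Affine.Point

namespace Fermat.Agent.S52.Klein.BGlueLine80

open Fermat.Agent.S52.Klein
open Fermat.Agent.S52.Klein.BGlue80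
open Fermat.Agent.S52.Model.ModelClose74
open Fermat.Agent.S52.Model.TorsTransport74
open Fermat.Agent.S52.Asm.Assembly84 (LineSpec CongSpec)
open Polynomial

local notation "Qb" => AlgebraicClosure ℚ
local notation "GQ" => (AlgebraicClosure ℚ ≃ₐ[ℚ] AlgebraicClosure ℚ)

/-- Two polynomials over `ℚ̄` with the same values at all integers are equal. -/
theorem poly_eq_of_int_values {p q : Qb[X]}
    (h : ∀ t : ℤ, p.eval (t : Qb) = q.eval (t : Qb)) : p = q := by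
  apply Polynomial.eq_of_infinite_eval_eq
  exact Set.infinite_of_injective_forall_mem (f := fun t : ℤ => (t : Qb)) Int.cast_injective h

section line

variable {u0 v0 : Qb}

/-- Rationality of the `a₄`-coefficient of the pencil from its values at integer parameters. -/
theorem hA_of_values (P4 : ℤ[X])
    (h : ∀ t : ℤ, kH (u0 + (t : Qb) * kfv u0 v0) (v0 - (t : Qb) * kfu u0 v0)
      = -((P4.eval t : ℤ) : Qb)) :
    (C (-27 : ℚ) * P4.map (Int.castRingHom ℚ)).map (algebraMap ℚ Qb)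
      = 27 * kH (Upoly u0 v0) (Vpoly u0 v0) := by
  apply poly_eq_of_int_values
  intro t
  have hR : eval (t : Qb) (27 * kH (Upoly u0 v0) (Vpoly u0 v0))
      = 27 * kH (u0 + (t : Qb) * kfv u0 v0) (v0 - (t : Qb) * kfu u0 v0) := by
    rw [← Polynomial.coe_evalRingHom, map_mul, map_kH, Polynomial.coe_evalRingHom,
      eval_Upoly, eval_Vpoly]
    simp
  rw [hR, h t, Polynomial.map_mul, Polynomial.map_C, Polynomial.map_map, eval_mul, eval_C,
    Polynomial.eval_intCast_map]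
  simp

/-- Rationality of the `a₆`-coefficient of the pencil from its values at integer parameters. -/
theorem hB_of_values (P6 : ℤ[X])
    (h : ∀ t : ℤ, kT (u0 + (t : Qb) * kfv u0 v0) (v0 - (t : Qb) * kfu u0 v0)
      = -((P6.eval t : ℤ) : Qb)) :
    (C (-54 : ℚ) * P6.map (Int.castRingHom ℚ)).map (algebraMap ℚ Qb)
      = 54 * kT (Upoly u0 v0) (Vpoly u0 v0) := by
  apply poly_eq_of_int_values
  intro t
  have hR : eval (t : Qb) (54 * kT (Upoly u0 v0) (Vpoly u0 v0))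
      = 54 * kT (u0 + (t : Qb) * kfv u0 v0) (v0 - (t : Qb) * kfu u0 v0) := by
    rw [← Polynomial.coe_evalRingHom, map_mul, map_kT, Polynomial.coe_evalRingHom,
      eval_Upoly, eval_Vpoly]
    simp
  rw [hR, h t, Polynomial.map_mul, Polynomial.map_C, Polynomial.map_map, eval_mul, eval_C,
    Polynomial.eval_intCast_map]
  simp

end line

/-- **Brick (B), `Assembly84` shape.** -/
theorem congSpec_of_lineSpec (W : WeierstrassCurve ℤ) (hΔ : W.Δ ≠ 0) (P4 P6 : ℤ[X])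
    (hline : LineSpec W (fun t => P4.eval t) (fun t => P6.eval t)) :
    CongSpec W (fun t => P4.eval t) (fun t => P6.eval t) := by
  intro t W' h4 h6 hΔ'
  obtain ⟨u0, v0, hH0, hT0, -⟩ := exists_basePoint_of_model W hΔ
  have hl := hline u0 v0 hH0 hT0
  have hA := hA_of_values (u0 := u0) (v0 := v0) P4 (fun s => (hl s).1)
  have hB := hB_of_values (u0 := u0) (v0 := v0) P6 (fun s => (hl s).2)
  have hH : kH (u0 + (((t : ℤ) : ℚ) : Qb) * kfv u0 v0) (v0 - (((t : ℤ) : ℚ) : Qb) * kfu u0 v0)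
      = -((W'.c₄ : ℤ) : Qb) := by
    rw [h4, Rat.cast_intCast]; exact (hl t).1
  have hT : kT (u0 + (((t : ℤ) : ℚ) : Qb) * kfv u0 v0) (v0 - (((t : ℤ) : ℚ) : Qb) * kfu u0 v0)
      = -((W'.c₆ : ℤ) : Qb) := by
    rw [h6, Rat.cast_intCast]; exact (hl t).2
  exact Fermat.Agent.S52.Spec.SpecShape20.exists_hom_member_of_polys W W' hΔ hΔ' hH0 hT0 hA hB
    ((t : ℤ) : ℚ) hH hT


/-- **Short-curve form of the (B)-glue**: two members of the pencil (at rational parameters) have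
`G_ℚ`-isomorphic `5`-torsion. -/
theorem exists_short_equiv {u0 v0 : Qb} {a4 a6 : ℚ[X]} (hf : kf u0 v0 ≠ 0)
    (hA : a4.map (algebraMap ℚ Qb) = 27 * kH (Upoly u0 v0) (Vpoly u0 v0))
    (hB : a6.map (algebraMap ℚ Qb) = 54 * kT (Upoly u0 v0) (Vpoly u0 v0))
    (t0 t1 c4 c6 c4' c6' : ℚ)
    (hH0 : kH (u0 + (t0 : Qb) * kfv u0 v0) (v0 - (t0 : Qb) * kfu u0 v0) = -(c4 : Qb))
    (hT0 : kT (u0 + (t0 : Qb) * kfv u0 v0) (v0 - (t0 : Qb) * kfu u0 v0) = -(c6 : Qb))
    (hH1 : kH (u0 + (t1 : Qb) * kfv u0 v0) (v0 - (t1 : Qb) * kfu u0 v0) = -(c4' : Qb))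
    (hT1 : kT (u0 + (t1 : Qb) * kfv u0 v0) (v0 - (t1 : Qb) * kfu u0 v0) = -(c6' : Qb))
    (hΔ0 : c4 ^ 3 - c6 ^ 2 ≠ 0) (hΔ1 : c4' ^ 3 - c6' ^ 2 ≠ 0) :
    ∃ ψ : TorsQ (shortCurve c4 c6) 5 ≃+ TorsQ (shortCurve c4' c6') 5,
      ∀ (σ : GQ) (x : TorsQ (shortCurve c4 c6) 5), ψ (σ • x) = σ • ψ x := by
  classical
  have e0 := pencil_eval_eq hA hB t0 c4 c6 hH0 hT0
  have e1 := pencil_eval_eq hA hB t1 c4' c6' hH1 hT1
  have hgen : 5 ^ 2 ≤ Nat.card (Submodule.torsionBy ℤ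
      (genFibre (pencil a4 a6)).toAffine.Point ((5 : ℕ) : ℤ)) := by
    rw [genFibre_pencil hA hB]
    exact (card_generic hf).ge
  refine transport_equiv e0 e1
    (Fermat.Agent.S52.Spec.SpecShape20.specShape (pencil a4 a6) (by decide : Odd 5) hgen t0 t1
      ?_ ?_)
  · rw [e0, shortCurve_Δ]; exact mul_ne_zero (by norm_num) hΔ0
  · rw [e1, shortCurve_Δ]; exact mul_ne_zero (by norm_num) hΔ1

/-- **Brick (B), short-curve shape** (the shape of `Assembly51.BrickB` for one `W`). -/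
theorem brickB_of_lineSpec (W : WeierstrassCurve ℤ) (hΔ : W.Δ ≠ 0) (P4 P6 : ℤ[X])
    (hline : LineSpec W (fun t => P4.eval t) (fun t => P6.eval t)) (t : ℤ)
    (hΔt : P4.eval t ^ 3 - P6.eval t ^ 2 ≠ 0) :
    ∃ ψ : TorsQ (shortCurve (W.c₄ : ℚ) (W.c₆ : ℚ)) 5 →+
        TorsQ (shortCurve ((P4.eval t : ℤ) : ℚ) ((P6.eval t : ℤ) : ℚ)) 5,
      Function.Surjective ψ ∧
        ∀ (σ : GQ) (x : TorsQ (shortCurve (W.c₄ : ℚ) (W.c₆ : ℚ)) 5), ψ (σ • x) = σ • ψ x := by
  obtain ⟨u0, v0, hH0, hT0, hf⟩ := exists_basePoint_of_model W hΔ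
  have hl := hline u0 v0 hH0 hT0
  have hA := hA_of_values (u0 := u0) (v0 := v0) P4 (fun s => (hl s).1)
  have hB := hB_of_values (u0 := u0) (v0 := v0) P6 (fun s => (hl s).2)
  have hΔ0 : ((W.c₄ : ℤ) : ℚ) ^ 3 - ((W.c₆ : ℤ) : ℚ) ^ 2 ≠ 0 := by
    have h : ((W.c₄ : ℤ) : ℚ) ^ 3 - ((W.c₆ : ℤ) : ℚ) ^ 2 = ((1728 * W.Δ : ℤ) : ℚ) := by
      rw [W.c_relation]; push_cast; ring
    rw [h]
    exact_mod_cast mul_ne_zero (by norm_num) hΔ
  have hΔ1 : ((P4.eval t : ℤ) : ℚ) ^ 3 - ((P6.eval t : ℤ) : ℚ) ^ 2 ≠ 0 := by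
    exact_mod_cast hΔt
  obtain ⟨ψ, hψ⟩ := exists_short_equiv hf hA hB 0 ((t : ℤ) : ℚ) ((W.c₄ : ℤ) : ℚ) ((W.c₆ : ℤ) : ℚ)
    ((P4.eval t : ℤ) : ℚ) ((P6.eval t : ℤ) : ℚ)
    (by simpa using hH0) (by simpa using hT0)
    (by rw [Rat.cast_intCast, Rat.cast_intCast]; exact (hl t).1)
    (by rw [Rat.cast_intCast, Rat.cast_intCast]; exact (hl t).2) hΔ0 hΔ1
  exact ⟨ψ.toAddMonoidHom, ψ.surjective, hψ⟩

end Fermat.Agent.S52.Klein.BGlueLine80
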