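/-
S52, brick B2 of the consolidated plan (helper79): existence of the base point `p0` of the
Klein family, stated with the binding names of `Klein/Defs51.lean` and in the sign convention
`c₄ = -H(p0)`, `c₆ = -T(p0)` of that plan.  The mathematical content is
`BasePoint80.exists_basePoint` (helper80); this file is the bridge to the `Defs51` names, plus
the discriminant identity `1728 f(p0)⁵ = c₆² - c₄³`.
-/
import Mathlib
import Fermat.Agent.S52.Klein.Defs51
import Fermat.Agent.S52.Klein.BasePoint80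

set_option autoImplicit false

namespace Fermat.Agent.S52.Klein.BasePoint79

open Fermat.Agent.S52.Klein

section Bridge

variable {R : Type*} [CommRing R]

theorem kf_eq (u v : R) : kf u v = BasePoint80.kF u v := rfl

theorem kH_eq (u v : R) : kH u v = BasePoint80.kH u v := rfl

theorem kT_eq (u v : R) : kT u v = BasePoint80.kT u v := rfl

/-- Homogeneity of the three forms, in the `Defs51` names. -/
theorem kf_smul (l u v : R) : kf (l * u) (l * v) = l ^ 12 * kf u v :=
  BasePoint80.kF_smul l u v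

theorem kH_smul (l u v : R) : kH (l * u) (l * v) = l ^ 20 * kH u v :=
  BasePoint80.kH_smul l u v

theorem kT_smul (l u v : R) : kT (l * u) (l * v) = l ^ 30 * kT u v :=
  BasePoint80.kT_smul l u v

/-- The discriminant identity at a base point: if `H(p) = -c₄` and `T(p) = -c₆` then
`1728 f(p)⁵ = c₆² - c₄³`. -/
theorem discr_of_eq {u v c4 c6 : R} (hH : kH u v = -c4) (hT : kT u v = -c6) :
    1728 * kf u v ^ 5 = c6 ^ 2 - c4 ^ 3 := by
  have h := klein_relation u v
  rw [hH, hT] at h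
  linear_combination -h

end Bridge

section Field

variable {K : Type*} [Field K]

/-- At a base point for `(c₄, c₆)` with `c₄³ ≠ c₆²`, the form `f` does not vanish. -/
theorem kf_ne_zero_of_eq {u v c4 c6 : K} (h : c4 ^ 3 ≠ c6 ^ 2)
    (hH : kH u v = -c4) (hT : kT u v = -c6) : kf u v ≠ 0 := by
  intro h0
  have hd := discr_of_eq hH hT
  rw [h0] at hd
  apply h
  have : (0 : K) = c6 ^ 2 - c4 ^ 3 := by simpa using hd
  exact (sub_eq_zero.mp this.symm).symm

/-- **Existence of the base point** (brick B2).  Over an algebraically closed field of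
characteristic zero, for `c₄³ ≠ c₆²` there is `p0 = (u, v)` with `H(p0) = -c₄`, `T(p0) = -c₆`;
moreover `f(p0) ≠ 0` and `1728 f(p0)⁵ = c₆² - c₄³`. -/
theorem exists_p0 [IsAlgClosed K] [CharZero K] (c4 c6 : K) (h : c4 ^ 3 ≠ c6 ^ 2) :
    ∃ u v : K, kH u v = -c4 ∧ kT u v = -c6 ∧ kf u v ≠ 0 ∧
      1728 * kf u v ^ 5 = c6 ^ 2 - c4 ^ 3 := by
  have hD : (-c4) ^ 3 + (-c6) ^ 2 ≠ 0 := by
    intro h0
    apply h
    linear_combination -h0
  obtain ⟨u, v, hH, hT⟩ := BasePoint80.exists_basePoint (-c4) (-c6) hD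
  have hH' : kH u v = -c4 := hH
  have hT' : kT u v = -c6 := hT
  exact ⟨u, v, hH', hT', kf_ne_zero_of_eq h hH' hT', discr_of_eq hH' hT'⟩

/-- The plain form asked for in the plan. -/
theorem exists_p0' [IsAlgClosed K] [CharZero K] (c4 c6 : K) (h : c4 ^ 3 ≠ c6 ^ 2) :
    ∃ u v : K, kH u v = -c4 ∧ kT u v = -c6 := by
  obtain ⟨u, v, hH, hT, -, -⟩ := exists_p0 c4 c6 h
  exact ⟨u, v, hH, hT⟩

/-- Version for a Weierstrass curve over `ℤ` with nonzero discriminant, over `ℚ̄`. -/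
theorem exists_p0_of_curve (W : WeierstrassCurve ℤ) (hΔ : W.Δ ≠ 0) :
    ∃ u v : AlgebraicClosure ℚ,
      kH u v = -((W.c₄ : ℤ) : AlgebraicClosure ℚ) ∧ kT u v = -((W.c₆ : ℤ) : AlgebraicClosure ℚ) ∧
      kf u v ≠ 0 ∧ kf u v ^ 5 = -((W.Δ : ℤ) : AlgebraicClosure ℚ) := by
  have hrel : (1728 : ℤ) * W.Δ = W.c₄ ^ 3 - W.c₆ ^ 2 := W.c_relation
  have hne : ((W.c₄ : ℤ) : AlgebraicClosure ℚ) ^ 3 ≠ ((W.c₆ : ℤ) : AlgebraicClosure ℚ) ^ 2 := by
    intro h0
    have h1 : ((W.c₄ ^ 3 - W.c₆ ^ 2 : ℤ) : AlgebraicClosure ℚ) = 0 := by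
      push_cast
      rw [h0, sub_self]
    rw [Int.cast_eq_zero] at h1
    rw [h1] at hrel
    have : W.Δ = 0 := by
      have h2 : (1728 : ℤ) ≠ 0 := by norm_num
      exact (mul_eq_zero.mp hrel).resolve_left h2
    exact hΔ this
  obtain ⟨u, v, hH, hT, hf, hd⟩ := exists_p0 _ _ hne
  refine ⟨u, v, hH, hT, hf, ?_⟩
  have hrel' : (1728 : AlgebraicClosure ℚ) * ((W.Δ : ℤ) : AlgebraicClosure ℚ)
      = ((W.c₄ : ℤ) : AlgebraicClosure ℚ) ^ 3 - ((W.c₆ : ℤ) : AlgebraicClosure ℚ) ^ 2 := by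
    have := congrArg (fun z : ℤ => (z : AlgebraicClosure ℚ)) hrel
    simpa using this
  have h1728 : (1728 : AlgebraicClosure ℚ) ≠ 0 := by norm_num
  apply mul_left_cancel₀ h1728
  rw [hd]
  linear_combination hrel'

end Field

end Fermat.Agent.S52.Klein.BasePoint79
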