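import Mathlib.Algebra.Polynomial.Roots
import Mathlib.Algebra.Polynomial.AlgebraMap
import Mathlib.Tactic.ComputeDegree

/-!
# S52 (helper32): polynomial identities over `ℤ` by evaluation on an integer grid

A two-variable polynomial identity with integer coefficients can be checked by evaluating it on
a finite grid of integer points (decided by kernel computation on integers), given degree bounds
(proved by `compute_degree`).  This avoids the very large proof terms that `ring` produces for
identities with thousands of monomials.

* `eq_zero_of_eval_natCast`, `eq_zero_of_grid`: the interpolation criteria;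
* `evalHom z τ : ℤ[X][X] →+* R`: the evaluation used to transport an identity of `ℤ[X][X]` to an
  arbitrary commutative ring;
* `forceInt`, `forceList`, `horner`, `checkRow`: small computable helpers used to organise the
  integer computations so that kernel reduction evaluates shared subterms only once.
-/

namespace Fermat.Agent.S52.Klein.Grid32

open Polynomial

/-! ### Strict evaluation helpers (semantically the identity) -/

/-- Force evaluation of an integer before continuing (for kernel reduction):
semantically `k x`. -/
def forceInt {β : Type} (x : ℤ) (k : ℤ → β) : β :=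
  match x with
  | Int.ofNat n => (match n with | 0 => k 0 | m + 1 => k (Int.ofNat (m + 1)))
  | Int.negSucc n => (match n with | 0 => k (Int.negSucc 0) | m + 1 => k (Int.negSucc (m + 1)))

theorem forceInt_eq {β : Type} (x : ℤ) (k : ℤ → β) : forceInt x k = k x := by
  unfold forceInt
  cases x with
  | ofNat n => cases n <;> rfl
  | negSucc n => cases n <;> rfl

/-- Force evaluation of a list of integers: semantically `k l`. -/
def forceList {β : Type} : List ℤ → (List ℤ → β) → β
  | [], k => k []
  | x :: xs, k => forceInt x fun x' => forceList xs fun xs' => k (x' :: xs')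

theorem forceList_eq {β : Type} : ∀ (l : List ℤ) (k : List ℤ → β), forceList l k = k l
  | [], _ => rfl
  | x :: xs, k => by
    rw [forceList, forceInt_eq, forceList_eq xs]

/-- Horner evaluation of a polynomial given by its list of coefficients (constant term first). -/
def horner : List ℤ → ℤ → ℤ
  | [], _ => 0
  | c :: cs, τ => c + τ * horner cs τ

/-- `f i = 0` for all `i < n`. -/
def checkRow (f : ℤ → ℤ) : ℕ → Bool
  | 0 => true
  | n + 1 => (f (n : ℤ) == 0) && checkRow f n

theorem checkRow_sound {f : ℤ → ℤ} : ∀ {n : ℕ}, checkRow f n = true → ∀ i < n, f (i : ℤ) = 0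
  | 0, _, i, hi => absurd hi (Nat.not_lt_zero i)
  | n + 1, h, i, hi => by
    rw [checkRow, Bool.and_eq_true] at h
    rcases Nat.lt_succ_iff_lt_or_eq.mp hi with hlt | rfl
    · exact checkRow_sound h.2 i hlt
    · simpa using h.1

/-- `r i = true` for all `i < n`. -/
def checkAll (r : ℤ → Bool) : ℕ → Bool
  | 0 => true
  | n + 1 => r (n : ℤ) && checkAll r n

theorem checkAll_sound {r : ℤ → Bool} : ∀ {n : ℕ}, checkAll r n = true → ∀ i < n, r (i : ℤ) = true
  | 0, _, i, hi => absurd hi (Nat.not_lt_zero i)
  | n + 1, h, i, hi => by
    rw [checkAll, Bool.and_eq_true] at h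
    rcases Nat.lt_succ_iff_lt_or_eq.mp hi with hlt | rfl
    · exact checkAll_sound h.2 i hlt
    · exact h.1

/-! ### Interpolation criteria -/

/-- A polynomial of degree `< n` over a domain of characteristic zero vanishing at
`0, 1, ..., n - 1` is zero. -/
theorem eq_zero_of_eval_natCast {A : Type*} [CommRing A] [IsDomain A] [CharZero A] (p : A[X])
    (n : ℕ) (hdeg : p.natDegree < n) (h : ∀ i < n, p.eval ((i : ℕ) : A) = 0) : p = 0 := by
  apply eq_zero_of_natDegree_lt_card_of_eval_eq_zero p (ι := Fin n)
    (f := fun i => ((i : ℕ) : A))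
  · intro a b hab
    exact Fin.ext (Nat.cast_injective hab)
  · intro i
    exact h i i.2
  · simpa using hdeg

/-- **Grid criterion**: `D ∈ ℤ[X][Y]` of `Y`-degree `< m`, whose specialisations `Y = j` have
`X`-degree `< n`, and which vanishes on the grid `{0..n-1} × {0..m-1}`, is zero. -/
theorem eq_zero_of_grid (D : ℤ[X][X]) (n m : ℕ)
    (hout : D.natDegree < m)
    (hin : ∀ j : ℕ, (D.eval ((j : ℕ) : ℤ[X])).natDegree < n)
    (hf : ∀ i < n, ∀ j < m, (D.eval ((j : ℕ) : ℤ[X])).eval ((i : ℕ) : ℤ) = 0) : D = 0 := by
  apply eq_zero_of_eval_natCast D m hout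
  intro j hj
  apply eq_zero_of_eval_natCast _ n (hin j)
  intro i hi
  exact hf i hi j hj

/-- The evaluation homomorphism `ℤ[X][Y] → R`, `X ↦ z`, `Y ↦ τ`. -/
noncomputable def evalHom {R : Type*} [CommRing R] (z τ : R) : ℤ[X][X] →+* R :=
  eval₂RingHom (eval₂RingHom (Int.castRingHom R) z) τ

@[simp] theorem evalHom_X {R : Type*} [CommRing R] (z τ : R) : evalHom z τ X = τ := by
  simp [evalHom]

@[simp] theorem evalHom_C_X {R : Type*} [CommRing R] (z τ : R) : evalHom z τ (C X) = z := by
  simp [evalHom]

end Fermat.Agent.S52.Klein.Grid32
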