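/-
S52, brick K2(d) (helper21): INDEPENDENCE of the two explicit `5`-torsion sections
`Q₀ = Q(u, v)` and `Q₁ = Q(ζ u, v)` of `E_p : y² = x³ + 27 H(p) x + 54 T(p)` (names of
`Klein/Defs51`).  For `ζ` a root of `Φ₅` the differences of `x`-coordinates

  `xQ (ζ u) v - xQ u v`   and   `xQ (ζ u) v - x2Q u v`

divide `36 (ζ³ - 1) f²` resp. `36 f²` (cofactors `G1`, `G2` with coefficients in `ℤ[ζ]`).  Hence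
over a field of characteristic `≠ 2, 3, 5` with `f(p) ≠ 0` the point `Q₁` has an `x`-coordinate
different from those of `±Q₀, ±2Q₀`, so `Q₁ ∉ ⟨Q₀⟩`.

All statements are polynomial identities over an arbitrary commutative ring, proved by
`linear_combination` with an explicit multiple of `Φ₅(ζ)`.
-/
import Fermat.Agent.S52.Klein.Defs51

set_option autoImplicit false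

namespace Fermat.Agent.S52.Klein.Indep21

open Fermat.Agent.S52.Klein

variable {R : Type*} [CommRing R]

/-- cofactor: `(xQ (ζ u) v - xQ u v) * G1 = 36 (ζ³ - 1) f²`. -/
def G1 (ζ u v : R) : R :=
    u ^ (14 : ℕ) - ζ ^ (2 : ℕ) * u ^ (13 : ℕ) * v - 3 * u ^ (12 : ℕ) * v ^ (2 : ℕ) - ζ * u ^ (12 : ℕ) * v ^ (2 : ℕ)
      - ζ ^ (2 : ℕ) * u ^ (12 : ℕ) * v ^ (2 : ℕ) - 3 * ζ ^ (3 : ℕ) * u ^ (12 : ℕ) * v ^ (2 : ℕ)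
      + 4 * u ^ (11 : ℕ) * v ^ (3 : ℕ) - ζ * u ^ (11 : ℕ) * v ^ (3 : ℕ) + 4 * ζ ^ (2 : ℕ) * u ^ (11 : ℕ) * v ^ (3 : ℕ)
      + 5 * u ^ (10 : ℕ) * v ^ (4 : ℕ) + 5 * ζ * u ^ (10 : ℕ) * v ^ (4 : ℕ) + 10 * ζ ^ (3 : ℕ) * u ^ (10 : ℕ) * v ^ (4 : ℕ)
      - 4 * u ^ (9 : ℕ) * v ^ (5 : ℕ) - 10 * ζ ^ (2 : ℕ) * u ^ (9 : ℕ) * v ^ (5 : ℕ) - 10 * ζ ^ (3 : ℕ) * u ^ (9 : ℕ) * v ^ (5 : ℕ)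
      - 15 * ζ * u ^ (8 : ℕ) * v ^ (6 : ℕ) - ζ ^ (2 : ℕ) * u ^ (8 : ℕ) * v ^ (6 : ℕ) - 15 * ζ ^ (3 : ℕ) * u ^ (8 : ℕ) * v ^ (6 : ℕ)
      + 7 * u ^ (7 : ℕ) * v ^ (7 : ℕ) + 4 * ζ * u ^ (7 : ℕ) * v ^ (7 : ℕ) + 4 * ζ ^ (2 : ℕ) * u ^ (7 : ℕ) * v ^ (7 : ℕ)
      + 7 * ζ ^ (3 : ℕ) * u ^ (7 : ℕ) * v ^ (7 : ℕ) + 4 * u ^ (6 : ℕ) * v ^ (8 : ℕ) + 14 * ζ * u ^ (6 : ℕ) * v ^ (8 : ℕ)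
      + 4 * ζ ^ (2 : ℕ) * u ^ (6 : ℕ) * v ^ (8 : ℕ) - 10 * u ^ (5 : ℕ) * v ^ (9 : ℕ) - 10 * ζ * u ^ (5 : ℕ) * v ^ (9 : ℕ)
      + 5 * ζ ^ (3 : ℕ) * u ^ (5 : ℕ) * v ^ (9 : ℕ) + 4 * u ^ (4 : ℕ) * v ^ (10 : ℕ) - 5 * ζ ^ (2 : ℕ) * u ^ (4 : ℕ) * v ^ (10 : ℕ)
      - 5 * ζ ^ (3 : ℕ) * u ^ (4 : ℕ) * v ^ (10 : ℕ) + 5 * ζ * u ^ (3 : ℕ) * v ^ (11 : ℕ) + 6 * ζ ^ (2 : ℕ) * u ^ (3 : ℕ) * v ^ (11 : ℕ)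
      + 5 * ζ ^ (3 : ℕ) * u ^ (3 : ℕ) * v ^ (11 : ℕ) - 2 * u ^ (2 : ℕ) * v ^ (12 : ℕ) - 4 * ζ * u ^ (2 : ℕ) * v ^ (12 : ℕ)
      - 4 * ζ ^ (2 : ℕ) * u ^ (2 : ℕ) * v ^ (12 : ℕ) - 2 * ζ ^ (3 : ℕ) * u ^ (2 : ℕ) * v ^ (12 : ℕ)
      + u * v ^ (13 : ℕ) + ζ * u * v ^ (13 : ℕ) + ζ ^ (2 : ℕ) * u * v ^ (13 : ℕ)

/-- cofactor: `(xQ (ζ u) v - x2Q u v) * G2 = 36 f²`. -/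
def G2 (ζ u v : R) : R :=
    u ^ (13 : ℕ) * v + 2 * u ^ (12 : ℕ) * v ^ (2 : ℕ) - ζ ^ (3 : ℕ) * u ^ (12 : ℕ) * v ^ (2 : ℕ)
      + u ^ (11 : ℕ) * v ^ (3 : ℕ) + ζ * u ^ (11 : ℕ) * v ^ (3 : ℕ) + ζ ^ (2 : ℕ) * u ^ (11 : ℕ) * v ^ (3 : ℕ)
      - 4 * ζ ^ (3 : ℕ) * u ^ (11 : ℕ) * v ^ (3 : ℕ) + 5 * ζ * u ^ (10 : ℕ) * v ^ (4 : ℕ) + 5 * ζ ^ (2 : ℕ) * u ^ (10 : ℕ) * v ^ (4 : ℕ)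
      - 5 * ζ ^ (3 : ℕ) * u ^ (10 : ℕ) * v ^ (4 : ℕ) - 5 * u ^ (9 : ℕ) * v ^ (5 : ℕ) + 10 * ζ * u ^ (9 : ℕ) * v ^ (5 : ℕ)
      + 10 * ζ ^ (2 : ℕ) * u ^ (9 : ℕ) * v ^ (5 : ℕ) - 4 * u ^ (8 : ℕ) * v ^ (6 : ℕ) + 10 * ζ * u ^ (8 : ℕ) * v ^ (6 : ℕ)
      + 10 * ζ ^ (2 : ℕ) * u ^ (8 : ℕ) * v ^ (6 : ℕ) + 10 * ζ ^ (3 : ℕ) * u ^ (8 : ℕ) * v ^ (6 : ℕ)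
      - 3 * u ^ (7 : ℕ) * v ^ (7 : ℕ) + 14 * ζ ^ (3 : ℕ) * u ^ (7 : ℕ) * v ^ (7 : ℕ) - 14 * u ^ (6 : ℕ) * v ^ (8 : ℕ)
      - 14 * ζ * u ^ (6 : ℕ) * v ^ (8 : ℕ) - 14 * ζ ^ (2 : ℕ) * u ^ (6 : ℕ) * v ^ (8 : ℕ) - 4 * ζ ^ (3 : ℕ) * u ^ (6 : ℕ) * v ^ (8 : ℕ)
      - 10 * ζ * u ^ (5 : ℕ) * v ^ (9 : ℕ) - 10 * ζ ^ (2 : ℕ) * u ^ (5 : ℕ) * v ^ (9 : ℕ) - 15 * ζ ^ (3 : ℕ) * u ^ (5 : ℕ) * v ^ (9 : ℕ)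
      + 10 * u ^ (4 : ℕ) * v ^ (10 : ℕ) + 5 * ζ * u ^ (4 : ℕ) * v ^ (10 : ℕ) + 5 * ζ ^ (2 : ℕ) * u ^ (4 : ℕ) * v ^ (10 : ℕ)
      + 4 * u ^ (3 : ℕ) * v ^ (11 : ℕ) + 5 * ζ * u ^ (3 : ℕ) * v ^ (11 : ℕ) + 5 * ζ ^ (2 : ℕ) * u ^ (3 : ℕ) * v ^ (11 : ℕ)
      + 5 * ζ ^ (3 : ℕ) * u ^ (3 : ℕ) * v ^ (11 : ℕ) - 2 * u ^ (2 : ℕ) * v ^ (12 : ℕ) + ζ ^ (3 : ℕ) * u ^ (2 : ℕ) * v ^ (12 : ℕ)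
      - u * v ^ (13 : ℕ) - ζ * u * v ^ (13 : ℕ) - ζ ^ (2 : ℕ) * u * v ^ (13 : ℕ) - ζ ^ (3 : ℕ) * u * v ^ (13 : ℕ)

/-- multiple of `Φ₅(ζ)` used in `xQ_zeta_sub_xQ_mul`. -/
def E1 (ζ u v : R) : R :=
    -3 * u ^ (24 : ℕ) + 3 * ζ * u ^ (24 : ℕ) - 3 * ζ ^ (5 : ℕ) * u ^ (24 : ℕ) + 3 * ζ ^ (6 : ℕ) * u ^ (24 : ℕ)
      + 3 * ζ ^ (2 : ℕ) * u ^ (23 : ℕ) * v - 3 * ζ ^ (3 : ℕ) * u ^ (23 : ℕ) * v + 3 * ζ ^ (7 : ℕ) * u ^ (23 : ℕ) * v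
      - 3 * ζ ^ (8 : ℕ) * u ^ (23 : ℕ) * v + 9 * u ^ (22 : ℕ) * v ^ (2 : ℕ) - 6 * ζ * u ^ (22 : ℕ) * v ^ (2 : ℕ)
      - 30 * ζ ^ (3 : ℕ) * u ^ (22 : ℕ) * v ^ (2 : ℕ) + 27 * ζ ^ (4 : ℕ) * u ^ (22 : ℕ) * v ^ (2 : ℕ)
      + 9 * ζ ^ (5 : ℕ) * u ^ (22 : ℕ) * v ^ (2 : ℕ) - 6 * ζ ^ (6 : ℕ) * u ^ (22 : ℕ) * v ^ (2 : ℕ)
      + 6 * ζ ^ (8 : ℕ) * u ^ (22 : ℕ) * v ^ (2 : ℕ) - 9 * ζ ^ (9 : ℕ) * u ^ (22 : ℕ) * v ^ (2 : ℕ)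
      + 24 * u ^ (21 : ℕ) * v ^ (3 : ℕ) - 21 * ζ * u ^ (21 : ℕ) * v ^ (3 : ℕ) + 21 * ζ ^ (2 : ℕ) * u ^ (21 : ℕ) * v ^ (3 : ℕ)
      - 24 * ζ ^ (3 : ℕ) * u ^ (21 : ℕ) * v ^ (3 : ℕ) + 24 * ζ ^ (5 : ℕ) * u ^ (21 : ℕ) * v ^ (3 : ℕ)
      - 21 * ζ ^ (6 : ℕ) * u ^ (21 : ℕ) * v ^ (3 : ℕ) - 15 * ζ ^ (7 : ℕ) * u ^ (21 : ℕ) * v ^ (3 : ℕ)
      + 12 * ζ ^ (8 : ℕ) * u ^ (21 : ℕ) * v ^ (3 : ℕ) + 21 * u ^ (20 : ℕ) * v ^ (4 : ℕ) - 21 * ζ ^ (2 : ℕ) * u ^ (20 : ℕ) * v ^ (4 : ℕ)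
      + 78 * ζ ^ (3 : ℕ) * u ^ (20 : ℕ) * v ^ (4 : ℕ) - 78 * ζ ^ (4 : ℕ) * u ^ (20 : ℕ) * v ^ (4 : ℕ)
      + 21 * ζ ^ (5 : ℕ) * u ^ (20 : ℕ) * v ^ (4 : ℕ) + 72 * ζ ^ (6 : ℕ) * u ^ (20 : ℕ) * v ^ (4 : ℕ)
      - 93 * ζ ^ (7 : ℕ) * u ^ (20 : ℕ) * v ^ (4 : ℕ) - 30 * ζ ^ (8 : ℕ) * u ^ (20 : ℕ) * v ^ (4 : ℕ)
      + 30 * ζ ^ (9 : ℕ) * u ^ (20 : ℕ) * v ^ (4 : ℕ) - 330 * u ^ (19 : ℕ) * v ^ (5 : ℕ) + 330 * ζ * u ^ (19 : ℕ) * v ^ (5 : ℕ)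
      - 78 * ζ ^ (2 : ℕ) * u ^ (19 : ℕ) * v ^ (5 : ℕ) + 78 * ζ ^ (4 : ℕ) * u ^ (19 : ℕ) * v ^ (5 : ℕ)
      - 240 * ζ ^ (5 : ℕ) * u ^ (19 : ℕ) * v ^ (5 : ℕ) + 240 * ζ ^ (6 : ℕ) * u ^ (19 : ℕ) * v ^ (5 : ℕ)
      + 30 * ζ ^ (7 : ℕ) * u ^ (19 : ℕ) * v ^ (5 : ℕ) - 30 * ζ ^ (9 : ℕ) * u ^ (19 : ℕ) * v ^ (5 : ℕ)
      - 99 * ζ * u ^ (18 : ℕ) * v ^ (6 : ℕ) + 408 * ζ ^ (2 : ℕ) * u ^ (18 : ℕ) * v ^ (6 : ℕ) - 408 * ζ ^ (3 : ℕ) * u ^ (18 : ℕ) * v ^ (6 : ℕ)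
      + 279 * ζ ^ (4 : ℕ) * u ^ (18 : ℕ) * v ^ (6 : ℕ) - 180 * ζ ^ (5 : ℕ) * u ^ (18 : ℕ) * v ^ (6 : ℕ)
      - 315 * ζ ^ (6 : ℕ) * u ^ (18 : ℕ) * v ^ (6 : ℕ) + 318 * ζ ^ (7 : ℕ) * u ^ (18 : ℕ) * v ^ (6 : ℕ)
      + 42 * ζ ^ (8 : ℕ) * u ^ (18 : ℕ) * v ^ (6 : ℕ) - 45 * ζ ^ (9 : ℕ) * u ^ (18 : ℕ) * v ^ (6 : ℕ)
      + 969 * u ^ (17 : ℕ) * v ^ (7 : ℕ) - 639 * ζ * u ^ (17 : ℕ) * v ^ (7 : ℕ) - 45 * ζ ^ (3 : ℕ) * u ^ (17 : ℕ) * v ^ (7 : ℕ)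
      - 285 * ζ ^ (4 : ℕ) * u ^ (17 : ℕ) * v ^ (7 : ℕ) + 699 * ζ ^ (5 : ℕ) * u ^ (17 : ℕ) * v ^ (7 : ℕ)
      - 351 * ζ ^ (6 : ℕ) * u ^ (17 : ℕ) * v ^ (7 : ℕ) - 360 * ζ ^ (7 : ℕ) * u ^ (17 : ℕ) * v ^ (7 : ℕ)
      - 9 * ζ ^ (8 : ℕ) * u ^ (17 : ℕ) * v ^ (7 : ℕ) + 21 * ζ ^ (9 : ℕ) * u ^ (17 : ℕ) * v ^ (7 : ℕ)
      - 408 * u ^ (16 : ℕ) * v ^ (8 : ℕ) + 816 * ζ * u ^ (16 : ℕ) * v ^ (8 : ℕ) - 744 * ζ ^ (2 : ℕ) * u ^ (16 : ℕ) * v ^ (8 : ℕ)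
      + 336 * ζ ^ (3 : ℕ) * u ^ (16 : ℕ) * v ^ (8 : ℕ) - 540 * ζ ^ (4 : ℕ) * u ^ (16 : ℕ) * v ^ (8 : ℕ)
      + 204 * ζ ^ (5 : ℕ) * u ^ (16 : ℕ) * v ^ (8 : ℕ) + 834 * ζ ^ (6 : ℕ) * u ^ (16 : ℕ) * v ^ (8 : ℕ)
      - 510 * ζ ^ (7 : ℕ) * u ^ (16 : ℕ) * v ^ (8 : ℕ) + 12 * ζ ^ (8 : ℕ) * u ^ (16 : ℕ) * v ^ (8 : ℕ)
      - 816 * u ^ (15 : ℕ) * v ^ (9 : ℕ) + 36 * ζ * u ^ (15 : ℕ) * v ^ (9 : ℕ) + 780 * ζ ^ (2 : ℕ) * u ^ (15 : ℕ) * v ^ (9 : ℕ)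
      - 987 * ζ ^ (3 : ℕ) * u ^ (15 : ℕ) * v ^ (9 : ℕ) + 1527 * ζ ^ (4 : ℕ) * u ^ (15 : ℕ) * v ^ (9 : ℕ)
      - 1194 * ζ ^ (5 : ℕ) * u ^ (15 : ℕ) * v ^ (9 : ℕ) + 432 * ζ ^ (6 : ℕ) * u ^ (15 : ℕ) * v ^ (9 : ℕ)
      + 222 * ζ ^ (7 : ℕ) * u ^ (15 : ℕ) * v ^ (9 : ℕ) - 15 * ζ ^ (8 : ℕ) * u ^ (15 : ℕ) * v ^ (9 : ℕ)
      + 15 * ζ ^ (9 : ℕ) * u ^ (15 : ℕ) * v ^ (9 : ℕ) - 660 * u ^ (14 : ℕ) * v ^ (10 : ℕ) + 660 * ζ * u ^ (14 : ℕ) * v ^ (10 : ℕ)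
      + 447 * ζ ^ (2 : ℕ) * u ^ (14 : ℕ) * v ^ (10 : ℕ) + 540 * ζ ^ (3 : ℕ) * u ^ (14 : ℕ) * v ^ (10 : ℕ)
      - 267 * ζ ^ (4 : ℕ) * u ^ (14 : ℕ) * v ^ (10 : ℕ) - 624 * ζ ^ (5 : ℕ) * u ^ (14 : ℕ) * v ^ (10 : ℕ)
      - 96 * ζ ^ (6 : ℕ) * u ^ (14 : ℕ) * v ^ (10 : ℕ) + 15 * ζ ^ (7 : ℕ) * u ^ (14 : ℕ) * v ^ (10 : ℕ)
      - 15 * ζ ^ (9 : ℕ) * u ^ (14 : ℕ) * v ^ (10 : ℕ) + 1371 * ζ * u ^ (13 : ℕ) * v ^ (11 : ℕ)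
      + 357 * ζ ^ (2 : ℕ) * u ^ (13 : ℕ) * v ^ (11 : ℕ) + 183 * ζ ^ (3 : ℕ) * u ^ (13 : ℕ) * v ^ (11 : ℕ)
      - 1911 * ζ ^ (4 : ℕ) * u ^ (13 : ℕ) * v ^ (11 : ℕ) - 195 * ζ ^ (6 : ℕ) * u ^ (13 : ℕ) * v ^ (11 : ℕ)
      + 177 * ζ ^ (7 : ℕ) * u ^ (13 : ℕ) * v ^ (11 : ℕ) + 3 * ζ ^ (8 : ℕ) * u ^ (13 : ℕ) * v ^ (11 : ℕ)
      + 15 * ζ ^ (9 : ℕ) * u ^ (13 : ℕ) * v ^ (11 : ℕ) + 2796 * u ^ (12 : ℕ) * v ^ (12 : ℕ) - 1992 * ζ * u ^ (12 : ℕ) * v ^ (12 : ℕ)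
      + 180 * ζ ^ (2 : ℕ) * u ^ (12 : ℕ) * v ^ (12 : ℕ) - 2400 * ζ ^ (3 : ℕ) * u ^ (12 : ℕ) * v ^ (12 : ℕ)
      + 1416 * ζ ^ (4 : ℕ) * u ^ (12 : ℕ) * v ^ (12 : ℕ) + 366 * ζ ^ (5 : ℕ) * u ^ (12 : ℕ) * v ^ (12 : ℕ)
      - 174 * ζ ^ (6 : ℕ) * u ^ (12 : ℕ) * v ^ (12 : ℕ) - 180 * ζ ^ (7 : ℕ) * u ^ (12 : ℕ) * v ^ (12 : ℕ)
      - 6 * ζ ^ (8 : ℕ) * u ^ (12 : ℕ) * v ^ (12 : ℕ) - 6 * ζ ^ (9 : ℕ) * u ^ (12 : ℕ) * v ^ (12 : ℕ)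
      - 651 * u ^ (11 : ℕ) * v ^ (13 : ℕ) + 828 * ζ * u ^ (11 : ℕ) * v ^ (13 : ℕ) - 936 * ζ ^ (2 : ℕ) * u ^ (11 : ℕ) * v ^ (13 : ℕ)
      + 759 * ζ ^ (3 : ℕ) * u ^ (11 : ℕ) * v ^ (13 : ℕ) - 720 * ζ ^ (4 : ℕ) * u ^ (11 : ℕ) * v ^ (13 : ℕ)
      + 321 * ζ ^ (5 : ℕ) * u ^ (11 : ℕ) * v ^ (13 : ℕ) + 216 * ζ ^ (6 : ℕ) * u ^ (11 : ℕ) * v ^ (13 : ℕ)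
      + 180 * ζ ^ (7 : ℕ) * u ^ (11 : ℕ) * v ^ (13 : ℕ) + 3 * ζ ^ (8 : ℕ) * u ^ (11 : ℕ) * v ^ (13 : ℕ)
      - 648 * u ^ (10 : ℕ) * v ^ (14 : ℕ) - 144 * ζ * u ^ (10 : ℕ) * v ^ (14 : ℕ) + 792 * ζ ^ (2 : ℕ) * u ^ (10 : ℕ) * v ^ (14 : ℕ)
      + 162 * ζ ^ (3 : ℕ) * u ^ (10 : ℕ) * v ^ (14 : ℕ) + 558 * ζ ^ (4 : ℕ) * u ^ (10 : ℕ) * v ^ (14 : ℕ)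
      - 396 * ζ ^ (5 : ℕ) * u ^ (10 : ℕ) * v ^ (14 : ℕ) - 252 * ζ ^ (6 : ℕ) * u ^ (10 : ℕ) * v ^ (14 : ℕ)
      - 72 * ζ ^ (7 : ℕ) * u ^ (10 : ℕ) * v ^ (14 : ℕ) + 396 * u ^ (9 : ℕ) * v ^ (15 : ℕ) - 396 * ζ * u ^ (9 : ℕ) * v ^ (15 : ℕ)
      - 882 * ζ ^ (2 : ℕ) * u ^ (9 : ℕ) * v ^ (15 : ℕ) + 720 * ζ ^ (3 : ℕ) * u ^ (9 : ℕ) * v ^ (15 : ℕ)
      - 378 * ζ ^ (4 : ℕ) * u ^ (9 : ℕ) * v ^ (15 : ℕ) + 432 * ζ ^ (5 : ℕ) * u ^ (9 : ℕ) * v ^ (15 : ℕ)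
      + 108 * ζ ^ (6 : ℕ) * u ^ (9 : ℕ) * v ^ (15 : ℕ) + 54 * ζ * u ^ (8 : ℕ) * v ^ (16 : ℕ) + 630 * ζ ^ (2 : ℕ) * u ^ (8 : ℕ) * v ^ (16 : ℕ)
      - 810 * ζ ^ (3 : ℕ) * u ^ (8 : ℕ) * v ^ (16 : ℕ) + 306 * ζ ^ (4 : ℕ) * u ^ (8 : ℕ) * v ^ (16 : ℕ)
      - 180 * ζ ^ (5 : ℕ) * u ^ (8 : ℕ) * v ^ (16 : ℕ) - 540 * u ^ (7 : ℕ) * v ^ (17 : ℕ) + 288 * ζ * u ^ (7 : ℕ) * v ^ (17 : ℕ)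
      - 360 * ζ ^ (2 : ℕ) * u ^ (7 : ℕ) * v ^ (17 : ℕ) + 720 * ζ ^ (3 : ℕ) * u ^ (7 : ℕ) * v ^ (17 : ℕ)
      - 108 * ζ ^ (4 : ℕ) * u ^ (7 : ℕ) * v ^ (17 : ℕ) + 342 * u ^ (6 : ℕ) * v ^ (18 : ℕ) - 252 * ζ * u ^ (6 : ℕ) * v ^ (18 : ℕ)
      + 180 * ζ ^ (2 : ℕ) * u ^ (6 : ℕ) * v ^ (18 : ℕ) - 270 * ζ ^ (3 : ℕ) * u ^ (6 : ℕ) * v ^ (18 : ℕ)
      - 108 * u ^ (5 : ℕ) * v ^ (19 : ℕ) + 144 * ζ * u ^ (5 : ℕ) * v ^ (19 : ℕ) - 36 * ζ ^ (2 : ℕ) * u ^ (5 : ℕ) * v ^ (19 : ℕ)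
      + 36 * u ^ (4 : ℕ) * v ^ (20 : ℕ) - 36 * ζ * u ^ (4 : ℕ) * v ^ (20 : ℕ)

/-- multiple of `Φ₅(ζ)` used in `xQ_zeta_sub_x2Q_mul`. -/
def E2 (ζ u v : R) : R :=
    -3 * u ^ (23 : ℕ) * v + 3 * ζ * u ^ (23 : ℕ) * v - 3 * ζ ^ (5 : ℕ) * u ^ (23 : ℕ) * v + 3 * ζ ^ (6 : ℕ) * u ^ (23 : ℕ) * v
      - 6 * u ^ (22 : ℕ) * v ^ (2 : ℕ) + 6 * ζ * u ^ (22 : ℕ) * v ^ (2 : ℕ) + 3 * ζ ^ (3 : ℕ) * u ^ (22 : ℕ) * v ^ (2 : ℕ)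
      - 3 * ζ ^ (4 : ℕ) * u ^ (22 : ℕ) * v ^ (2 : ℕ) - 6 * ζ ^ (5 : ℕ) * u ^ (22 : ℕ) * v ^ (2 : ℕ)
      + 6 * ζ ^ (6 : ℕ) * u ^ (22 : ℕ) * v ^ (2 : ℕ) + 3 * ζ ^ (8 : ℕ) * u ^ (22 : ℕ) * v ^ (2 : ℕ)
      - 3 * ζ ^ (9 : ℕ) * u ^ (22 : ℕ) * v ^ (2 : ℕ) - 3 * u ^ (21 : ℕ) * v ^ (3 : ℕ) - 21 * ζ ^ (3 : ℕ) * u ^ (21 : ℕ) * v ^ (3 : ℕ)
      + 24 * ζ ^ (4 : ℕ) * u ^ (21 : ℕ) * v ^ (3 : ℕ) - 3 * ζ ^ (5 : ℕ) * u ^ (21 : ℕ) * v ^ (3 : ℕ)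
      + 15 * ζ ^ (8 : ℕ) * u ^ (21 : ℕ) * v ^ (3 : ℕ) - 12 * ζ ^ (9 : ℕ) * u ^ (21 : ℕ) * v ^ (3 : ℕ)
      + 21 * ζ * u ^ (20 : ℕ) * v ^ (4 : ℕ) - 78 * ζ ^ (3 : ℕ) * u ^ (20 : ℕ) * v ^ (4 : ℕ) + 57 * ζ ^ (4 : ℕ) * u ^ (20 : ℕ) * v ^ (4 : ℕ)
      + 21 * ζ ^ (6 : ℕ) * u ^ (20 : ℕ) * v ^ (4 : ℕ) - 36 * ζ ^ (7 : ℕ) * u ^ (20 : ℕ) * v ^ (4 : ℕ)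
      + 30 * ζ ^ (8 : ℕ) * u ^ (20 : ℕ) * v ^ (4 : ℕ) - 15 * ζ ^ (9 : ℕ) * u ^ (20 : ℕ) * v ^ (4 : ℕ)
      - 21 * u ^ (19 : ℕ) * v ^ (5 : ℕ) + 99 * ζ * u ^ (19 : ℕ) * v ^ (5 : ℕ) - 78 * ζ ^ (3 : ℕ) * u ^ (19 : ℕ) * v ^ (5 : ℕ)
      - 21 * ζ ^ (5 : ℕ) * u ^ (19 : ℕ) * v ^ (5 : ℕ) + 171 * ζ ^ (6 : ℕ) * u ^ (19 : ℕ) * v ^ (5 : ℕ)
      - 144 * ζ ^ (7 : ℕ) * u ^ (19 : ℕ) * v ^ (5 : ℕ) + 30 * ζ ^ (8 : ℕ) * u ^ (19 : ℕ) * v ^ (5 : ℕ)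
      - 330 * u ^ (18 : ℕ) * v ^ (6 : ℕ) + 408 * ζ * u ^ (18 : ℕ) * v ^ (6 : ℕ) - 78 * ζ ^ (4 : ℕ) * u ^ (18 : ℕ) * v ^ (6 : ℕ)
      - 240 * ζ ^ (5 : ℕ) * u ^ (18 : ℕ) * v ^ (6 : ℕ) + 462 * ζ ^ (6 : ℕ) * u ^ (18 : ℕ) * v ^ (6 : ℕ)
      - 180 * ζ ^ (7 : ℕ) * u ^ (18 : ℕ) * v ^ (6 : ℕ) + 30 * ζ ^ (9 : ℕ) * u ^ (18 : ℕ) * v ^ (6 : ℕ)
      - 639 * u ^ (17 : ℕ) * v ^ (7 : ℕ) + 639 * ζ * u ^ (17 : ℕ) * v ^ (7 : ℕ) + 408 * ζ ^ (3 : ℕ) * u ^ (17 : ℕ) * v ^ (7 : ℕ)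
      - 228 * ζ ^ (4 : ℕ) * u ^ (17 : ℕ) * v ^ (7 : ℕ) - 639 * ζ ^ (5 : ℕ) * u ^ (17 : ℕ) * v ^ (7 : ℕ)
      + 531 * ζ ^ (6 : ℕ) * u ^ (17 : ℕ) * v ^ (7 : ℕ) - 42 * ζ ^ (8 : ℕ) * u ^ (17 : ℕ) * v ^ (7 : ℕ)
      + 42 * ζ ^ (9 : ℕ) * u ^ (17 : ℕ) * v ^ (7 : ℕ) - 408 * u ^ (16 : ℕ) * v ^ (8 : ℕ) + 924 * ζ ^ (3 : ℕ) * u ^ (16 : ℕ) * v ^ (8 : ℕ)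
      - 156 * ζ ^ (4 : ℕ) * u ^ (16 : ℕ) * v ^ (8 : ℕ) - 678 * ζ ^ (5 : ℕ) * u ^ (16 : ℕ) * v ^ (8 : ℕ)
      + 360 * ζ ^ (7 : ℕ) * u ^ (16 : ℕ) * v ^ (8 : ℕ) - 30 * ζ ^ (8 : ℕ) * u ^ (16 : ℕ) * v ^ (8 : ℕ)
      - 12 * ζ ^ (9 : ℕ) * u ^ (16 : ℕ) * v ^ (8 : ℕ) - 816 * ζ * u ^ (15 : ℕ) * v ^ (9 : ℕ) + 72 * ζ ^ (2 : ℕ) * u ^ (15 : ℕ) * v ^ (9 : ℕ)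
      + 807 * ζ ^ (3 : ℕ) * u ^ (15 : ℕ) * v ^ (9 : ℕ) + 117 * ζ ^ (4 : ℕ) * u ^ (15 : ℕ) * v ^ (9 : ℕ)
      - 834 * ζ ^ (6 : ℕ) * u ^ (15 : ℕ) * v ^ (9 : ℕ) + 504 * ζ ^ (7 : ℕ) * u ^ (15 : ℕ) * v ^ (9 : ℕ)
      + 15 * ζ ^ (8 : ℕ) * u ^ (15 : ℕ) * v ^ (9 : ℕ) - 45 * ζ ^ (9 : ℕ) * u ^ (15 : ℕ) * v ^ (9 : ℕ)
      + 816 * u ^ (14 : ℕ) * v ^ (10 : ℕ) - 1443 * ζ * u ^ (14 : ℕ) * v ^ (10 : ℕ) + 108 * ζ ^ (2 : ℕ) * u ^ (14 : ℕ) * v ^ (10 : ℕ)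
      + 627 * ζ ^ (3 : ℕ) * u ^ (14 : ℕ) * v ^ (10 : ℕ) + 1194 * ζ ^ (5 : ℕ) * u ^ (14 : ℕ) * v ^ (10 : ℕ)
      - 849 * ζ ^ (6 : ℕ) * u ^ (14 : ℕ) * v ^ (10 : ℕ) - 144 * ζ ^ (7 : ℕ) * u ^ (14 : ℕ) * v ^ (10 : ℕ)
      + 15 * ζ ^ (8 : ℕ) * u ^ (14 : ℕ) * v ^ (10 : ℕ) - 660 * u ^ (13 : ℕ) * v ^ (11 : ℕ) + 69 * ζ * u ^ (13 : ℕ) * v ^ (11 : ℕ)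
      + 267 * ζ ^ (4 : ℕ) * u ^ (13 : ℕ) * v ^ (11 : ℕ) + 1356 * ζ ^ (5 : ℕ) * u ^ (13 : ℕ) * v ^ (11 : ℕ)
      + 321 * ζ ^ (6 : ℕ) * u ^ (13 : ℕ) * v ^ (11 : ℕ) - 540 * ζ ^ (7 : ℕ) * u ^ (13 : ℕ) * v ^ (11 : ℕ)
      + 15 * ζ ^ (9 : ℕ) * u ^ (13 : ℕ) * v ^ (11 : ℕ) - 2136 * u ^ (12 : ℕ) * v ^ (12 : ℕ) + 2172 * ζ * u ^ (12 : ℕ) * v ^ (12 : ℕ)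
      - 183 * ζ ^ (3 : ℕ) * u ^ (12 : ℕ) * v ^ (12 : ℕ) + 723 * ζ ^ (4 : ℕ) * u ^ (12 : ℕ) * v ^ (12 : ℕ)
      - 462 * ζ ^ (5 : ℕ) * u ^ (12 : ℕ) * v ^ (12 : ℕ) + 714 * ζ ^ (6 : ℕ) * u ^ (12 : ℕ) * v ^ (12 : ℕ)
      - 3 * ζ ^ (8 : ℕ) * u ^ (12 : ℕ) * v ^ (12 : ℕ) + 3 * ζ ^ (9 : ℕ) * u ^ (12 : ℕ) * v ^ (12 : ℕ)
      + 3 * u ^ (11 : ℕ) * v ^ (13 : ℕ) - 180 * ζ ^ (2 : ℕ) * u ^ (11 : ℕ) * v ^ (13 : ℕ) + 1296 * ζ ^ (3 : ℕ) * u ^ (11 : ℕ) * v ^ (13 : ℕ)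
      - 39 * ζ ^ (4 : ℕ) * u ^ (11 : ℕ) * v ^ (13 : ℕ) - 1257 * ζ ^ (5 : ℕ) * u ^ (11 : ℕ) * v ^ (13 : ℕ)
      + 180 * ζ ^ (7 : ℕ) * u ^ (11 : ℕ) * v ^ (13 : ℕ) - 3 * ζ ^ (9 : ℕ) * u ^ (11 : ℕ) * v ^ (13 : ℕ)
      - 828 * ζ * u ^ (10 : ℕ) * v ^ (14 : ℕ) + 252 * ζ ^ (2 : ℕ) * u ^ (10 : ℕ) * v ^ (14 : ℕ)
      - 162 * ζ ^ (3 : ℕ) * u ^ (10 : ℕ) * v ^ (14 : ℕ) - 1062 * ζ ^ (4 : ℕ) * u ^ (10 : ℕ) * v ^ (14 : ℕ)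
      - 216 * ζ ^ (6 : ℕ) * u ^ (10 : ℕ) * v ^ (14 : ℕ) + 36 * ζ ^ (7 : ℕ) * u ^ (10 : ℕ) * v ^ (14 : ℕ)
      + 648 * u ^ (9 : ℕ) * v ^ (15 : ℕ) + 54 * ζ * u ^ (9 : ℕ) * v ^ (15 : ℕ) + 288 * ζ ^ (2 : ℕ) * u ^ (9 : ℕ) * v ^ (15 : ℕ)
      - 2142 * ζ ^ (3 : ℕ) * u ^ (9 : ℕ) * v ^ (15 : ℕ) + 396 * ζ ^ (5 : ℕ) * u ^ (9 : ℕ) * v ^ (15 : ℕ)
      - 36 * ζ ^ (6 : ℕ) * u ^ (9 : ℕ) * v ^ (15 : ℕ) - 36 * ζ ^ (7 : ℕ) * u ^ (9 : ℕ) * v ^ (15 : ℕ)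
      + 396 * u ^ (8 : ℕ) * v ^ (16 : ℕ) + 342 * ζ * u ^ (8 : ℕ) * v ^ (16 : ℕ) - 900 * ζ ^ (2 : ℕ) * u ^ (8 : ℕ) * v ^ (16 : ℕ)
      + 378 * ζ ^ (4 : ℕ) * u ^ (8 : ℕ) * v ^ (16 : ℕ) + 72 * ζ ^ (5 : ℕ) * u ^ (8 : ℕ) * v ^ (16 : ℕ)
      + 36 * ζ ^ (6 : ℕ) * u ^ (8 : ℕ) * v ^ (16 : ℕ) + 144 * u ^ (7 : ℕ) * v ^ (17 : ℕ) - 648 * ζ * u ^ (7 : ℕ) * v ^ (17 : ℕ)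
      + 810 * ζ ^ (3 : ℕ) * u ^ (7 : ℕ) * v ^ (17 : ℕ) + 90 * ζ ^ (4 : ℕ) * u ^ (7 : ℕ) * v ^ (17 : ℕ)
      - 72 * ζ ^ (5 : ℕ) * u ^ (7 : ℕ) * v ^ (17 : ℕ) - 450 * u ^ (6 : ℕ) * v ^ (18 : ℕ) + 360 * ζ ^ (2 : ℕ) * u ^ (6 : ℕ) * v ^ (18 : ℕ)
      + 180 * ζ ^ (3 : ℕ) * u ^ (6 : ℕ) * v ^ (18 : ℕ) - 90 * ζ ^ (4 : ℕ) * u ^ (6 : ℕ) * v ^ (18 : ℕ)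
      + 252 * ζ * u ^ (5 : ℕ) * v ^ (19 : ℕ) + 108 * ζ ^ (2 : ℕ) * u ^ (5 : ℕ) * v ^ (19 : ℕ) - 180 * ζ ^ (3 : ℕ) * u ^ (5 : ℕ) * v ^ (19 : ℕ)
      + 108 * u ^ (4 : ℕ) * v ^ (20 : ℕ) + 72 * ζ * u ^ (4 : ℕ) * v ^ (20 : ℕ) - 108 * ζ ^ (2 : ℕ) * u ^ (4 : ℕ) * v ^ (20 : ℕ)
      + 36 * u ^ (3 : ℕ) * v ^ (21 : ℕ) - 72 * ζ * u ^ (3 : ℕ) * v ^ (21 : ℕ) - 36 * u ^ (2 : ℕ) * v ^ (22 : ℕ)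

/-- `x(Q₁) - x(Q₀)` divides `36 (ζ³ - 1) f²`. -/
theorem xQ_zeta_sub_xQ_mul (ζ u v : R) (hζ : ζ ^ 4 + ζ ^ 3 + ζ ^ 2 + ζ + 1 = 0) :
    (xQ (ζ * u) v - xQ u v) * G1 ζ u v = 36 * (ζ ^ 3 - 1) * kf u v ^ 2 := by
  have key : (xQ (ζ * u) v - xQ u v) * G1 ζ u v - 36 * (ζ ^ 3 - 1) * kf u v ^ 2 =
      E1 ζ u v * (ζ ^ 4 + ζ ^ 3 + ζ ^ 2 + ζ + 1) := by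
    unfold xQ G1 kf E1
    ring
  rw [hζ, mul_zero] at key
  exact sub_eq_zero.mp key

/-- `x(Q₁) - x(2Q₀)` divides `36 f²`. -/
theorem xQ_zeta_sub_x2Q_mul (ζ u v : R) (hζ : ζ ^ 4 + ζ ^ 3 + ζ ^ 2 + ζ + 1 = 0) :
    (xQ (ζ * u) v - x2Q u v) * G2 ζ u v = 36 * kf u v ^ 2 := by
  have key : (xQ (ζ * u) v - x2Q u v) * G2 ζ u v - 36 * kf u v ^ 2 =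
      E2 ζ u v * (ζ ^ 4 + ζ ^ 3 + ζ ^ 2 + ζ + 1) := by
    unfold xQ x2Q G2 kf E2
    ring
  rw [hζ, mul_zero] at key
  exact sub_eq_zero.mp key

/-- cofactor: `yQ * Gy = 108 f²`. -/
def Gy (u v : R) : R :=
    u ^ (9 : ℕ) - u ^ (8 : ℕ) * v - 3 * u ^ (7 : ℕ) * v ^ (2 : ℕ) + 7 * u ^ (6 : ℕ) * v ^ (3 : ℕ)
      - 7 * u ^ (4 : ℕ) * v ^ (5 : ℕ) + 7 * u ^ (3 : ℕ) * v ^ (6 : ℕ) - 4 * u ^ (2 : ℕ) * v ^ (7 : ℕ)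
      + u * v ^ (8 : ℕ)

/-- cofactor: `y2Q * Gy2 = 108 f²`. -/
def Gy2 (u v : R) : R :=
    u ^ (8 : ℕ) * v + 4 * u ^ (7 : ℕ) * v ^ (2 : ℕ) + 7 * u ^ (6 : ℕ) * v ^ (3 : ℕ) + 7 * u ^ (5 : ℕ) * v ^ (4 : ℕ)
      - 7 * u ^ (3 : ℕ) * v ^ (6 : ℕ) - 3 * u ^ (2 : ℕ) * v ^ (7 : ℕ) + u * v ^ (8 : ℕ) + v ^ (9 : ℕ)

/-- `y(Q)` divides `108 f²`: the point `Q` is not `2`-torsion away from the cusps. -/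
theorem yQ_mul (u v : R) : yQ u v * Gy u v = 108 * kf u v ^ 2 := by
  unfold yQ Gy kf
  ring

/-- `y(2Q)` divides `108 f²`. -/
theorem y2Q_mul (u v : R) : y2Q u v * Gy2 u v = 108 * kf u v ^ 2 := by
  unfold y2Q Gy2 kf
  ring

/-- `x(Q) - x(2Q)` divides `36 f`. -/
theorem xQ_sub_x2Q_mul (u v : R) :
    (xQ u v - x2Q u v) * (u ^ 2 + u * v - v ^ 2) = 36 * kf u v := by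
  unfold xQ x2Q kf
  ring

section field

variable {K : Type*} [Field K]

/-- a root of `Φ₅` is a fifth root of unity. -/
theorem zeta_pow_five (ζ : K) (hζ : ζ ^ 4 + ζ ^ 3 + ζ ^ 2 + ζ + 1 = 0) : ζ ^ 5 = 1 := by
  linear_combination (ζ - 1) * hζ

/-- in characteristic `≠ 5` a root of `Φ₅` has `ζ³ ≠ 1`. -/
theorem zeta_cube_ne_one (ζ : K) (hζ : ζ ^ 4 + ζ ^ 3 + ζ ^ 2 + ζ + 1 = 0) (h5 : (5 : K) ≠ 0) :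
    ζ ^ 3 ≠ 1 := by
  intro h3
  have h5' : ζ ^ 5 = 1 := zeta_pow_five ζ hζ
  have h1 : ζ = 1 := by
    have h6 : ζ ^ 6 = 1 := by rw [show 6 = 3 * 2 from rfl, pow_mul, h3, one_pow]
    have : ζ ^ 6 = ζ ^ 5 * ζ := by ring
    rw [h6, h5', one_mul] at this
    exact this.symm
  rw [h1] at hζ
  apply h5
  linear_combination hζ

theorem xQ_zeta_ne_xQ (ζ u v : K) (hζ : ζ ^ 4 + ζ ^ 3 + ζ ^ 2 + ζ + 1 = 0)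
    (h2 : (2 : K) ≠ 0) (h3 : (3 : K) ≠ 0) (h5 : (5 : K) ≠ 0) (hf : kf u v ≠ 0) :
    xQ (ζ * u) v ≠ xQ u v := by
  intro h
  have key := xQ_zeta_sub_xQ_mul ζ u v hζ
  rw [h, sub_self, zero_mul] at key
  have h36 : (36 : K) ≠ 0 := by
    have : (36 : K) = 2 ^ 2 * 3 ^ 2 := by norm_num
    rw [this]
    exact mul_ne_zero (pow_ne_zero _ h2) (pow_ne_zero _ h3)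
  have hz : ζ ^ 3 - 1 ≠ 0 := sub_ne_zero.mpr (zeta_cube_ne_one ζ hζ h5)
  exact mul_ne_zero (mul_ne_zero h36 hz) (pow_ne_zero _ hf) key.symm

theorem xQ_zeta_ne_x2Q (ζ u v : K) (hζ : ζ ^ 4 + ζ ^ 3 + ζ ^ 2 + ζ + 1 = 0)
    (h2 : (2 : K) ≠ 0) (h3 : (3 : K) ≠ 0) (hf : kf u v ≠ 0) :
    xQ (ζ * u) v ≠ x2Q u v := by
  intro h
  have key := xQ_zeta_sub_x2Q_mul ζ u v hζ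
  rw [h, sub_self, zero_mul] at key
  have h36 : (36 : K) ≠ 0 := by
    have : (36 : K) = 2 ^ 2 * 3 ^ 2 := by norm_num
    rw [this]
    exact mul_ne_zero (pow_ne_zero _ h2) (pow_ne_zero _ h3)
  exact mul_ne_zero h36 (pow_ne_zero _ hf) key.symm

theorem yQ_ne_zero (u v : K) (h2 : (2 : K) ≠ 0) (h3 : (3 : K) ≠ 0) (hf : kf u v ≠ 0) :
    yQ u v ≠ 0 := by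
  intro h
  have key := yQ_mul u v
  rw [h, zero_mul] at key
  have h108 : (108 : K) ≠ 0 := by
    have : (108 : K) = 2 ^ 2 * 3 ^ 3 := by norm_num
    rw [this]
    exact mul_ne_zero (pow_ne_zero _ h2) (pow_ne_zero _ h3)
  exact mul_ne_zero h108 (pow_ne_zero _ hf) key.symm

theorem y2Q_ne_zero (u v : K) (h2 : (2 : K) ≠ 0) (h3 : (3 : K) ≠ 0) (hf : kf u v ≠ 0) :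
    y2Q u v ≠ 0 := by
  intro h
  have key := y2Q_mul u v
  rw [h, zero_mul] at key
  have h108 : (108 : K) ≠ 0 := by
    have : (108 : K) = 2 ^ 2 * 3 ^ 3 := by norm_num
    rw [this]
    exact mul_ne_zero (pow_ne_zero _ h2) (pow_ne_zero _ h3)
  exact mul_ne_zero h108 (pow_ne_zero _ hf) key.symm

theorem xQ_ne_x2Q (u v : K) (h2 : (2 : K) ≠ 0) (h3 : (3 : K) ≠ 0) (hf : kf u v ≠ 0) :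
    xQ u v ≠ x2Q u v := by
  intro h
  have key := xQ_sub_x2Q_mul u v
  rw [h, sub_self, zero_mul] at key
  have h36 : (36 : K) ≠ 0 := by
    have : (36 : K) = 2 ^ 2 * 3 ^ 2 := by norm_num
    rw [this]
    exact mul_ne_zero (pow_ne_zero _ h2) (pow_ne_zero _ h3)
  exact mul_ne_zero h36 hf key.symm

end field

end Fermat.Agent.S52.Klein.Indep21
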