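/-
S52 (the 3-5 switch), brick K2(b) (helper3): Point-level statements for the explicit
`5`-torsion section `Q` of the universal Klein curve, on top of `Klein/Defs51`.

A Weierstrass curve `W` over a field `F` is *Klein at* `(u, v)` if it is the short curve
`y² = x³ + 27 H(u,v) x + 54 T(u,v)` (`IsKlein W u v`; stated through the coefficients so that
any presentation of the curve can be plugged in).  Then, if `6 ≠ 0` and `f(u,v) ≠ 0`:

* `IsKlein.Δ_eq`           : `W.Δ = -(6^12) f(u,v)^5`;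
* `IsKlein.Qpt`, `IsKlein.twoQpt` : the points `Q = (xQ, yQ)` and `2Q = (x2Q, y2Q)` of `W`;
* `IsKlein.two_nsmul_Qpt`  : `2 • Q = 2Q`;   `IsKlein.two_nsmul_twoQpt` : `2 • 2Q = -Q`;
* `IsKlein.five_nsmul_Qpt` : `5 • Q = 0`;   `IsKlein.addOrderOf_Qpt` : `Q` has order exactly `5`;
* `IsKlein.zeta`           : `W` is also Klein at `(ζ u, v)` when `ζ⁵ = 1`, so the points
  `Q(ζʲ u, v)` are `5`-torsion points of the *same* curve `W`.
-/
import Mathlib
import Fermat.Agent.S52.Klein.Defs51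

set_option autoImplicit false

namespace Fermat.Agent.S52.Klein.PointQ3

open Fermat.Agent.S52.Klein WeierstrassCurve WeierstrassCurve.Affine

variable {F : Type*} [Field F]

/-- The cofactor of `yQ` in `f²`. -/
def cofQ (u v : F) : F :=
  u * (u ^ 2 + u * v - v ^ 2) ^ 2 * (u ^ 4 - 3 * u ^ 3 * v + 4 * u ^ 2 * v ^ 2 - 2 * u * v ^ 3 + v ^ 4)

/-- The cofactor of `y2Q` in `f²`. -/
def cof2Q (u v : F) : F :=
  v * (v ^ 2 - u * v - u ^ 2) ^ 2 * (v ^ 4 + 3 * v ^ 3 * u + 4 * v ^ 2 * u ^ 2 + 2 * v * u ^ 3 + u ^ 4)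

/-- `yQ` vanishes only at cusps. -/
theorem yQ_mul (u v : F) : yQ u v * cofQ u v = 108 * kf u v ^ 2 := by
  unfold yQ cofQ kf; ring

/-- `y2Q` vanishes only at cusps. -/
theorem y2Q_mul (u v : F) : y2Q u v * cof2Q u v = 108 * kf u v ^ 2 := by
  unfold y2Q cof2Q kf; ring

/-- `W` is the short Klein curve `y² = x³ + 27 H(u,v) x + 54 T(u,v)`. -/
structure IsKlein (W : Affine F) (u v : F) : Prop where
  a₁ : W.a₁ = 0
  a₂ : W.a₂ = 0
  a₃ : W.a₃ = 0
  a₄ : W.a₄ = 27 * kH u v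
  a₆ : W.a₆ = 54 * kT u v

/-- The standard presentation of the Klein curve at `(u, v)`. -/
def kE (u v : F) : Affine F := ⟨0, 0, 0, 27 * kH u v, 54 * kT u v⟩

theorem isKlein_kE (u v : F) : IsKlein (kE u v) u v := ⟨rfl, rfl, rfl, rfl, rfl⟩

namespace IsKlein

variable {W : Affine F} {u v : F}

theorem Δ_eq (h : IsKlein W u v) : W.Δ = -(6 ^ 12) * kf u v ^ 5 := by
  have hk := klein_relation u v
  simp only [WeierstrassCurve.Δ, WeierstrassCurve.b₂, WeierstrassCurve.b₄, WeierstrassCurve.b₆,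
    WeierstrassCurve.b₈, h.a₁, h.a₂, h.a₃, h.a₄, h.a₆]
  linear_combination (-1259712 : F) * hk

theorem Δ_ne_zero (h : IsKlein W u v) (h6 : (6 : F) ≠ 0) (hf : kf u v ≠ 0) : W.Δ ≠ 0 := by
  rw [h.Δ_eq]
  exact mul_ne_zero (neg_ne_zero.mpr (pow_ne_zero _ h6)) (pow_ne_zero _ hf)

/-- `W` is also Klein at `(ζ u, v)` for `ζ⁵ = 1`. -/
theorem zeta (h : IsKlein W u v) {ζ : F} (hζ : ζ ^ 5 = 1) : IsKlein W (ζ * u) v :=
  ⟨h.a₁, h.a₂, h.a₃, by rw [h.a₄, kH_zeta hζ], by rw [h.a₆, kT_zeta hζ]⟩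

theorem zeta_pow (h : IsKlein W u v) {ζ : F} (hζ : ζ ^ 5 = 1) (j : ℕ) :
    IsKlein W (ζ ^ j * u) v :=
  h.zeta (by rw [← pow_mul, mul_comm, pow_mul, hζ, one_pow])

theorem equation_Q (h : IsKlein W u v) : W.Equation (xQ u v) (yQ u v) := by
  rw [Affine.equation_iff, h.a₁, h.a₂, h.a₃, h.a₄, h.a₆]
  linear_combination Q_on_curve u v

theorem equation_twoQ (h : IsKlein W u v) : W.Equation (x2Q u v) (y2Q u v) := by
  rw [Affine.equation_iff, h.a₁, h.a₂, h.a₃, h.a₄, h.a₆]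
  linear_combination twoQ_on_curve u v

theorem nonsingular_Q (h : IsKlein W u v) (h6 : (6 : F) ≠ 0) (hf : kf u v ≠ 0) :
    W.Nonsingular (xQ u v) (yQ u v) :=
  (Affine.equation_iff_nonsingular_of_Δ_ne_zero (h.Δ_ne_zero h6 hf)).mp h.equation_Q

theorem nonsingular_twoQ (h : IsKlein W u v) (h6 : (6 : F) ≠ 0) (hf : kf u v ≠ 0) :
    W.Nonsingular (x2Q u v) (y2Q u v) :=
  (Affine.equation_iff_nonsingular_of_Δ_ne_zero (h.Δ_ne_zero h6 hf)).mp h.equation_twoQ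

/-- The point `Q` of `W`. -/
def Qpt (h : IsKlein W u v) (h6 : (6 : F) ≠ 0) (hf : kf u v ≠ 0) : W.Point :=
  .some _ _ (h.nonsingular_Q h6 hf)

/-- The point `2Q` of `W`. -/
def twoQpt (h : IsKlein W u v) (h6 : (6 : F) ≠ 0) (hf : kf u v ≠ 0) : W.Point :=
  .some _ _ (h.nonsingular_twoQ h6 hf)

theorem Qpt_ne_zero (h : IsKlein W u v) (h6 : (6 : F) ≠ 0) (hf : kf u v ≠ 0) :
    h.Qpt h6 hf ≠ 0 := Point.some_ne_zero _

theorem twoQpt_ne_zero (h : IsKlein W u v) (h6 : (6 : F) ≠ 0) (hf : kf u v ≠ 0) :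
    h.twoQpt h6 hf ≠ 0 := Point.some_ne_zero _


theorem yQ_ne_zero (h6 : (6 : F) ≠ 0) (hf : kf u v ≠ 0) : yQ u v ≠ 0 := by
  intro h0
  have h := yQ_mul u v
  rw [h0, zero_mul] at h
  have h108 : (108 : F) ≠ 0 := by
    have : (108 : F) = 6 ^ 2 * 3 := by norm_num
    rw [this]
    refine mul_ne_zero (pow_ne_zero _ h6) ?_
    intro h3
    apply h6
    have : (6 : F) = 2 * 3 := by norm_num
    rw [this, h3, mul_zero]
  exact mul_ne_zero h108 (pow_ne_zero _ hf) h.symm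

theorem y2Q_ne_zero (h6 : (6 : F) ≠ 0) (hf : kf u v ≠ 0) : y2Q u v ≠ 0 := by
  intro h0
  have h := y2Q_mul u v
  rw [h0, zero_mul] at h
  have h108 : (108 : F) ≠ 0 := by
    have : (108 : F) = 6 ^ 2 * 3 := by norm_num
    rw [this]
    refine mul_ne_zero (pow_ne_zero _ h6) ?_
    intro h3
    apply h6
    have : (6 : F) = 2 * 3 := by norm_num
    rw [this, h3, mul_zero]
  exact mul_ne_zero h108 (pow_ne_zero _ hf) h.symm

theorem two_ne_zero_of_six (h6 : (6 : F) ≠ 0) : (2 : F) ≠ 0 := by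
  intro h2
  apply h6
  have : (6 : F) = 2 * 3 := by norm_num
  rw [this, h2, zero_mul]

private theorem some_congr {W : Affine F} {x y x' y' : F} (h : W.Nonsingular x y)
    (h' : W.Nonsingular x' y') (hx : x = x') (hy : y = y') :
    Point.some x y h = Point.some x' y' h' := by
  subst hx hy; rfl

section group

variable [DecidableEq F]

/-- `2 • Q = 2Q`. -/
theorem two_nsmul_Qpt (h : IsKlein W u v) (h6 : (6 : F) ≠ 0) (hf : kf u v ≠ 0) :
    2 • h.Qpt h6 hf = h.twoQpt h6 hf := by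
  have hy := yQ_ne_zero h6 hf
  have h2 := two_ne_zero_of_six h6
  have hne : yQ u v ≠ W.negY (xQ u v) (yQ u v) := by
    simp only [Affine.negY, h.a₁, h.a₃, zero_mul, sub_zero]
    intro he
    have : 2 * yQ u v = 0 := by linear_combination he
    exact mul_ne_zero h2 hy this
  rw [two_nsmul, Qpt, twoQpt, Point.add_self_of_Y_ne hne]
  have hs : W.slope (xQ u v) (xQ u v) (yQ u v) (yQ u v)
      = (3 * xQ u v ^ 2 + 27 * kH u v) / (2 * yQ u v) := by
    rw [Affine.slope_of_Y_ne rfl hne]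
    simp only [Affine.negY, h.a₁, h.a₂, h.a₃, h.a₄, zero_mul, mul_zero, sub_zero, add_zero]
    congr 1
    ring
  have h2y : 2 * yQ u v ≠ 0 := mul_ne_zero h2 hy
  have hL2 : ((3 * xQ u v ^ 2 + 27 * kH u v) / (2 * yQ u v)) ^ 2 = x2Q u v + 2 * xQ u v := by
    rw [div_pow, div_eq_iff (pow_ne_zero _ h2y)]
    exact dbl_Q_x u v
  have hL1 : (3 * xQ u v ^ 2 + 27 * kH u v) / (2 * yQ u v) * (xQ u v - x2Q u v)
      = y2Q u v + yQ u v := by
    rw [div_mul_eq_mul_div, div_eq_iff h2y]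
    exact dbl_Q_y u v
  have hX : W.addX (xQ u v) (xQ u v) (W.slope (xQ u v) (xQ u v) (yQ u v) (yQ u v)) = x2Q u v := by
    rw [hs]
    simp only [Affine.addX, h.a₁, h.a₂, zero_mul, sub_zero, add_zero]
    linear_combination hL2
  refine some_congr _ _ hX ?_
  simp only [Affine.addY, Affine.negAddY, Affine.negY, hX, h.a₁, h.a₃, zero_mul, sub_zero]
  rw [hs]
  linear_combination hL1

/-- `2 • 2Q = -Q`. -/
theorem two_nsmul_twoQpt (h : IsKlein W u v) (h6 : (6 : F) ≠ 0) (hf : kf u v ≠ 0) :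
    2 • h.twoQpt h6 hf = -h.Qpt h6 hf := by
  have hy := y2Q_ne_zero h6 hf
  have h2 := two_ne_zero_of_six h6
  have hne : y2Q u v ≠ W.negY (x2Q u v) (y2Q u v) := by
    simp only [Affine.negY, h.a₁, h.a₃, zero_mul, sub_zero]
    intro he
    have : 2 * y2Q u v = 0 := by linear_combination he
    exact mul_ne_zero h2 hy this
  rw [two_nsmul, Qpt, twoQpt, Point.add_self_of_Y_ne hne, Point.neg_some]
  have hs : W.slope (x2Q u v) (x2Q u v) (y2Q u v) (y2Q u v)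
      = (3 * x2Q u v ^ 2 + 27 * kH u v) / (2 * y2Q u v) := by
    rw [Affine.slope_of_Y_ne rfl hne]
    simp only [Affine.negY, h.a₁, h.a₂, h.a₃, h.a₄, zero_mul, mul_zero, sub_zero, add_zero]
    congr 1
    ring
  have h2y : 2 * y2Q u v ≠ 0 := mul_ne_zero h2 hy
  have hL2 : ((3 * x2Q u v ^ 2 + 27 * kH u v) / (2 * y2Q u v)) ^ 2 = xQ u v + 2 * x2Q u v := by
    rw [div_pow, div_eq_iff (pow_ne_zero _ h2y)]
    exact dbl_twoQ_x u v
  have hL1 : (3 * x2Q u v ^ 2 + 27 * kH u v) / (2 * y2Q u v) * (x2Q u v - xQ u v)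
      = -yQ u v + y2Q u v := by
    rw [div_mul_eq_mul_div, div_eq_iff h2y]
    exact dbl_twoQ_y u v
  have hX : W.addX (x2Q u v) (x2Q u v) (W.slope (x2Q u v) (x2Q u v) (y2Q u v) (y2Q u v))
      = xQ u v := by
    rw [hs]
    simp only [Affine.addX, h.a₁, h.a₂, zero_mul, sub_zero, add_zero]
    linear_combination hL2
  refine some_congr _ _ hX ?_
  simp only [Affine.addY, Affine.negAddY, Affine.negY, hX, h.a₁, h.a₃, zero_mul, sub_zero]
  rw [hs]
  linear_combination hL1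

/-- `5 • Q = 0`. -/
theorem five_nsmul_Qpt (h : IsKlein W u v) (h6 : (6 : F) ≠ 0) (hf : kf u v ≠ 0) :
    5 • h.Qpt h6 hf = 0 := by
  have h4 : 4 • h.Qpt h6 hf = -h.Qpt h6 hf := by
    rw [show 4 = 2 * 2 from rfl, mul_nsmul, h.two_nsmul_Qpt h6 hf, h.two_nsmul_twoQpt h6 hf]
  rw [show 5 = 4 + 1 from rfl, add_nsmul, one_nsmul, h4, neg_add_cancel]

/-- `5 • 2Q = 0`. -/
theorem five_nsmul_twoQpt (h : IsKlein W u v) (h6 : (6 : F) ≠ 0) (hf : kf u v ≠ 0) :
    5 • h.twoQpt h6 hf = 0 := by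
  rw [← h.two_nsmul_Qpt h6 hf, ← mul_nsmul, mul_comm, mul_nsmul, h.five_nsmul_Qpt h6 hf,
    nsmul_zero]

/-- `Q` has exact order `5`. -/
theorem addOrderOf_Qpt (h : IsKlein W u v) (h6 : (6 : F) ≠ 0) (hf : kf u v ≠ 0) :
    addOrderOf (h.Qpt h6 hf) = 5 := by
  have : Fact (Nat.Prime 5) := ⟨by norm_num⟩
  exact addOrderOf_eq_prime (h.five_nsmul_Qpt h6 hf) (h.Qpt_ne_zero h6 hf)

/-- `Q` lies in the `5`-torsion submodule. -/
theorem Qpt_mem_torsionBy (h : IsKlein W u v) (h6 : (6 : F) ≠ 0) (hf : kf u v ≠ 0) :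
    h.Qpt h6 hf ∈ Submodule.torsionBy ℤ W.Point 5 := by
  rw [Submodule.mem_torsionBy_iff]
  exact_mod_cast h.five_nsmul_Qpt h6 hf

/-- For consumers working with `x`-coordinates: `xQ u v` is the `x`-coordinate of a point of
order `5` of `W`. -/
theorem exists_point_xQ (h : IsKlein W u v) (h6 : (6 : F) ≠ 0) (hf : kf u v ≠ 0) :
    ∃ (y : F) (hns : W.Nonsingular (xQ u v) y), 5 • Point.some (xQ u v) y hns = 0 :=
  ⟨yQ u v, h.nonsingular_Q h6 hf, h.five_nsmul_Qpt h6 hf⟩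

/-- `x2Q u v` is the `x`-coordinate of a point of order `5` of `W`. -/
theorem exists_point_x2Q (h : IsKlein W u v) (h6 : (6 : F) ≠ 0) (hf : kf u v ≠ 0) :
    ∃ (y : F) (hns : W.Nonsingular (x2Q u v) y), 5 • Point.some (x2Q u v) y hns = 0 :=
  ⟨y2Q u v, h.nonsingular_twoQ h6 hf, h.five_nsmul_twoQpt h6 hf⟩

end group

end IsKlein

end Fermat.Agent.S52.Klein.PointQ3
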