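import Mathlib
import Fermat.Agent.S52.Klein.Defs51
import Fermat.Agent.S52.Klein.Tors86

/-!
# S52, brick K2 (bridge): the 5-torsion of the universal Klein curve in `Defs51` names

Consumer-shaped restatements of `Tors86` for an ARBITRARY Weierstrass curve `W` over a field `K`
with `a₁ = a₂ = a₃ = 0`, `a₄ = 27 * kH u v`, `a₆ = 54 * kT u v` (e.g.
`(ModelClose74.shortCurve c4 c6)⁄Qbar` with `kH u v = -c4`, `kT u v = -c6`), using the names
`kf kH kT xQ yQ` of `Fermat.Agent.S52.Klein` (`Defs51`):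

* `nonsingular_Q`, `five_nsmul_Q` : `(xQ u' v', yQ u' v')` is a point of `W` killed by `5`
  whenever `kH u' v' = kH u v`, `kT u' v' = kT u v`;
* `exists_Q_zeta`, `exists_Q_swap_zeta` : the ten points `(ζᵇ u, v)`, `(v, -ζᵇ u)`;
* `card_torsionBy_five` : `Nat.card W[5] = 25` if `K` contains a primitive fifth root of unity.
-/

set_option autoImplicit false

open WeierstrassCurve WeierstrassCurve.Affine

namespace Fermat.Agent.S52.Klein.TorsBridge86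

open Fermat.Agent.S52.Klein

section forms

variable {R : Type*} [CommRing R]

theorem kF_eq (u v : R) : Forms86.kF u v = kf u v := rfl

theorem kH_eq (u v : R) : Forms86.kH u v = kH u v := rfl

theorem kT_eq (u v : R) : Forms86.kT u v = kT u v := rfl

theorem kX_eq (u v : R) : Forms86.kX u v = xQ u v := by
  unfold Forms86.kX xQ; ring

theorem kY_eq (u v : R) : Forms86.kY u v = yQ u v := by
  unfold Forms86.kY yQ; ring

end forms

section field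

variable {K : Type*} [Field K]

/-- a curve with the coefficients of the universal Klein curve IS `Tors86.short ..`. -/
theorem eq_short {W : Affine K} (h1 : W.a₁ = 0) (h2 : W.a₂ = 0) (h3 : W.a₃ = 0) :
    W = Tors86.short W.a₄ W.a₆ := by
  ext
  · exact h1
  · exact h2
  · exact h3
  · rfl
  · rfl

variable {W : Affine K} {u v : K}

/-- `(xQ u' v', yQ u' v')` is a nonsingular point of `W`. -/
theorem nonsingular_Q (h2 : (2 : K) ≠ 0) (h3 : (3 : K) ≠ 0) (ha₁ : W.a₁ = 0) (ha₂ : W.a₂ = 0)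
    (ha₃ : W.a₃ = 0) (ha₄ : W.a₄ = 27 * kH u v) (ha₆ : W.a₆ = 54 * kT u v) (hf : kf u v ≠ 0)
    {u' v' : K} (hH : kH u' v' = kH u v) (hT : kT u' v' = kT u v) :
    W.Nonsingular (xQ u' v') (yQ u' v') := by
  rw [eq_short ha₁ ha₂ ha₃, ha₄, ha₆]
  have hΔ : (Tors86.short (27 * kH u v) (54 * kT u v)).Δ ≠ 0 :=
    Tors86.kE_Δ_ne_zero h2 h3 hf
  have := Tors86.sec_nonsingular hΔ (u := u') (v := v')
    (by rw [kH_eq, hH]) (by rw [kT_eq, hT])
  rwa [kX_eq, kY_eq] at this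

variable [DecidableEq K]

/-- `(xQ u' v', yQ u' v')` is killed by `5`. -/
theorem five_nsmul_Q (h2 : (2 : K) ≠ 0) (h3 : (3 : K) ≠ 0) (ha₁ : W.a₁ = 0) (ha₂ : W.a₂ = 0)
    (ha₃ : W.a₃ = 0) (ha₄ : W.a₄ = 27 * kH u v) (ha₆ : W.a₆ = 54 * kT u v) (hf : kf u v ≠ 0)
    {u' v' : K} (hH : kH u' v' = kH u v) (hT : kT u' v' = kT u v)
    (h : W.Nonsingular (xQ u' v') (yQ u' v')) :
    (5 : ℕ) • Point.some (xQ u' v') (yQ u' v') h = 0 := by
  obtain rfl : W = Tors86.short (27 * kH u v) (54 * kT u v) := by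
    rw [eq_short ha₁ ha₂ ha₃, ha₄, ha₆]
  have hΔ : (Tors86.short (27 * kH u v) (54 * kT u v)).Δ ≠ 0 :=
    Tors86.kE_Δ_ne_zero h2 h3 hf
  have hf' : Forms86.kF u' v' ≠ 0 := by
    intro h0
    have h1 := Forms86.klein_relation u' v'
    have h1' := Forms86.klein_relation u v
    rw [kH_eq, kT_eq] at h1 h1'
    rw [hH, hT, h1'] at h1
    rw [h0] at h1
    have : (1728 : K) ≠ 0 := by
      have : (1728 : K) = 2 ^ 6 * 3 ^ 3 := by norm_num
      rw [this]; exact mul_ne_zero (pow_ne_zero _ h2) (pow_ne_zero _ h3)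
    have hz : (1728 : K) * Forms86.kF u v ^ 5 = 0 := by rw [h1]; ring
    rcases mul_eq_zero.mp hz with h | h
    · exact this h
    · exact hf (pow_eq_zero_iff (by norm_num) |>.mp h)
  have key := Tors86.five_nsmul_sec h2 h3 hΔ (u := u') (v := v')
    (by rw [kH_eq, hH]) (by rw [kT_eq, hT]) hf'
  have hx := kX_eq u' v'
  have hy := kY_eq u' v'
  convert key using 3
  · exact hx.symm
  · exact hy.symm

/-- the five points `(xQ, yQ)(ζᵇ u, v)` are points of `W` killed by `5`. -/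
theorem exists_Q_zeta (h2 : (2 : K) ≠ 0) (h3 : (3 : K) ≠ 0) (ha₁ : W.a₁ = 0) (ha₂ : W.a₂ = 0)
    (ha₃ : W.a₃ = 0) (ha₄ : W.a₄ = 27 * kH u v) (ha₆ : W.a₆ = 54 * kT u v) (hf : kf u v ≠ 0)
    {z : K} (hz5 : z ^ 5 = 1) (b : ℕ) :
    ∃ h : W.Nonsingular (xQ (z ^ b * u) v) (yQ (z ^ b * u) v),
      (5 : ℕ) • Point.some _ _ h = 0 := by
  have hzb : (z ^ b) ^ 5 = 1 := by rw [← pow_mul, mul_comm, pow_mul, hz5, one_pow]
  have hH : kH (z ^ b * u) v = kH u v := Forms86.kH_zeta hzb u v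
  have hT : kT (z ^ b * u) v = kT u v := Forms86.kT_zeta hzb u v
  exact ⟨nonsingular_Q h2 h3 ha₁ ha₂ ha₃ ha₄ ha₆ hf hH hT,
    five_nsmul_Q h2 h3 ha₁ ha₂ ha₃ ha₄ ha₆ hf hH hT _⟩

/-- the five points `(xQ, yQ)(v, -ζᵇ u)` are points of `W` killed by `5`. -/
theorem exists_Q_swap_zeta (h2 : (2 : K) ≠ 0) (h3 : (3 : K) ≠ 0) (ha₁ : W.a₁ = 0)
    (ha₂ : W.a₂ = 0) (ha₃ : W.a₃ = 0) (ha₄ : W.a₄ = 27 * kH u v) (ha₆ : W.a₆ = 54 * kT u v)
    (hf : kf u v ≠ 0) {z : K} (hz5 : z ^ 5 = 1) (b : ℕ) :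
    ∃ h : W.Nonsingular (xQ v (-(z ^ b * u))) (yQ v (-(z ^ b * u))),
      (5 : ℕ) • Point.some _ _ h = 0 := by
  have hzb : (z ^ b) ^ 5 = 1 := by rw [← pow_mul, mul_comm, pow_mul, hz5, one_pow]
  have hH : kH v (-(z ^ b * u)) = kH u v :=
    (Forms86.kH_swap (z ^ b * u) v).trans (Forms86.kH_zeta hzb u v)
  have hT : kT v (-(z ^ b * u)) = kT u v :=
    (Forms86.kT_swap (z ^ b * u) v).trans (Forms86.kT_zeta hzb u v)
  exact ⟨nonsingular_Q h2 h3 ha₁ ha₂ ha₃ ha₄ ha₆ hf hH hT,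
    five_nsmul_Q h2 h3 ha₁ ha₂ ha₃ ha₄ ha₆ hf hH hT _⟩

/-- **Full 5-torsion**: `Nat.card W[5] = 25` for a curve with the coefficients of the universal
Klein curve over a field containing a primitive fifth root of unity (`2, 3, 5` invertible). -/
theorem card_torsionBy_five (h2 : (2 : K) ≠ 0) (h3 : (3 : K) ≠ 0) (h5 : (5 : K) ≠ 0)
    (ha₁ : W.a₁ = 0) (ha₂ : W.a₂ = 0) (ha₃ : W.a₃ = 0) (ha₄ : W.a₄ = 27 * kH u v)
    (ha₆ : W.a₆ = 54 * kT u v) (hf : kf u v ≠ 0) {z : K}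
    (hz : z ^ 4 + z ^ 3 + z ^ 2 + z + 1 = 0) :
    Nat.card (Submodule.torsionBy ℤ W.Point ((5 : ℕ) : ℤ)) = 25 := by
  obtain rfl : W = Tors86.kE u v := by
    rw [eq_short ha₁ ha₂ ha₃, ha₄, ha₆]; rfl
  exact Tors86.card_torsionBy_five h2 h3 h5 hz hf

/-- the same with the literal `5 : ℤ`. -/
theorem card_torsionBy_five' (h2 : (2 : K) ≠ 0) (h3 : (3 : K) ≠ 0) (h5 : (5 : K) ≠ 0)
    (ha₁ : W.a₁ = 0) (ha₂ : W.a₂ = 0) (ha₃ : W.a₃ = 0) (ha₄ : W.a₄ = 27 * kH u v)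
    (ha₆ : W.a₆ = 54 * kT u v) (hf : kf u v ≠ 0) {z : K}
    (hz : z ^ 4 + z ^ 3 + z ^ 2 + z + 1 = 0) :
    Nat.card (Submodule.torsionBy ℤ W.Point (5 : ℤ)) = 25 := by
  have h := card_torsionBy_five h2 h3 h5 ha₁ ha₂ ha₃ ha₄ ha₆ hf hz
  rwa [Nat.cast_ofNat] at h

end field

end Fermat.Agent.S52.Klein.TorsBridge86
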