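import Mathlib
import Fermat.Agent.S52.Klein.TorsBridge86
import Fermat.Agent.S52.Model.ModelClose74

/-!
# S52, brick K2 (bridge, `shortCurve` form)

The statements of `TorsBridge86` for `W = ((shortCurve c4 c6).map φ).toAffine`
(`φ : R →+* K` a ring hom into a field, e.g. `algebraMap ℚ Qbar`, for which
`(shortCurve c4 c6)⁄Qbar = (shortCurve c4 c6).map (algebraMap ℚ Qbar)` by `rfl`), under the
binding normalisation `kH u v = -φ c4`, `kT u v = -φ c6` of the S52 plan.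
-/

set_option autoImplicit false

open WeierstrassCurve WeierstrassCurve.Affine

namespace Fermat.Agent.S52.Klein.TorsShort86

open Fermat.Agent.S52.Klein Fermat.Agent.S52.Model.ModelClose74

variable {R K : Type*} [CommRing R] [Field K] (φ : R →+* K) {c4 c6 : R} {u v : K}

theorem map_a₁ : ((shortCurve c4 c6).map φ).toAffine.a₁ = 0 := by simp

theorem map_a₂ : ((shortCurve c4 c6).map φ).toAffine.a₂ = 0 := by simp

theorem map_a₃ : ((shortCurve c4 c6).map φ).toAffine.a₃ = 0 := by simp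

theorem map_a₄ (hH : kH u v = -φ c4) : ((shortCurve c4 c6).map φ).toAffine.a₄ = 27 * kH u v := by
  rw [hH]
  simp only [WeierstrassCurve.map_a₄, shortCurve_a₄, map_mul, map_neg, map_ofNat]
  ring

theorem map_a₆ (hT : kT u v = -φ c6) : ((shortCurve c4 c6).map φ).toAffine.a₆ = 54 * kT u v := by
  rw [hT]
  simp only [WeierstrassCurve.map_a₆, shortCurve_a₆, map_mul, map_neg, map_ofNat]
  ring

/-- `(xQ u' v', yQ u' v')` is a nonsingular point of the (base-changed) short curve whenever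
`(kH, kT)(u', v') = (kH, kT)(u, v) = (-c4, -c6)`. -/
theorem nonsingular_Q (h2 : (2 : K) ≠ 0) (h3 : (3 : K) ≠ 0) (hH : kH u v = -φ c4)
    (hT : kT u v = -φ c6) (hf : kf u v ≠ 0) {u' v' : K} (hH' : kH u' v' = kH u v)
    (hT' : kT u' v' = kT u v) :
    ((shortCurve c4 c6).map φ).toAffine.Nonsingular (xQ u' v') (yQ u' v') :=
  TorsBridge86.nonsingular_Q h2 h3 (map_a₁ φ) (map_a₂ φ) (map_a₃ φ) (map_a₄ φ hH) (map_a₆ φ hT)
    hf hH' hT'

variable [DecidableEq K]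

theorem five_nsmul_Q (h2 : (2 : K) ≠ 0) (h3 : (3 : K) ≠ 0) (hH : kH u v = -φ c4)
    (hT : kT u v = -φ c6) (hf : kf u v ≠ 0) {u' v' : K} (hH' : kH u' v' = kH u v)
    (hT' : kT u' v' = kT u v)
    (h : ((shortCurve c4 c6).map φ).toAffine.Nonsingular (xQ u' v') (yQ u' v')) :
    (5 : ℕ) • Point.some (xQ u' v') (yQ u' v') h = 0 :=
  TorsBridge86.five_nsmul_Q h2 h3 (map_a₁ φ) (map_a₂ φ) (map_a₃ φ) (map_a₄ φ hH) (map_a₆ φ hT)
    hf hH' hT' h

/-- the five points `(xQ, yQ)(ζᵇ u, v)`. -/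
theorem exists_Q_zeta (h2 : (2 : K) ≠ 0) (h3 : (3 : K) ≠ 0) (hH : kH u v = -φ c4)
    (hT : kT u v = -φ c6) (hf : kf u v ≠ 0) {z : K} (hz5 : z ^ 5 = 1) (b : ℕ) :
    ∃ h : ((shortCurve c4 c6).map φ).toAffine.Nonsingular (xQ (z ^ b * u) v) (yQ (z ^ b * u) v),
      (5 : ℕ) • Point.some _ _ h = 0 :=
  TorsBridge86.exists_Q_zeta h2 h3 (map_a₁ φ) (map_a₂ φ) (map_a₃ φ) (map_a₄ φ hH) (map_a₆ φ hT)
    hf hz5 b

/-- the five points `(xQ, yQ)(v, -ζᵇ u)`. -/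
theorem exists_Q_swap_zeta (h2 : (2 : K) ≠ 0) (h3 : (3 : K) ≠ 0) (hH : kH u v = -φ c4)
    (hT : kT u v = -φ c6) (hf : kf u v ≠ 0) {z : K} (hz5 : z ^ 5 = 1) (b : ℕ) :
    ∃ h : ((shortCurve c4 c6).map φ).toAffine.Nonsingular (xQ v (-(z ^ b * u)))
        (yQ v (-(z ^ b * u))),
      (5 : ℕ) • Point.some _ _ h = 0 :=
  TorsBridge86.exists_Q_swap_zeta h2 h3 (map_a₁ φ) (map_a₂ φ) (map_a₃ φ) (map_a₄ φ hH)
    (map_a₆ φ hT) hf hz5 b

/-- `Nat.card E[5] = 25` for the (base-changed) short curve over any field with `ζ₅`. -/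
theorem card_torsionBy_five (h2 : (2 : K) ≠ 0) (h3 : (3 : K) ≠ 0) (h5 : (5 : K) ≠ 0)
    (hH : kH u v = -φ c4) (hT : kT u v = -φ c6) (hf : kf u v ≠ 0) {z : K}
    (hz : z ^ 4 + z ^ 3 + z ^ 2 + z + 1 = 0) :
    Nat.card (Submodule.torsionBy ℤ ((shortCurve c4 c6).map φ).toAffine.Point ((5 : ℕ) : ℤ))
      = 25 :=
  TorsBridge86.card_torsionBy_five h2 h3 h5 (map_a₁ φ) (map_a₂ φ) (map_a₃ φ) (map_a₄ φ hH)
    (map_a₆ φ hT) hf hz

end Fermat.Agent.S52.Klein.TorsShort86
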