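import Fermat.Agent.S52.Klein.Defs51

/-!
# S52, brick B3 = K1 (helper32): the twisted (Rubin--Silverberg) family, definitions

For `p = (u, v)` put `q(p) = (kfv p, - kfu p)` (a covariant of degree 11 of Klein's form `kf`).
The coefficients of the binary forms `(s, t) ↦ G (s • p + t • q(p))`, `G ∈ {kH, kT, kf}`, are
icosahedral invariants of `p`, hence polynomials in `F = kf p ^ 5`, `H = kH p`, `T = kT p`
(only `kf ^ 5` occurs, by a degree count), and the coefficients turn out to be INTEGERS.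
This file defines these explicit polynomials: `hC k`, `tC k`, `gC k` are the coefficients and
`hTw`, `tTw`, `gTw` the binary forms.  The identities are proved in `TwistH32`, `TwistT32`,
`TwistF32` (dehomogenised) and `Twist32` (general).
-/

namespace Fermat.Agent.S52.Klein.Twist32

variable {R : Type*} [CommRing R]

/-! ### Coefficients -/

/-- coefficient of `s ^ 20 * t ^ 0` in `hTw`. -/
def hC0 (_F H _T : R) : R := H

/-- coefficient of `s ^ 19 * t ^ 1` in `hTw`. -/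
def hC1 (_F _H T : R) : R := (-20) * T

/-- coefficient of `s ^ 18 * t ^ 2` in `hTw`. -/
def hC2 (_F H _T : R) : R := (-190) * H ^ 2

/-- coefficient of `s ^ 17 * t ^ 3` in `hTw`. -/
def hC3 (_F H T : R) : R := (1140) * H * T

/-- coefficient of `s ^ 16 * t ^ 4` in `hTw`. -/
def hC4 (F H _T : R) : R := (4845) * H ^ 3 + (-9849600) * F

/-- coefficient of `s ^ 15 * t ^ 5` in `hTw`. -/
def hC5 (_F H T : R) : R := (-15504) * H ^ 2 * T

/-- coefficient of `s ^ 14 * t ^ 6` in `hTw`. -/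
def hC6 (F H _T : R) : R := (-38760) * H ^ 4 + (-110315520) * F * H

/-- coefficient of `s ^ 13 * t ^ 7` in `hTw`. -/
def hC7 (F H T : R) : R := (77520) * H ^ 3 * T + (315187200) * F * T

/-- coefficient of `s ^ 12 * t ^ 8` in `hTw`. -/
def hC8 (F H _T : R) : R := (125970) * H ^ 5 + (-1946280960) * F * H ^ 2

/-- coefficient of `s ^ 11 * t ^ 9` in `hTw`. -/
def hC9 (F H T : R) : R := (-167960) * H ^ 4 * T + (13658112000) * F * H * T

/-- coefficient of `s ^ 10 * t ^ 10` in `hTw`. -/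
def hC10 (F H _T : R) : R := (-184756) * H ^ 6 + (44921530368) * F * H ^ 3 + (-47202435072000) * F ^ 2

/-- coefficient of `s ^ 9 * t ^ 11` in `hTw`. -/
def hC11 (F H T : R) : R := (167960) * H ^ 5 * T + (-94787297280) * F * H ^ 2 * T

/-- coefficient of `s ^ 8 * t ^ 12` in `hTw`. -/
def hC12 (F H _T : R) : R := (125970) * H ^ 7 + (-143563829760) * F * H ^ 4 + (113285844172800) * F ^ 2 * H

/-- coefficient of `s ^ 7 * t ^ 13` in `hTw`. -/
def hC13 (F H T : R) : R := (-77520) * H ^ 6 * T + (161627996160) * F * H ^ 3 * T + (-174285914112000) * F ^ 2 * T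

/-- coefficient of `s ^ 6 * t ^ 14` in `hTw`. -/
def hC14 (F H _T : R) : R := (-38760) * H ^ 8 + (137784084480) * F * H ^ 5 + (-858358127001600) * F ^ 2 * H ^ 2

/-- coefficient of `s ^ 5 * t ^ 15` in `hTw`. -/
def hC15 (F H T : R) : R := (15504) * H ^ 7 * T + (-88870182912) * F * H ^ 4 * T + (1394287312896000) * F ^ 2 * H * T

/-- coefficient of `s ^ 4 * t ^ 16` in `hTw`. -/
def hC16 (F H _T : R) : R := (4845) * H ^ 9 + (-42857579520) * F * H ^ 6 + (1584258959278080) * F ^ 2 * H ^ 3 + (-3011660595855360000) * F ^ 3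

/-- coefficient of `s ^ 3 * t ^ 17` in `hTw`. -/
def hC17 (F H T : R) : R := (-1140) * H ^ 8 * T + (15002910720) * F * H ^ 5 * T + (-1080572667494400) * F ^ 2 * H ^ 2 * T

/-- coefficient of `s ^ 2 * t ^ 18` in `hTw`. -/
def hC18 (F H _T : R) : R := (-190) * H ^ 10 + (3608893440) * F * H ^ 7 + (-473621971599360) * F ^ 2 * H ^ 4 + (-3212437968912384000) * F ^ 3 * H

/-- coefficient of `s ^ 1 * t ^ 19` in `hTw`. -/
def hC19 (F H T : R) : R := (20) * H ^ 9 * T + (-534159360) * F * H ^ 6 * T + (117413668454400) * F ^ 2 * H ^ 3 * T + (3381513651486720000) * F ^ 3 * T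

/-- coefficient of `s ^ 0 * t ^ 20` in `hTw`. -/
def hC20 (F H _T : R) : R := H ^ 11 + (-36723456) * F * H ^ 8 + (12915503529984) * F ^ 2 * H ^ 5 + (929916254158848000) * F ^ 3 * H ^ 2

/-- coefficient of `s ^ 30 * t ^ 0` in `tTw`. -/
def tC0 (_F _H T : R) : R := T

/-- coefficient of `s ^ 29 * t ^ 1` in `tTw`. -/
def tC1 (_F H _T : R) : R := (30) * H ^ 2

/-- coefficient of `s ^ 28 * t ^ 2` in `tTw`. -/
def tC2 (_F H T : R) : R := (-435) * H * T

/-- coefficient of `s ^ 27 * t ^ 3` in `tTw`. -/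
def tC3 (F H _T : R) : R := (-4060) * H ^ 3 + (5011200) * F

/-- coefficient of `s ^ 26 * t ^ 4` in `tTw`. -/
def tC4 (_F H T : R) : R := (27405) * H ^ 2 * T

/-- coefficient of `s ^ 25 * t ^ 5` in `tTw`. -/
def tC5 (F H _T : R) : R := (142506) * H ^ 4 + (-81181440) * F * H

/-- coefficient of `s ^ 24 * t ^ 6` in `tTw`. -/
def tC6 (F H T : R) : R := (-593775) * H ^ 3 * T + (270604800) * F * T

/-- coefficient of `s ^ 23 * t ^ 7` in `tTw`. -/
def tC7 (F H _T : R) : R := (-2035800) * H ^ 5 + (6765120000) * F * H ^ 2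

/-- coefficient of `s ^ 22 * t ^ 8` in `tTw`. -/
def tC8 (F H T : R) : R := (5852925) * H ^ 4 * T + (-24895641600) * F * H * T

/-- coefficient of `s ^ 21 * t ^ 9` in `tTw`. -/
def tC9 (F H _T : R) : R := (14307150) * H ^ 6 + (-38035008000) * F * H ^ 3 + (95599263744000) * F ^ 2

/-- coefficient of `s ^ 20 * t ^ 10` in `tTw`. -/
def tC10 (F H T : R) : R := (-30045015) * H ^ 5 * T + (-374264478720) * F * H ^ 2 * T

/-- coefficient of `s ^ 19 * t ^ 11` in `tTw`. -/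
def tC11 (F H _T : R) : R := (-54627300) * H ^ 7 + (-2708438342400) * F * H ^ 4 + (4359326426726400) * F ^ 2 * H

/-- coefficient of `s ^ 18 * t ^ 12` in `tTw`. -/
def tC12 (F H T : R) : R := (86493225) * H ^ 6 * T + (11194740172800) * F * H ^ 3 * T + (-7265544044544000) * F ^ 2 * T

/-- coefficient of `s ^ 17 * t ^ 13` in `tTw`. -/
def tC13 (F H _T : R) : R := (119759850) * H ^ 8 + (32579058988800) * F * H ^ 5 + (-35964443020492800) * F ^ 2 * H ^ 2

/-- coefficient of `s ^ 16 * t ^ 14` in `tTw`. -/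
def tC14 (F H T : R) : R := (-145422675) * H ^ 7 * T + (-74381953190400) * F * H ^ 4 * T

/-- coefficient of `s ^ 15 * t ^ 15` in `tTw`. -/
def tC15 (F H _T : R) : R := (-155117520) * H ^ 9 + (-136970011100160) * F * H ^ 6 + (237147357613916160) * F ^ 2 * H ^ 3

/-- coefficient of `s ^ 14 * t ^ 16` in `tTw`. -/
def tC16 (F H T : R) : R := (145422675) * H ^ 8 * T + (209073598156800) * F * H ^ 5 * T + (-889302591052185600) * F ^ 2 * H ^ 2 * T

/-- coefficient of `s ^ 13 * t ^ 17` in `tTw`. -/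
def tC17 (F H _T : R) : R := (119759850) * H ^ 10 + (267018203980800) * F * H ^ 7 + (-3485281478167756800) * F ^ 2 * H ^ 4 + (3615799711383945216000) * F ^ 3 * H

/-- coefficient of `s ^ 12 * t ^ 18` in `tTw`. -/
def tC18 (F H T : R) : R := (-86493225) * H ^ 9 * T + (-288067468953600) * F * H ^ 6 * T + (7881662179521331200) * F ^ 2 * H ^ 3 * T + (-4017555234871050240000) * F ^ 3 * T

/-- coefficient of `s ^ 11 * t ^ 19` in `tTw`. -/
def tC19 (F H _T : R) : R := (-54627300) * H ^ 11 + (-263137595846400) * F * H ^ 8 + (14246737639007846400) * F ^ 2 * H ^ 5 + (-22138843846894682112000) * F ^ 3 * H ^ 2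

/-- coefficient of `s ^ 10 * t ^ 20` in `tTw`. -/
def tC20 (F H T : R) : R := (30045015) * H ^ 10 * T + (203855471677440) * F * H ^ 7 * T + (-19214717810198446080) * F ^ 2 * H ^ 4 * T + (17761823143640432640000) * F ^ 3 * H * T

/-- coefficient of `s ^ 9 * t ^ 21` in `tTw`. -/
def tC21 (F H _T : R) : R := (14307150) * H ^ 12 + (133590358598400) * F * H ^ 9 + (-20908591452861235200) * F ^ 2 * H ^ 6 + (41215887704266584883200) * F ^ 3 * H ^ 3 + (-29230886087819683430400000) * F ^ 4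

/-- coefficient of `s ^ 8 * t ^ 22` in `tTw`. -/
def tC22 (F H T : R) : R := (-5852925) * H ^ 11 * T + (-73734666508800) * F * H ^ 8 * T + (17973273419159961600) * F ^ 2 * H ^ 5 * T + (-23597850747979431936000) * F ^ 3 * H ^ 2 * T

/-- coefficient of `s ^ 7 * t ^ 23` in `tTw`. -/
def tC23 (F H _T : R) : R := (-2035800) * H ^ 13 + (-33996351628800) * F * H ^ 10 + (12476571793647206400) * F ^ 2 * H ^ 7 + (-29446013759435204198400) * F ^ 3 * H ^ 4 + (-54903229521470014095360000) * F ^ 4 * H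

/-- coefficient of `s ^ 6 * t ^ 24` in `tTw`. -/
def tC24 (F H T : R) : R := (593775) * H ^ 12 * T + (12942486374400) * F * H ^ 9 * T + (-6877999592688844800) * F ^ 2 * H ^ 6 * T + (11627926455526096896000) * F ^ 3 * H ^ 3 * T + (45752691267891678412800000) * F ^ 4 * T

/-- coefficient of `s ^ 5 * t ^ 25` in `tTw`. -/
def tC25 (F H _T : R) : R := (142506) * H ^ 14 + (3998272513536) * F * H ^ 11 + (-3001181670175408128) * F ^ 2 * H ^ 8 + (8215692682431874203648) * F ^ 3 * H ^ 5 + (-162422054001015458365440000) * F ^ 4 * H ^ 2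

/-- coefficient of `s ^ 4 * t ^ 26` in `tTw`. -/
def tC26 (F H T : R) : R := (-27405) * H ^ 13 * T + (-977532779520) * F * H ^ 10 * T + (1009272850407751680) * F ^ 2 * H ^ 7 * T + (-2081773929940962508800) * F ^ 3 * H ^ 4 * T + (366021530143133427302400000) * F ^ 4 * H * T

/-- coefficient of `s ^ 3 * t ^ 27` in `tTw`. -/
def tC27 (F H _T : R) : R := (-4060) * H ^ 15 + (-182045871360) * F * H ^ 12 + (253675112528609280) * F ^ 2 * H ^ 9 + (-788715656681336340480) * F ^ 3 * H ^ 6 + (357616591302809622675456000) * F ^ 4 * H ^ 3 + (-468507558583210786947072000000) * F ^ 5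

/-- coefficient of `s ^ 2 * t ^ 28` in `tTw`. -/
def tC28 (F H T : R) : R := (435) * H ^ 14 * T + (24270243840) * F * H ^ 11 * T + (-44768387043164160) * F ^ 2 * H ^ 8 * T + (108850924441357516800) * F ^ 3 * H ^ 5 * T + (-191144576852525234257920000) * F ^ 4 * H ^ 2 * T

/-- coefficient of `s ^ 1 * t ^ 29` in `tTw`. -/
def tC29 (F H _T : R) : R := (30) * H ^ 16 + (2063335680) * F * H ^ 13 + (-4963496574320640) * F ^ 2 * H ^ 10 + (17260936434013962240) * F ^ 3 * H ^ 7 + (-55089045049224669954048000) * F ^ 4 * H ^ 4 + (-77546078662048681977446400000) * F ^ 5 * H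

/-- coefficient of `s ^ 0 * t ^ 30` in `tTw`. -/
def tC30 (F H T : R) : R := (-1) * H ^ 15 * T + (-84063744) * F * H ^ 12 * T + (259826663817216) * F ^ 2 * H ^ 9 * T + (-727025435069644800) * F ^ 3 * H ^ 6 * T + (6731430439413948088320000) * F ^ 4 * H ^ 3 * T + (51697385774699121318297600000) * F ^ 5 * T

/-- coefficient of `s ^ 12 * t ^ 0` in `gTw`. -/
def gC0 (_F _H _T : R) : R := (1)

/-- coefficient of `s ^ 10 * t ^ 2` in `gTw`. -/
def gC2 (_F H _T : R) : R := (66) * H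

/-- coefficient of `s ^ 9 * t ^ 3` in `gTw`. -/
def gC3 (_F _H T : R) : R := (-440) * T

/-- coefficient of `s ^ 8 * t ^ 4` in `gTw`. -/
def gC4 (_F H _T : R) : R := (-1485) * H ^ 2

/-- coefficient of `s ^ 7 * t ^ 5` in `gTw`. -/
def gC5 (_F H T : R) : R := (3168) * H * T

/-- coefficient of `s ^ 6 * t ^ 6` in `gTw`. -/
def gC6 (F H _T : R) : R := (4620) * H ^ 3 + (-18247680) * F

/-- coefficient of `s ^ 5 * t ^ 7` in `gTw`. -/
def gC7 (_F H T : R) : R := (-4752) * H ^ 2 * T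

/-- coefficient of `s ^ 4 * t ^ 8` in `gTw`. -/
def gC8 (F H _T : R) : R := (-3465) * H ^ 4 + (-109486080) * F * H

/-- coefficient of `s ^ 3 * t ^ 9` in `gTw`. -/
def gC9 (F H T : R) : R := (1760) * H ^ 3 * T + (243302400) * F * T

/-- coefficient of `s ^ 2 * t ^ 10` in `gTw`. -/
def gC10 (F H _T : R) : R := (594) * H ^ 5 + (229920768) * F * H ^ 2

/-- coefficient of `s ^ 1 * t ^ 11` in `gTw`. -/
def gC11 (F H T : R) : R := (-120) * H ^ 4 * T + (-106168320) * F * H * T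

/-- coefficient of `s ^ 0 * t ^ 12` in `gTw`. -/
def gC12 (F H _T : R) : R := (-11) * H ^ 6 + (-19464192) * F * H ^ 3 + (305764761600) * F ^ 2

/-! ### The binary forms -/

/-- The binary form `(s, t) ↦ kH (s • p + t • q(p))` in terms of the invariants
`F = kf p ^ 5`, `H = kH p`, `T = kT p`. -/
def hTw (F H T s t : R) : R :=
    hC0 F H T * s ^ 20 +
    hC1 F H T * s ^ 19 * t +
    hC2 F H T * s ^ 18 * t ^ 2 +
    hC3 F H T * s ^ 17 * t ^ 3 +
    hC4 F H T * s ^ 16 * t ^ 4 +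
    hC5 F H T * s ^ 15 * t ^ 5 +
    hC6 F H T * s ^ 14 * t ^ 6 +
    hC7 F H T * s ^ 13 * t ^ 7 +
    hC8 F H T * s ^ 12 * t ^ 8 +
    hC9 F H T * s ^ 11 * t ^ 9 +
    hC10 F H T * s ^ 10 * t ^ 10 +
    hC11 F H T * s ^ 9 * t ^ 11 +
    hC12 F H T * s ^ 8 * t ^ 12 +
    hC13 F H T * s ^ 7 * t ^ 13 +
    hC14 F H T * s ^ 6 * t ^ 14 +
    hC15 F H T * s ^ 5 * t ^ 15 +
    hC16 F H T * s ^ 4 * t ^ 16 +
    hC17 F H T * s ^ 3 * t ^ 17 +
    hC18 F H T * s ^ 2 * t ^ 18 +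
    hC19 F H T * s * t ^ 19 +
    hC20 F H T * t ^ 20

/-- The binary form `(s, t) ↦ kT (s • p + t • q(p))` in terms of the invariants
`F = kf p ^ 5`, `H = kH p`, `T = kT p`. -/
def tTw (F H T s t : R) : R :=
    tC0 F H T * s ^ 30 +
    tC1 F H T * s ^ 29 * t +
    tC2 F H T * s ^ 28 * t ^ 2 +
    tC3 F H T * s ^ 27 * t ^ 3 +
    tC4 F H T * s ^ 26 * t ^ 4 +
    tC5 F H T * s ^ 25 * t ^ 5 +
    tC6 F H T * s ^ 24 * t ^ 6 +
    tC7 F H T * s ^ 23 * t ^ 7 +
    tC8 F H T * s ^ 22 * t ^ 8 +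
    tC9 F H T * s ^ 21 * t ^ 9 +
    tC10 F H T * s ^ 20 * t ^ 10 +
    tC11 F H T * s ^ 19 * t ^ 11 +
    tC12 F H T * s ^ 18 * t ^ 12 +
    tC13 F H T * s ^ 17 * t ^ 13 +
    tC14 F H T * s ^ 16 * t ^ 14 +
    tC15 F H T * s ^ 15 * t ^ 15 +
    tC16 F H T * s ^ 14 * t ^ 16 +
    tC17 F H T * s ^ 13 * t ^ 17 +
    tC18 F H T * s ^ 12 * t ^ 18 +
    tC19 F H T * s ^ 11 * t ^ 19 +
    tC20 F H T * s ^ 10 * t ^ 20 +
    tC21 F H T * s ^ 9 * t ^ 21 +
    tC22 F H T * s ^ 8 * t ^ 22 +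
    tC23 F H T * s ^ 7 * t ^ 23 +
    tC24 F H T * s ^ 6 * t ^ 24 +
    tC25 F H T * s ^ 5 * t ^ 25 +
    tC26 F H T * s ^ 4 * t ^ 26 +
    tC27 F H T * s ^ 3 * t ^ 27 +
    tC28 F H T * s ^ 2 * t ^ 28 +
    tC29 F H T * s * t ^ 29 +
    tC30 F H T * t ^ 30

/-- The binary form `(s, t) ↦ kf (s • p + t • q(p)) / kf p` in terms of the invariants
`F = kf p ^ 5`, `H = kH p`, `T = kT p`. -/
def gTw (F H T s t : R) : R :=
    gC0 F H T * s ^ 12 +
    gC2 F H T * s ^ 10 * t ^ 2 +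
    gC3 F H T * s ^ 9 * t ^ 3 +
    gC4 F H T * s ^ 8 * t ^ 4 +
    gC5 F H T * s ^ 7 * t ^ 5 +
    gC6 F H T * s ^ 6 * t ^ 6 +
    gC7 F H T * s ^ 5 * t ^ 7 +
    gC8 F H T * s ^ 4 * t ^ 8 +
    gC9 F H T * s ^ 3 * t ^ 9 +
    gC10 F H T * s ^ 2 * t ^ 10 +
    gC11 F H T * s * t ^ 11 +
    gC12 F H T * t ^ 12

/-- `(hTw F H T 1 t - H) / t`. -/
def hTwQuot (F H T t : R) : R :=
    hC1 F H T +
    hC2 F H T * t +
    hC3 F H T * t ^ 2 +
    hC4 F H T * t ^ 3 +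
    hC5 F H T * t ^ 4 +
    hC6 F H T * t ^ 5 +
    hC7 F H T * t ^ 6 +
    hC8 F H T * t ^ 7 +
    hC9 F H T * t ^ 8 +
    hC10 F H T * t ^ 9 +
    hC11 F H T * t ^ 10 +
    hC12 F H T * t ^ 11 +
    hC13 F H T * t ^ 12 +
    hC14 F H T * t ^ 13 +
    hC15 F H T * t ^ 14 +
    hC16 F H T * t ^ 15 +
    hC17 F H T * t ^ 16 +
    hC18 F H T * t ^ 17 +
    hC19 F H T * t ^ 18 +
    hC20 F H T * t ^ 19

/-- `(tTw F H T 1 t - T) / t`. -/
def tTwQuot (F H T t : R) : R :=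
    tC1 F H T +
    tC2 F H T * t +
    tC3 F H T * t ^ 2 +
    tC4 F H T * t ^ 3 +
    tC5 F H T * t ^ 4 +
    tC6 F H T * t ^ 5 +
    tC7 F H T * t ^ 6 +
    tC8 F H T * t ^ 7 +
    tC9 F H T * t ^ 8 +
    tC10 F H T * t ^ 9 +
    tC11 F H T * t ^ 10 +
    tC12 F H T * t ^ 11 +
    tC13 F H T * t ^ 12 +
    tC14 F H T * t ^ 13 +
    tC15 F H T * t ^ 14 +
    tC16 F H T * t ^ 15 +
    tC17 F H T * t ^ 16 +
    tC18 F H T * t ^ 17 +
    tC19 F H T * t ^ 18 +
    tC20 F H T * t ^ 19 +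
    tC21 F H T * t ^ 20 +
    tC22 F H T * t ^ 21 +
    tC23 F H T * t ^ 22 +
    tC24 F H T * t ^ 23 +
    tC25 F H T * t ^ 24 +
    tC26 F H T * t ^ 25 +
    tC27 F H T * t ^ 26 +
    tC28 F H T * t ^ 27 +
    tC29 F H T * t ^ 28 +
    tC30 F H T * t ^ 29

/-- `(gTw F H T 1 t - 1) / t ^ 2`. -/
def gTwQuot (F H T t : R) : R :=
    gC2 F H T +
    gC3 F H T * t +
    gC4 F H T * t ^ 2 +
    gC5 F H T * t ^ 3 +
    gC6 F H T * t ^ 4 +
    gC7 F H T * t ^ 5 +
    gC8 F H T * t ^ 6 +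
    gC9 F H T * t ^ 7 +
    gC10 F H T * t ^ 8 +
    gC11 F H T * t ^ 9 +
    gC12 F H T * t ^ 10

theorem hTw_one_eq (F H T t : R) : hTw F H T 1 t = H + t * hTwQuot F H T t := by
  simp only [hTw, hTwQuot, hC0]; ring

theorem tTw_one_eq (F H T t : R) : tTw F H T 1 t = T + t * tTwQuot F H T t := by
  simp only [tTw, tTwQuot, tC0]; ring

theorem gTw_one_eq (F H T t : R) : gTw F H T 1 t = 1 + t ^ 2 * gTwQuot F H T t := by
  simp only [gTw, gTwQuot, gC0]; ring

theorem hTw_one_zero (F H T : R) : hTw F H T 1 0 = H := by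
  rw [hTw_one_eq]; ring

theorem tTw_one_zero (F H T : R) : tTw F H T 1 0 = T := by
  rw [tTw_one_eq]; ring

theorem gTw_one_zero (F H T : R) : gTw F H T 1 0 = 1 := by
  rw [gTw_one_eq]; ring

/-- `t ∣ hTw F H T 1 t - H`: the `c4` of the member at `t` is `t`-adically close to that of the
base curve. -/
theorem dvd_hTw_sub (F H T t : R) : t ∣ hTw F H T 1 t - H :=
  ⟨hTwQuot F H T t, by rw [hTw_one_eq]; ring⟩

/-- `t ∣ tTw F H T 1 t - T`. -/
theorem dvd_tTw_sub (F H T t : R) : t ∣ tTw F H T 1 t - T :=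
  ⟨tTwQuot F H T t, by rw [tTw_one_eq]; ring⟩

/-- `t ^ 2 ∣ gTw F H T 1 t - 1`. -/
theorem sq_dvd_gTw_sub (F H T t : R) : t ^ 2 ∣ gTw F H T 1 t - 1 :=
  ⟨gTwQuot F H T t, by rw [gTw_one_eq]; ring⟩

section Map

variable {S : Type*} [CommRing S] (φ : R →+* S)

theorem map_hTw (F H T s t : R) : φ (hTw F H T s t) = hTw (φ F) (φ H) (φ T) (φ s) (φ t) := by
  simp only [hTw, hC0, hC1, hC2, hC3, hC4, hC5, hC6, hC7, hC8, hC9, hC10, hC11, hC12, hC13, hC14, hC15, hC16, hC17, hC18, hC19, hC20,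
    map_add, map_mul, map_pow, map_neg, map_ofNat]

theorem map_tTw (F H T s t : R) : φ (tTw F H T s t) = tTw (φ F) (φ H) (φ T) (φ s) (φ t) := by
  simp only [tTw, tC0, tC1, tC2, tC3, tC4, tC5, tC6, tC7, tC8, tC9, tC10, tC11, tC12, tC13, tC14, tC15, tC16, tC17, tC18, tC19, tC20, tC21, tC22, tC23, tC24, tC25, tC26, tC27, tC28, tC29, tC30,
    map_add, map_mul, map_pow, map_neg, map_ofNat, map_one]

theorem map_gTw (F H T s t : R) : φ (gTw F H T s t) = gTw (φ F) (φ H) (φ T) (φ s) (φ t) := by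
  simp only [gTw, gC0, gC2, gC3, gC4, gC5, gC6, gC7, gC8, gC9, gC10, gC11, gC12,
    map_add, map_mul, map_pow, map_neg, map_ofNat, map_one]

theorem map_kf (u v : R) : φ (kf u v) = kf (φ u) (φ v) := by
  simp only [kf, map_add, map_sub, map_mul, map_pow, map_ofNat]

theorem map_kH (u v : R) : φ (kH u v) = kH (φ u) (φ v) := by
  simp only [kH, map_add, map_sub, map_mul, map_pow, map_neg, map_ofNat]

theorem map_kT (u v : R) : φ (kT u v) = kT (φ u) (φ v) := by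
  simp only [kT, map_add, map_sub, map_mul, map_pow, map_ofNat]

theorem map_kfu (u v : R) : φ (kfu u v) = kfu (φ u) (φ v) := by
  simp only [kfu, map_add, map_sub, map_mul, map_pow, map_ofNat]

theorem map_kfv (u v : R) : φ (kfv u v) = kfv (φ u) (φ v) := by
  simp only [kfv, map_add, map_sub, map_mul, map_pow, map_ofNat]

end Map

/-! ### Weighted homogeneity -/

/-- weighted homogeneity of `hTw`. -/
theorem hTw_smul (F H T l σ t : R) :
    hTw (l ^ 60 * F) (l ^ 20 * H) (l ^ 30 * T) σ (σ * t) =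
      (σ * l) ^ 20 * hTw F H T 1 (l ^ 10 * t) := by
  simp only [hTw, hC0, hC1, hC2, hC3, hC4, hC5, hC6, hC7, hC8, hC9, hC10, hC11, hC12, hC13, hC14, hC15, hC16, hC17, hC18, hC19, hC20]
  ring

/-- weighted homogeneity of `tTw`. -/
theorem tTw_smul (F H T l σ t : R) :
    tTw (l ^ 60 * F) (l ^ 20 * H) (l ^ 30 * T) σ (σ * t) =
      (σ * l) ^ 30 * tTw F H T 1 (l ^ 10 * t) := by
  simp only [tTw, tC0, tC1, tC2, tC3, tC4, tC5, tC6, tC7, tC8, tC9, tC10, tC11, tC12, tC13, tC14, tC15, tC16, tC17, tC18, tC19, tC20, tC21, tC22, tC23, tC24, tC25, tC26, tC27, tC28, tC29, tC30]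
  ring

/-- weighted homogeneity of `gTw`. -/
theorem gTw_smul (F H T l σ t : R) :
    gTw (l ^ 60 * F) (l ^ 20 * H) (l ^ 30 * T) σ (σ * t) =
      σ ^ 12 * gTw F H T 1 (l ^ 10 * t) := by
  simp only [gTw, gC0, gC2, gC3, gC4, gC5, gC6, gC7, gC8, gC9, gC10, gC11, gC12]
  ring

end Fermat.Agent.S52.Klein.Twist32
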