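import Fermat.Agent.S52.Klein.Grid32
import Fermat.Agent.S52.Klein.TwistDefs32

/-!
# S52, brick B3 (helper32): the twisted family, discriminant part

The identity `kf (p + t • q(p)) = kf p * gTw F H T 1 t` is first proved in dehomogenised form
(`p = (z, 1)`, `Z = z ^ 5`) as an identity of `ℤ[Z][τ]` by evaluation on an integer grid (see
`Grid32`), then transported to an arbitrary commutative ring (`dG_eq_zero`) and finally
rewritten in terms of the Klein forms (`kf_twist_dehom`).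
-/

namespace Fermat.Agent.S52.Klein.Twist32

open Polynomial Fermat.Agent.S52.Klein.Grid32

/-! ### The forms in the variable `Z = z ^ 5` -/

section Generic

variable {R : Type*} [CommRing R]

/-- `z + τ * kfv z 1 = z * alG (z ^ 5) τ`. -/
def alG (Z τ : R) : R := 1 + τ * (Z ^ 2 + 66 * Z - 11)

/-- `1 - τ * kfu z 1 = beG (z ^ 5) τ`. -/
def beG (Z τ : R) : R := 1 - τ * (11 * Z ^ 2 + 66 * Z - 1)

/-- `kf z 1 ^ 5 = f1G (z ^ 5)`. -/
def f1G (Z : R) : R := Z * (Z ^ 2 + 11 * Z - 1) ^ 5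

/-- `kH z 1 = hwG (z ^ 5)`. -/
def hwG (Z : R) : R := -(Z ^ 4 + 1) + 228 * (Z ^ 3 - Z) - 494 * Z ^ 2

/-- `kT z 1 = twG (z ^ 5)`. -/
def twG (Z : R) : R := Z ^ 6 + 1 + 522 * (Z ^ 5 - Z) - 10005 * (Z ^ 4 + Z ^ 2)

/-- the form in terms of `A = a ^ 5`, `B = b ^ 5`. -/
def KG (A B : R) : R := A ^ 2 + 11 * A * B - B ^ 2

/-- the dehomogenised identity (divided by `z`) in the variable `Z = z ^ 5`. -/
def dG (Z τ : R) : R :=
  alG Z τ * beG Z τ * KG (Z * alG Z τ ^ 5) (beG Z τ ^ 5) -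
    (Z ^ 2 + 11 * Z - 1) * gTw (f1G Z) (hwG Z) (twG Z) 1 τ

theorem map_dG {S : Type*} [CommRing S] (φ : R →+* S) (Z τ : R) :
    φ (dG Z τ) = dG (φ Z) (φ τ) := by
  simp only [dG, KG, alG, beG, f1G, hwG, twG, map_gTw, map_sub,
    map_mul, map_add, map_neg, map_one, map_pow, map_ofNat]

end Generic

/-! ### Integer versions (elaborated with the core instances of `ℤ`) -/

/-- `f1G` on `ℤ`. -/
def f1ZG (Z : ℤ) : ℤ := Z * (Z ^ 2 + 11 * Z - 1) ^ 5

/-- `hwG` on `ℤ`. -/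
def hwZG (Z : ℤ) : ℤ := -(Z ^ 4 + 1) + 228 * (Z ^ 3 - Z) - 494 * Z ^ 2

/-- `twG` on `ℤ`. -/
def twZG (Z : ℤ) : ℤ := Z ^ 6 + 1 + 522 * (Z ^ 5 - Z) - 10005 * (Z ^ 4 + Z ^ 2)

/-- `KG` on `ℤ`. -/
def KZG (A B : ℤ) : ℤ := A ^ 2 + 11 * A * B - B ^ 2

theorem f1ZG_eq (Z : ℤ) : f1ZG Z = f1G Z := rfl
theorem hwZG_eq (Z : ℤ) : hwZG Z = hwG Z := rfl
theorem twZG_eq (Z : ℤ) : twZG Z = twG Z := rfl
theorem KZG_eq (A B : ℤ) : KZG A B = KG A B := rfl

/-! ### The coefficients of the right hand side -/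

/-- coefficient of `τ ^ 0`. -/
def cG0 (_F _H _T : ℤ) : ℤ := (1)

/-- coefficient of `τ ^ 1`. -/
def cG1 (_F _H _T : ℤ) : ℤ := 0

/-- coefficient of `τ ^ 2`. -/
def cG2 (_F H _T : ℤ) : ℤ := (66) * H

/-- coefficient of `τ ^ 3`. -/
def cG3 (_F _H T : ℤ) : ℤ := (-440) * T

/-- coefficient of `τ ^ 4`. -/
def cG4 (_F H _T : ℤ) : ℤ := (-1485) * H ^ 2

/-- coefficient of `τ ^ 5`. -/
def cG5 (_F H T : ℤ) : ℤ := (3168) * H * T

/-- coefficient of `τ ^ 6`. -/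
def cG6 (F H _T : ℤ) : ℤ := (4620) * H ^ 3 + (-18247680) * F

/-- coefficient of `τ ^ 7`. -/
def cG7 (_F H T : ℤ) : ℤ := (-4752) * H ^ 2 * T

/-- coefficient of `τ ^ 8`. -/
def cG8 (F H _T : ℤ) : ℤ := (-3465) * H ^ 4 + (-109486080) * F * H

/-- coefficient of `τ ^ 9`. -/
def cG9 (F H T : ℤ) : ℤ := (1760) * H ^ 3 * T + (243302400) * F * T

/-- coefficient of `τ ^ 10`. -/
def cG10 (F H _T : ℤ) : ℤ := (594) * H ^ 5 + (229920768) * F * H ^ 2

/-- coefficient of `τ ^ 11`. -/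
def cG11 (F H T : ℤ) : ℤ := (-120) * H ^ 4 * T + (-106168320) * F * H * T

/-- coefficient of `τ ^ 12`. -/
def cG12 (F H _T : ℤ) : ℤ := (-11) * H ^ 6 + (-19464192) * F * H ^ 3 + (305764761600) * F ^ 2

/-- the list of coefficients. -/
def cGs (F H T : ℤ) : List ℤ :=
  [cG0 F H T, cG1 F H T, cG2 F H T, cG3 F H T, cG4 F H T, cG5 F H T, cG6 F H T, cG7 F H T, cG8 F H T, cG9 F H T, cG10 F H T, cG11 F H T, cG12 F H T]

theorem horner_cGs (F H T τ : ℤ) : horner (cGs F H T) τ = gTw F H T 1 τ := by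
  simp only [cGs, horner, cG0, cG1, cG2, cG3, cG4, cG5, cG6, cG7, cG8, cG9, cG10, cG11, cG12, gTw, gC0, gC2, gC3, gC4, gC5, gC6, gC7, gC8, gC9, gC10, gC11, gC12]
  ring

/-! ### The grid check -/

/-- check of the row `Z`: all `τ < m`. -/
def rowG (Z : ℤ) (m : ℕ) : Bool :=
  forceInt (f1ZG Z) fun F => forceInt (hwZG Z) fun H => forceInt (twZG Z) fun T =>
  forceInt (Z ^ 2 + 66 * Z - 11) fun pa => forceInt (11 * Z ^ 2 + 66 * Z - 1) fun pb =>
  forceInt (Z ^ 2 + 11 * Z - 1) fun g0 =>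
  forceList (cGs F H T) fun cs =>
  checkRow (fun τ => forceInt (1 + τ * pa) fun al => forceInt (1 - τ * pb) fun be =>
    forceInt (Z * al ^ 5) fun A => forceInt (be ^ 5) fun B =>
    al * be * KZG A B - g0 * horner cs τ) m

theorem rowG_sound (Z : ℤ) (m : ℕ) (h : rowG Z m = true) :
    ∀ j < m, dG Z (j : ℤ) = 0 := by
  intro j hj
  simp only [rowG, forceInt_eq, forceList_eq] at h
  have h1 := checkRow_sound h j hj
  simp only [horner_cGs, f1ZG_eq, hwZG_eq, twZG_eq, KZG_eq] at h1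
  exact h1

set_option maxRecDepth 100000 in
theorem gridG_ok : checkAll (fun Z => rowG Z 13) 27 = true := by
  decide +kernel

theorem dG_deg_out : (dG (C X : ℤ[X][X]) X).natDegree < 13 := by
  apply Nat.lt_succ_of_le
  simp only [dG, KG, alG, beG, f1G, hwG, twG, gTw, gC0, gC2, gC3, gC4, gC5, gC6, gC7, gC8, gC9, gC10, gC11, gC12]
  compute_degree

theorem dG_deg_in (j : ℕ) : (dG (X : ℤ[X]) (j : ℤ[X])).natDegree < 27 := by
  apply Nat.lt_succ_of_le
  simp only [dG, KG, alG, beG, f1G, hwG, twG, gTw, gC0, gC2, gC3, gC4, gC5, gC6, gC7, gC8, gC9, gC10, gC11, gC12]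
  compute_degree

theorem dG_poly : dG (C X : ℤ[X][X]) X = 0 := by
  have hev : ∀ j : ℕ, (dG (C X : ℤ[X][X]) X).eval ((j : ℕ) : ℤ[X]) =
      dG (X : ℤ[X]) ((j : ℕ) : ℤ[X]) := by
    intro j
    have h := map_dG (evalRingHom ((j : ℕ) : ℤ[X])) (C X) X
    simpa only [coe_evalRingHom, eval_C, eval_X] using h
  apply eq_zero_of_grid _ 27 13 dG_deg_out
  · intro j
    rw [hev]
    exact dG_deg_in j
  · intro i hi j hj
    rw [hev]
    have h2 := map_dG (evalRingHom ((i : ℕ) : ℤ)) (X : ℤ[X]) ((j : ℕ) : ℤ[X])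
    simp only [coe_evalRingHom, eval_X, eval_natCast] at h2
    rw [h2]
    have h3 := rowG_sound (i : ℤ) 13 (checkAll_sound gridG_ok i hi) j hj
    simpa using h3

/-- The dehomogenised identity (in `Z = z ^ 5`) over an arbitrary commutative ring. -/
theorem dG_eq_zero {R : Type*} [CommRing R] (Z τ : R) : dG Z τ = 0 := by
  have h := map_dG (evalHom Z τ) (C X) X
  rw [dG_poly, map_zero, evalHom_X, evalHom_C_X] at h
  exact h.symm

/-- **Dehomogenised twist identity for `kf`** over an arbitrary commutative ring. -/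
theorem kf_twist_dehom {R : Type*} [CommRing R] (z τ : R) :
    kf (z + τ * kfv z 1) (1 - τ * kfu z 1) =
      kf z 1 * gTw (kf z 1 ^ 5) (kH z 1) (kT z 1) 1 τ := by
  have h := dG_eq_zero (z ^ 5) τ
  unfold dG at h
  have e1 : z + τ * kfv z 1 = z * alG (z ^ 5) τ := by simp only [kfv, alG]; ring
  have e2 : 1 - τ * kfu z 1 = beG (z ^ 5) τ := by simp only [kfu, beG]; ring
  have e3 : ∀ a b : R, kf (z * a) b = z * (a * b * KG (z ^ 5 * a ^ 5) (b ^ 5)) := by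
    intro a b; simp only [kf, KG]; ring
  have e4 : kf z 1 ^ 5 = f1G (z ^ 5) := by simp only [kf, f1G]; ring
  have e5 : kH z 1 = hwG (z ^ 5) := by simp only [kH, hwG]; ring
  have e6 : kT z 1 = twG (z ^ 5) := by simp only [kT, twG]; ring
  have e7 : kf z 1 = z * ((z ^ 5) ^ 2 + 11 * z ^ 5 - 1) := by simp only [kf]; ring
  rw [e1, e2, e3, e4, e5, e6, e7, mul_assoc z]
  congr 1
  exact sub_eq_zero.mp h

end Fermat.Agent.S52.Klein.Twist32
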