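import Fermat.Agent.S52.Klein.Grid32
import Fermat.Agent.S52.Klein.TwistDefs32

/-!
# S52, brick B3 (helper32): the twisted family, `c4` part

The identity `kH (p + t • q(p)) = hTw F H T 1 t` is first proved in dehomogenised form
(`p = (z, 1)`, `Z = z ^ 5`) as an identity of `ℤ[Z][τ]` by evaluation on an integer grid (see
`Grid32`), then transported to an arbitrary commutative ring (`dH_eq_zero`) and finally
rewritten in terms of the Klein forms (`kH_twist_dehom`).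
-/

namespace Fermat.Agent.S52.Klein.Twist32

open Polynomial Fermat.Agent.S52.Klein.Grid32

/-! ### The forms in the variable `Z = z ^ 5` -/

section Generic

variable {R : Type*} [CommRing R]

/-- `z + τ * kfv z 1 = z * alH (z ^ 5) τ`. -/
def alH (Z τ : R) : R := 1 + τ * (Z ^ 2 + 66 * Z - 11)

/-- `1 - τ * kfu z 1 = beH (z ^ 5) τ`. -/
def beH (Z τ : R) : R := 1 - τ * (11 * Z ^ 2 + 66 * Z - 1)

/-- `kf z 1 ^ 5 = f1H (z ^ 5)`. -/
def f1H (Z : R) : R := Z * (Z ^ 2 + 11 * Z - 1) ^ 5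

/-- `kH z 1 = hwH (z ^ 5)`. -/
def hwH (Z : R) : R := -(Z ^ 4 + 1) + 228 * (Z ^ 3 - Z) - 494 * Z ^ 2

/-- `kT z 1 = twH (z ^ 5)`. -/
def twH (Z : R) : R := Z ^ 6 + 1 + 522 * (Z ^ 5 - Z) - 10005 * (Z ^ 4 + Z ^ 2)

/-- the form in terms of `A = a ^ 5`, `B = b ^ 5`. -/
def KH (A B : R) : R := -(A ^ 4 + B ^ 4) + 228 * (A ^ 3 * B - A * B ^ 3) - 494 * A ^ 2 * B ^ 2

/-- the dehomogenised identity in the variable `Z = z ^ 5`. -/
def dH (Z τ : R) : R :=
  KH (Z * alH Z τ ^ 5) (beH Z τ ^ 5) - hTw (f1H Z) (hwH Z) (twH Z) 1 τ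

theorem map_dH {S : Type*} [CommRing S] (φ : R →+* S) (Z τ : R) :
    φ (dH Z τ) = dH (φ Z) (φ τ) := by
  simp only [dH, KH, alH, beH, f1H, hwH, twH, map_hTw, map_sub,
    map_mul, map_add, map_neg, map_one, map_pow, map_ofNat]

end Generic

/-! ### Integer versions (elaborated with the core instances of `ℤ`) -/

/-- `f1H` on `ℤ`. -/
def f1ZH (Z : ℤ) : ℤ := Z * (Z ^ 2 + 11 * Z - 1) ^ 5

/-- `hwH` on `ℤ`. -/
def hwZH (Z : ℤ) : ℤ := -(Z ^ 4 + 1) + 228 * (Z ^ 3 - Z) - 494 * Z ^ 2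

/-- `twH` on `ℤ`. -/
def twZH (Z : ℤ) : ℤ := Z ^ 6 + 1 + 522 * (Z ^ 5 - Z) - 10005 * (Z ^ 4 + Z ^ 2)

/-- `KH` on `ℤ`. -/
def KZH (A B : ℤ) : ℤ := -(A ^ 4 + B ^ 4) + 228 * (A ^ 3 * B - A * B ^ 3) - 494 * A ^ 2 * B ^ 2

theorem f1ZH_eq (Z : ℤ) : f1ZH Z = f1H Z := rfl
theorem hwZH_eq (Z : ℤ) : hwZH Z = hwH Z := rfl
theorem twZH_eq (Z : ℤ) : twZH Z = twH Z := rfl
theorem KZH_eq (A B : ℤ) : KZH A B = KH A B := rfl

/-! ### The coefficients of the right hand side -/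

/-- coefficient of `τ ^ 0`. -/
def cH0 (_F H _T : ℤ) : ℤ := H

/-- coefficient of `τ ^ 1`. -/
def cH1 (_F _H T : ℤ) : ℤ := (-20) * T

/-- coefficient of `τ ^ 2`. -/
def cH2 (_F H _T : ℤ) : ℤ := (-190) * H ^ 2

/-- coefficient of `τ ^ 3`. -/
def cH3 (_F H T : ℤ) : ℤ := (1140) * H * T

/-- coefficient of `τ ^ 4`. -/
def cH4 (F H _T : ℤ) : ℤ := (4845) * H ^ 3 + (-9849600) * F

/-- coefficient of `τ ^ 5`. -/
def cH5 (_F H T : ℤ) : ℤ := (-15504) * H ^ 2 * T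

/-- coefficient of `τ ^ 6`. -/
def cH6 (F H _T : ℤ) : ℤ := (-38760) * H ^ 4 + (-110315520) * F * H

/-- coefficient of `τ ^ 7`. -/
def cH7 (F H T : ℤ) : ℤ := (77520) * H ^ 3 * T + (315187200) * F * T

/-- coefficient of `τ ^ 8`. -/
def cH8 (F H _T : ℤ) : ℤ := (125970) * H ^ 5 + (-1946280960) * F * H ^ 2

/-- coefficient of `τ ^ 9`. -/
def cH9 (F H T : ℤ) : ℤ := (-167960) * H ^ 4 * T + (13658112000) * F * H * T

/-- coefficient of `τ ^ 10`. -/
def cH10 (F H _T : ℤ) : ℤ := (-184756) * H ^ 6 + (44921530368) * F * H ^ 3 + (-47202435072000) * F ^ 2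

/-- coefficient of `τ ^ 11`. -/
def cH11 (F H T : ℤ) : ℤ := (167960) * H ^ 5 * T + (-94787297280) * F * H ^ 2 * T

/-- coefficient of `τ ^ 12`. -/
def cH12 (F H _T : ℤ) : ℤ := (125970) * H ^ 7 + (-143563829760) * F * H ^ 4 + (113285844172800) * F ^ 2 * H

/-- coefficient of `τ ^ 13`. -/
def cH13 (F H T : ℤ) : ℤ := (-77520) * H ^ 6 * T + (161627996160) * F * H ^ 3 * T + (-174285914112000) * F ^ 2 * T

/-- coefficient of `τ ^ 14`. -/
def cH14 (F H _T : ℤ) : ℤ := (-38760) * H ^ 8 + (137784084480) * F * H ^ 5 + (-858358127001600) * F ^ 2 * H ^ 2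

/-- coefficient of `τ ^ 15`. -/
def cH15 (F H T : ℤ) : ℤ := (15504) * H ^ 7 * T + (-88870182912) * F * H ^ 4 * T + (1394287312896000) * F ^ 2 * H * T

/-- coefficient of `τ ^ 16`. -/
def cH16 (F H _T : ℤ) : ℤ := (4845) * H ^ 9 + (-42857579520) * F * H ^ 6 + (1584258959278080) * F ^ 2 * H ^ 3 + (-3011660595855360000) * F ^ 3

/-- coefficient of `τ ^ 17`. -/
def cH17 (F H T : ℤ) : ℤ := (-1140) * H ^ 8 * T + (15002910720) * F * H ^ 5 * T + (-1080572667494400) * F ^ 2 * H ^ 2 * T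

/-- coefficient of `τ ^ 18`. -/
def cH18 (F H _T : ℤ) : ℤ := (-190) * H ^ 10 + (3608893440) * F * H ^ 7 + (-473621971599360) * F ^ 2 * H ^ 4 + (-3212437968912384000) * F ^ 3 * H

/-- coefficient of `τ ^ 19`. -/
def cH19 (F H T : ℤ) : ℤ := (20) * H ^ 9 * T + (-534159360) * F * H ^ 6 * T + (117413668454400) * F ^ 2 * H ^ 3 * T + (3381513651486720000) * F ^ 3 * T

/-- coefficient of `τ ^ 20`. -/
def cH20 (F H _T : ℤ) : ℤ := H ^ 11 + (-36723456) * F * H ^ 8 + (12915503529984) * F ^ 2 * H ^ 5 + (929916254158848000) * F ^ 3 * H ^ 2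

/-- the list of coefficients. -/
def cHs (F H T : ℤ) : List ℤ :=
  [cH0 F H T, cH1 F H T, cH2 F H T, cH3 F H T, cH4 F H T, cH5 F H T, cH6 F H T, cH7 F H T, cH8 F H T, cH9 F H T, cH10 F H T, cH11 F H T, cH12 F H T, cH13 F H T, cH14 F H T, cH15 F H T, cH16 F H T, cH17 F H T, cH18 F H T, cH19 F H T, cH20 F H T]

theorem horner_cHs (F H T τ : ℤ) : horner (cHs F H T) τ = hTw F H T 1 τ := by
  simp only [cHs, horner, cH0, cH1, cH2, cH3, cH4, cH5, cH6, cH7, cH8, cH9, cH10, cH11, cH12, cH13, cH14, cH15, cH16, cH17, cH18, cH19, cH20, hTw, hC0, hC1, hC2, hC3, hC4, hC5, hC6, hC7, hC8, hC9, hC10, hC11, hC12, hC13, hC14, hC15, hC16, hC17, hC18, hC19, hC20]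
  ring

/-! ### The grid check -/

/-- check of the row `Z`: all `τ < m`. -/
def rowH (Z : ℤ) (m : ℕ) : Bool :=
  forceInt (f1ZH Z) fun F => forceInt (hwZH Z) fun H => forceInt (twZH Z) fun T =>
  forceInt (Z ^ 2 + 66 * Z - 11) fun pa => forceInt (11 * Z ^ 2 + 66 * Z - 1) fun pb =>
  forceList (cHs F H T) fun cs =>
  checkRow (fun τ => forceInt (1 + τ * pa) fun al => forceInt (1 - τ * pb) fun be =>
    forceInt (Z * al ^ 5) fun A => forceInt (be ^ 5) fun B =>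
    KZH A B - horner cs τ) m

theorem rowH_sound (Z : ℤ) (m : ℕ) (h : rowH Z m = true) :
    ∀ j < m, dH Z (j : ℤ) = 0 := by
  intro j hj
  simp only [rowH, forceInt_eq, forceList_eq] at h
  have h1 := checkRow_sound h j hj
  simp only [horner_cHs, f1ZH_eq, hwZH_eq, twZH_eq, KZH_eq] at h1
  exact h1

set_option maxRecDepth 100000 in
theorem gridH_ok : checkAll (fun Z => rowH Z 21) 45 = true := by
  decide +kernel

theorem dH_deg_out : (dH (C X : ℤ[X][X]) X).natDegree < 21 := by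
  apply Nat.lt_succ_of_le
  simp only [dH, KH, alH, beH, f1H, hwH, twH, hTw, hC0, hC1, hC2, hC3, hC4, hC5, hC6, hC7, hC8, hC9, hC10, hC11, hC12, hC13, hC14, hC15, hC16, hC17, hC18, hC19, hC20]
  compute_degree

theorem dH_deg_in (j : ℕ) : (dH (X : ℤ[X]) (j : ℤ[X])).natDegree < 45 := by
  apply Nat.lt_succ_of_le
  simp only [dH, KH, alH, beH, f1H, hwH, twH, hTw, hC0, hC1, hC2, hC3, hC4, hC5, hC6, hC7, hC8, hC9, hC10, hC11, hC12, hC13, hC14, hC15, hC16, hC17, hC18, hC19, hC20]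
  compute_degree

theorem dH_poly : dH (C X : ℤ[X][X]) X = 0 := by
  have hev : ∀ j : ℕ, (dH (C X : ℤ[X][X]) X).eval ((j : ℕ) : ℤ[X]) =
      dH (X : ℤ[X]) ((j : ℕ) : ℤ[X]) := by
    intro j
    have h := map_dH (evalRingHom ((j : ℕ) : ℤ[X])) (C X) X
    simpa only [coe_evalRingHom, eval_C, eval_X] using h
  apply eq_zero_of_grid _ 45 21 dH_deg_out
  · intro j
    rw [hev]
    exact dH_deg_in j
  · intro i hi j hj
    rw [hev]
    have h2 := map_dH (evalRingHom ((i : ℕ) : ℤ)) (X : ℤ[X]) ((j : ℕ) : ℤ[X])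
    simp only [coe_evalRingHom, eval_X, eval_natCast] at h2
    rw [h2]
    have h3 := rowH_sound (i : ℤ) 21 (checkAll_sound gridH_ok i hi) j hj
    simpa using h3

/-- The dehomogenised identity (in `Z = z ^ 5`) over an arbitrary commutative ring. -/
theorem dH_eq_zero {R : Type*} [CommRing R] (Z τ : R) : dH Z τ = 0 := by
  have h := map_dH (evalHom Z τ) (C X) X
  rw [dH_poly, map_zero, evalHom_X, evalHom_C_X] at h
  exact h.symm

/-- **Dehomogenised twist identity for `kH`** over an arbitrary commutative ring. -/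
theorem kH_twist_dehom {R : Type*} [CommRing R] (z τ : R) :
    kH (z + τ * kfv z 1) (1 - τ * kfu z 1) = hTw (kf z 1 ^ 5) (kH z 1) (kT z 1) 1 τ := by
  have h := dH_eq_zero (z ^ 5) τ
  unfold dH at h
  have e1 : z + τ * kfv z 1 = z * alH (z ^ 5) τ := by simp only [kfv, alH]; ring
  have e2 : 1 - τ * kfu z 1 = beH (z ^ 5) τ := by simp only [kfu, beH]; ring
  have e3 : ∀ a b : R, kH (z * a) b = KH (z ^ 5 * a ^ 5) (b ^ 5) := by
    intro a b; simp only [kH, KH]; ring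
  have e4 : kf z 1 ^ 5 = f1H (z ^ 5) := by simp only [kf, f1H]; ring
  have e5 : kH z 1 = hwH (z ^ 5) := by simp only [kH, hwH]; ring
  have e6 : kT z 1 = twH (z ^ 5) := by simp only [kT, twH]; ring
  rw [e1, e2, e3, e4, e5, e6]
  exact sub_eq_zero.mp h

end Fermat.Agent.S52.Klein.Twist32
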