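import Fermat.Agent.S52.Klein.Grid32
import Fermat.Agent.S52.Klein.TwistDefs32

/-!
# S52, brick B3 (helper32): the twisted family, `c6` part

The identity `kT (p + t • q(p)) = tTw F H T 1 t` is first proved in dehomogenised form
(`p = (z, 1)`, `Z = z ^ 5`) as an identity of `ℤ[Z][τ]` by evaluation on an integer grid (see
`Grid32`), then transported to an arbitrary commutative ring (`dT_eq_zero`) and finally
rewritten in terms of the Klein forms (`kT_twist_dehom`).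
-/

namespace Fermat.Agent.S52.Klein.Twist32

open Polynomial Fermat.Agent.S52.Klein.Grid32

/-! ### The forms in the variable `Z = z ^ 5` -/

section Generic

variable {R : Type*} [CommRing R]

/-- `z + τ * kfv z 1 = z * alT (z ^ 5) τ`. -/
def alT (Z τ : R) : R := 1 + τ * (Z ^ 2 + 66 * Z - 11)

/-- `1 - τ * kfu z 1 = beT (z ^ 5) τ`. -/
def beT (Z τ : R) : R := 1 - τ * (11 * Z ^ 2 + 66 * Z - 1)

/-- `kf z 1 ^ 5 = f1T (z ^ 5)`. -/
def f1T (Z : R) : R := Z * (Z ^ 2 + 11 * Z - 1) ^ 5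

/-- `kH z 1 = hwT (z ^ 5)`. -/
def hwT (Z : R) : R := -(Z ^ 4 + 1) + 228 * (Z ^ 3 - Z) - 494 * Z ^ 2

/-- `kT z 1 = twT (z ^ 5)`. -/
def twT (Z : R) : R := Z ^ 6 + 1 + 522 * (Z ^ 5 - Z) - 10005 * (Z ^ 4 + Z ^ 2)

/-- the form in terms of `A = a ^ 5`, `B = b ^ 5`. -/
def KT (A B : R) : R := A ^ 6 + B ^ 6 + 522 * (A ^ 5 * B - A * B ^ 5) - 10005 * (A ^ 4 * B ^ 2 + A ^ 2 * B ^ 4)

/-- the dehomogenised identity in the variable `Z = z ^ 5`. -/
def dT (Z τ : R) : R :=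
  KT (Z * alT Z τ ^ 5) (beT Z τ ^ 5) - tTw (f1T Z) (hwT Z) (twT Z) 1 τ

theorem map_dT {S : Type*} [CommRing S] (φ : R →+* S) (Z τ : R) :
    φ (dT Z τ) = dT (φ Z) (φ τ) := by
  simp only [dT, KT, alT, beT, f1T, hwT, twT, map_tTw, map_sub,
    map_mul, map_add, map_neg, map_one, map_pow, map_ofNat]

end Generic

/-! ### Integer versions (elaborated with the core instances of `ℤ`) -/

/-- `f1T` on `ℤ`. -/
def f1ZT (Z : ℤ) : ℤ := Z * (Z ^ 2 + 11 * Z - 1) ^ 5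

/-- `hwT` on `ℤ`. -/
def hwZT (Z : ℤ) : ℤ := -(Z ^ 4 + 1) + 228 * (Z ^ 3 - Z) - 494 * Z ^ 2

/-- `twT` on `ℤ`. -/
def twZT (Z : ℤ) : ℤ := Z ^ 6 + 1 + 522 * (Z ^ 5 - Z) - 10005 * (Z ^ 4 + Z ^ 2)

/-- `KT` on `ℤ`. -/
def KZT (A B : ℤ) : ℤ := A ^ 6 + B ^ 6 + 522 * (A ^ 5 * B - A * B ^ 5) - 10005 * (A ^ 4 * B ^ 2 + A ^ 2 * B ^ 4)

theorem f1ZT_eq (Z : ℤ) : f1ZT Z = f1T Z := rfl
theorem hwZT_eq (Z : ℤ) : hwZT Z = hwT Z := rfl
theorem twZT_eq (Z : ℤ) : twZT Z = twT Z := rfl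
theorem KZT_eq (A B : ℤ) : KZT A B = KT A B := rfl

/-! ### The coefficients of the right hand side -/

/-- coefficient of `τ ^ 0`. -/
def cT0 (_F _H T : ℤ) : ℤ := T

/-- coefficient of `τ ^ 1`. -/
def cT1 (_F H _T : ℤ) : ℤ := (30) * H ^ 2

/-- coefficient of `τ ^ 2`. -/
def cT2 (_F H T : ℤ) : ℤ := (-435) * H * T

/-- coefficient of `τ ^ 3`. -/
def cT3 (F H _T : ℤ) : ℤ := (-4060) * H ^ 3 + (5011200) * F

/-- coefficient of `τ ^ 4`. -/
def cT4 (_F H T : ℤ) : ℤ := (27405) * H ^ 2 * T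

/-- coefficient of `τ ^ 5`. -/
def cT5 (F H _T : ℤ) : ℤ := (142506) * H ^ 4 + (-81181440) * F * H

/-- coefficient of `τ ^ 6`. -/
def cT6 (F H T : ℤ) : ℤ := (-593775) * H ^ 3 * T + (270604800) * F * T

/-- coefficient of `τ ^ 7`. -/
def cT7 (F H _T : ℤ) : ℤ := (-2035800) * H ^ 5 + (6765120000) * F * H ^ 2

/-- coefficient of `τ ^ 8`. -/
def cT8 (F H T : ℤ) : ℤ := (5852925) * H ^ 4 * T + (-24895641600) * F * H * T

/-- coefficient of `τ ^ 9`. -/
def cT9 (F H _T : ℤ) : ℤ := (14307150) * H ^ 6 + (-38035008000) * F * H ^ 3 + (95599263744000) * F ^ 2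

/-- coefficient of `τ ^ 10`. -/
def cT10 (F H T : ℤ) : ℤ := (-30045015) * H ^ 5 * T + (-374264478720) * F * H ^ 2 * T

/-- coefficient of `τ ^ 11`. -/
def cT11 (F H _T : ℤ) : ℤ := (-54627300) * H ^ 7 + (-2708438342400) * F * H ^ 4 + (4359326426726400) * F ^ 2 * H

/-- coefficient of `τ ^ 12`. -/
def cT12 (F H T : ℤ) : ℤ := (86493225) * H ^ 6 * T + (11194740172800) * F * H ^ 3 * T + (-7265544044544000) * F ^ 2 * T

/-- coefficient of `τ ^ 13`. -/
def cT13 (F H _T : ℤ) : ℤ := (119759850) * H ^ 8 + (32579058988800) * F * H ^ 5 + (-35964443020492800) * F ^ 2 * H ^ 2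

/-- coefficient of `τ ^ 14`. -/
def cT14 (F H T : ℤ) : ℤ := (-145422675) * H ^ 7 * T + (-74381953190400) * F * H ^ 4 * T

/-- coefficient of `τ ^ 15`. -/
def cT15 (F H _T : ℤ) : ℤ := (-155117520) * H ^ 9 + (-136970011100160) * F * H ^ 6 + (237147357613916160) * F ^ 2 * H ^ 3

/-- coefficient of `τ ^ 16`. -/
def cT16 (F H T : ℤ) : ℤ := (145422675) * H ^ 8 * T + (209073598156800) * F * H ^ 5 * T + (-889302591052185600) * F ^ 2 * H ^ 2 * T

/-- coefficient of `τ ^ 17`. -/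
def cT17 (F H _T : ℤ) : ℤ := (119759850) * H ^ 10 + (267018203980800) * F * H ^ 7 + (-3485281478167756800) * F ^ 2 * H ^ 4 + (3615799711383945216000) * F ^ 3 * H

/-- coefficient of `τ ^ 18`. -/
def cT18 (F H T : ℤ) : ℤ := (-86493225) * H ^ 9 * T + (-288067468953600) * F * H ^ 6 * T + (7881662179521331200) * F ^ 2 * H ^ 3 * T + (-4017555234871050240000) * F ^ 3 * T

/-- coefficient of `τ ^ 19`. -/
def cT19 (F H _T : ℤ) : ℤ := (-54627300) * H ^ 11 + (-263137595846400) * F * H ^ 8 + (14246737639007846400) * F ^ 2 * H ^ 5 + (-22138843846894682112000) * F ^ 3 * H ^ 2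

/-- coefficient of `τ ^ 20`. -/
def cT20 (F H T : ℤ) : ℤ := (30045015) * H ^ 10 * T + (203855471677440) * F * H ^ 7 * T + (-19214717810198446080) * F ^ 2 * H ^ 4 * T + (17761823143640432640000) * F ^ 3 * H * T

/-- coefficient of `τ ^ 21`. -/
def cT21 (F H _T : ℤ) : ℤ := (14307150) * H ^ 12 + (133590358598400) * F * H ^ 9 + (-20908591452861235200) * F ^ 2 * H ^ 6 + (41215887704266584883200) * F ^ 3 * H ^ 3 + (-29230886087819683430400000) * F ^ 4

/-- coefficient of `τ ^ 22`. -/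
def cT22 (F H T : ℤ) : ℤ := (-5852925) * H ^ 11 * T + (-73734666508800) * F * H ^ 8 * T + (17973273419159961600) * F ^ 2 * H ^ 5 * T + (-23597850747979431936000) * F ^ 3 * H ^ 2 * T

/-- coefficient of `τ ^ 23`. -/
def cT23 (F H _T : ℤ) : ℤ := (-2035800) * H ^ 13 + (-33996351628800) * F * H ^ 10 + (12476571793647206400) * F ^ 2 * H ^ 7 + (-29446013759435204198400) * F ^ 3 * H ^ 4 + (-54903229521470014095360000) * F ^ 4 * H

/-- coefficient of `τ ^ 24`. -/
def cT24 (F H T : ℤ) : ℤ := (593775) * H ^ 12 * T + (12942486374400) * F * H ^ 9 * T + (-6877999592688844800) * F ^ 2 * H ^ 6 * T + (11627926455526096896000) * F ^ 3 * H ^ 3 * T + (45752691267891678412800000) * F ^ 4 * T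

/-- coefficient of `τ ^ 25`. -/
def cT25 (F H _T : ℤ) : ℤ := (142506) * H ^ 14 + (3998272513536) * F * H ^ 11 + (-3001181670175408128) * F ^ 2 * H ^ 8 + (8215692682431874203648) * F ^ 3 * H ^ 5 + (-162422054001015458365440000) * F ^ 4 * H ^ 2

/-- coefficient of `τ ^ 26`. -/
def cT26 (F H T : ℤ) : ℤ := (-27405) * H ^ 13 * T + (-977532779520) * F * H ^ 10 * T + (1009272850407751680) * F ^ 2 * H ^ 7 * T + (-2081773929940962508800) * F ^ 3 * H ^ 4 * T + (366021530143133427302400000) * F ^ 4 * H * T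

/-- coefficient of `τ ^ 27`. -/
def cT27 (F H _T : ℤ) : ℤ := (-4060) * H ^ 15 + (-182045871360) * F * H ^ 12 + (253675112528609280) * F ^ 2 * H ^ 9 + (-788715656681336340480) * F ^ 3 * H ^ 6 + (357616591302809622675456000) * F ^ 4 * H ^ 3 + (-468507558583210786947072000000) * F ^ 5

/-- coefficient of `τ ^ 28`. -/
def cT28 (F H T : ℤ) : ℤ := (435) * H ^ 14 * T + (24270243840) * F * H ^ 11 * T + (-44768387043164160) * F ^ 2 * H ^ 8 * T + (108850924441357516800) * F ^ 3 * H ^ 5 * T + (-191144576852525234257920000) * F ^ 4 * H ^ 2 * T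

/-- coefficient of `τ ^ 29`. -/
def cT29 (F H _T : ℤ) : ℤ := (30) * H ^ 16 + (2063335680) * F * H ^ 13 + (-4963496574320640) * F ^ 2 * H ^ 10 + (17260936434013962240) * F ^ 3 * H ^ 7 + (-55089045049224669954048000) * F ^ 4 * H ^ 4 + (-77546078662048681977446400000) * F ^ 5 * H

/-- coefficient of `τ ^ 30`. -/
def cT30 (F H T : ℤ) : ℤ := (-1) * H ^ 15 * T + (-84063744) * F * H ^ 12 * T + (259826663817216) * F ^ 2 * H ^ 9 * T + (-727025435069644800) * F ^ 3 * H ^ 6 * T + (6731430439413948088320000) * F ^ 4 * H ^ 3 * T + (51697385774699121318297600000) * F ^ 5 * T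

/-- the list of coefficients. -/
def cTs (F H T : ℤ) : List ℤ :=
  [cT0 F H T, cT1 F H T, cT2 F H T, cT3 F H T, cT4 F H T, cT5 F H T, cT6 F H T, cT7 F H T, cT8 F H T, cT9 F H T, cT10 F H T, cT11 F H T, cT12 F H T, cT13 F H T, cT14 F H T, cT15 F H T, cT16 F H T, cT17 F H T, cT18 F H T, cT19 F H T, cT20 F H T, cT21 F H T, cT22 F H T, cT23 F H T, cT24 F H T, cT25 F H T, cT26 F H T, cT27 F H T, cT28 F H T, cT29 F H T, cT30 F H T]

theorem horner_cTs (F H T τ : ℤ) : horner (cTs F H T) τ = tTw F H T 1 τ := by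
  simp only [cTs, horner, cT0, cT1, cT2, cT3, cT4, cT5, cT6, cT7, cT8, cT9, cT10, cT11, cT12, cT13, cT14, cT15, cT16, cT17, cT18, cT19, cT20, cT21, cT22, cT23, cT24, cT25, cT26, cT27, cT28, cT29, cT30, tTw, tC0, tC1, tC2, tC3, tC4, tC5, tC6, tC7, tC8, tC9, tC10, tC11, tC12, tC13, tC14, tC15, tC16, tC17, tC18, tC19, tC20, tC21, tC22, tC23, tC24, tC25, tC26, tC27, tC28, tC29, tC30]
  ring

/-! ### The grid check -/

/-- check of the row `Z`: all `τ < m`. -/
def rowT (Z : ℤ) (m : ℕ) : Bool :=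
  forceInt (f1ZT Z) fun F => forceInt (hwZT Z) fun H => forceInt (twZT Z) fun T =>
  forceInt (Z ^ 2 + 66 * Z - 11) fun pa => forceInt (11 * Z ^ 2 + 66 * Z - 1) fun pb =>
  forceList (cTs F H T) fun cs =>
  checkRow (fun τ => forceInt (1 + τ * pa) fun al => forceInt (1 - τ * pb) fun be =>
    forceInt (Z * al ^ 5) fun A => forceInt (be ^ 5) fun B =>
    KZT A B - horner cs τ) m

theorem rowT_sound (Z : ℤ) (m : ℕ) (h : rowT Z m = true) :
    ∀ j < m, dT Z (j : ℤ) = 0 := by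
  intro j hj
  simp only [rowT, forceInt_eq, forceList_eq] at h
  have h1 := checkRow_sound h j hj
  simp only [horner_cTs, f1ZT_eq, hwZT_eq, twZT_eq, KZT_eq] at h1
  exact h1

set_option maxRecDepth 100000 in
theorem gridT_ok : checkAll (fun Z => rowT Z 31) 67 = true := by
  decide +kernel

theorem dT_deg_out : (dT (C X : ℤ[X][X]) X).natDegree < 31 := by
  apply Nat.lt_succ_of_le
  simp only [dT, KT, alT, beT, f1T, hwT, twT, tTw, tC0, tC1, tC2, tC3, tC4, tC5, tC6, tC7, tC8, tC9, tC10, tC11, tC12, tC13, tC14, tC15, tC16, tC17, tC18, tC19, tC20, tC21, tC22, tC23, tC24, tC25, tC26, tC27, tC28, tC29, tC30]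
  compute_degree

theorem dT_deg_in (j : ℕ) : (dT (X : ℤ[X]) (j : ℤ[X])).natDegree < 67 := by
  apply Nat.lt_succ_of_le
  simp only [dT, KT, alT, beT, f1T, hwT, twT, tTw, tC0, tC1, tC2, tC3, tC4, tC5, tC6, tC7, tC8, tC9, tC10, tC11, tC12, tC13, tC14, tC15, tC16, tC17, tC18, tC19, tC20, tC21, tC22, tC23, tC24, tC25, tC26, tC27, tC28, tC29, tC30]
  compute_degree

theorem dT_poly : dT (C X : ℤ[X][X]) X = 0 := by
  have hev : ∀ j : ℕ, (dT (C X : ℤ[X][X]) X).eval ((j : ℕ) : ℤ[X]) =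
      dT (X : ℤ[X]) ((j : ℕ) : ℤ[X]) := by
    intro j
    have h := map_dT (evalRingHom ((j : ℕ) : ℤ[X])) (C X) X
    simpa only [coe_evalRingHom, eval_C, eval_X] using h
  apply eq_zero_of_grid _ 67 31 dT_deg_out
  · intro j
    rw [hev]
    exact dT_deg_in j
  · intro i hi j hj
    rw [hev]
    have h2 := map_dT (evalRingHom ((i : ℕ) : ℤ)) (X : ℤ[X]) ((j : ℕ) : ℤ[X])
    simp only [coe_evalRingHom, eval_X, eval_natCast] at h2
    rw [h2]
    have h3 := rowT_sound (i : ℤ) 31 (checkAll_sound gridT_ok i hi) j hj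
    simpa using h3

/-- The dehomogenised identity (in `Z = z ^ 5`) over an arbitrary commutative ring. -/
theorem dT_eq_zero {R : Type*} [CommRing R] (Z τ : R) : dT Z τ = 0 := by
  have h := map_dT (evalHom Z τ) (C X) X
  rw [dT_poly, map_zero, evalHom_X, evalHom_C_X] at h
  exact h.symm

/-- **Dehomogenised twist identity for `kT`** over an arbitrary commutative ring. -/
theorem kT_twist_dehom {R : Type*} [CommRing R] (z τ : R) :
    kT (z + τ * kfv z 1) (1 - τ * kfu z 1) = tTw (kf z 1 ^ 5) (kH z 1) (kT z 1) 1 τ := by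
  have h := dT_eq_zero (z ^ 5) τ
  unfold dT at h
  have e1 : z + τ * kfv z 1 = z * alT (z ^ 5) τ := by simp only [kfv, alT]; ring
  have e2 : 1 - τ * kfu z 1 = beT (z ^ 5) τ := by simp only [kfu, beT]; ring
  have e3 : ∀ a b : R, kT (z * a) b = KT (z ^ 5 * a ^ 5) (b ^ 5) := by
    intro a b; simp only [kT, KT]; ring
  have e4 : kf z 1 ^ 5 = f1T (z ^ 5) := by simp only [kf, f1T]; ring
  have e5 : kH z 1 = hwT (z ^ 5) := by simp only [kH, hwT]; ring
  have e6 : kT z 1 = twT (z ^ 5) := by simp only [kT, twT]; ring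
  rw [e1, e2, e3, e4, e5, e6]
  exact sub_eq_zero.mp h

end Fermat.Agent.S52.Klein.Twist32
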