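import Mathlib
import Fermat.Agent.S52.Klein.TwistH32
import Fermat.Agent.S52.Klein.TwistT32
import Fermat.Agent.S52.Klein.TwistF32

/-!
# S52, brick B3 = K1 (helper32): the twisted (Rubin--Silverberg) family

Notation of `Defs51`: `kf, kH, kT` Klein's forms, `kfu, kfv` the partial derivatives of `kf`;
the curve attached to `p = (u, v)` is `y² = x³ + 27 kH(p) x + 54 kT(p)`, i.e.
`c₄ = - kH p`, `c₆ = - kT p`, `Δ = - kf p ^ 5`.

Main results (over an arbitrary commutative ring unless stated otherwise):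

* `kH_twist`, `kT_twist`, `kf_twist`: for the pencil `s • p + t • q(p)`,
  `q(p) = (kfv p, - kfu p)`:
  `kH (s • p + t • q(p)) = hTw F H T s t`, `kT (...) = tTw F H T s t`,
  `kf (...) = kf p * gTw F H T s t`, with `F = kf p ^ 5`, `H = kH p`, `T = kT p` and
  `hTw, tTw, gTw` EXPLICIT polynomials with integer coefficients (`TwistDefs32`).
  Proof: the dehomogenised identities (`p = (z, 1)`, `s = 1`) are checked on an integer grid
  (`TwistH32`, `TwistT32`, `TwistF32`, method of `Grid32`), and the general case follows by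
  homogeneity in the fraction field of the universal ring `ℤ[u, v, s, t]`;
* `kH_twist_one` etc.: the affine versions (`s = 1`), and `kH_twist_one'` etc. for the opposite
  orientation `q(p) = (- kfv p, kfu p)`;
* `hPoly F H T, tPoly F H T, gPoly F H T : R[X]`: the same as polynomials in `t`; `eval_hPoly`,
  `aeval_hPoly`, `map_hPoly`, ...;
* `twist_aeval`: for integers `F H T` and a point `(u, v)` of any commutative ring `A` with
  `kf u v ^ 5 = F`, `kH u v = H`, `kT u v = T`:
  `kH (u + t * kfv u v) (v - t * kfu u v) = aeval t (hPoly F H T)` etc.;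
* `twist_aeval_weierstrass`: the same for `W : WeierstrassCurve ℤ`, from `kH u v = - W.c₄`,
  `kT u v = - W.c₆` in a field of characteristic zero, with `F = - W.Δ`;
* `twist_eval_int`, `twist_eval_int_weierstrass`: the versions for integer parameters `t`;
* `dvd_eval_hPoly_sub`: `t ∣ (hPoly F H T).eval t - H` (closeness of the member to the base
  curve), same for `tPoly`, and `t ^ 2 ∣ (gPoly F H T).eval t - 1`; `int_dvd_c4_sub`,
  `int_dvd_c6_sub`;
* `poly_relation`: `tPoly ^ 2 + hPoly ^ 3 = 1728 * F * gPoly ^ 5` for Klein-parametrised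
  `(F, H, T)`, so that `Δ (E_t) = Δ (E) * g(t) ^ 5`.
-/

namespace Fermat.Agent.S52.Klein.Twist32

open Polynomial

variable {R : Type*} [CommRing R]

/-! ### Homogeneity -/

theorem kf_smul (c u v : R) : kf (c * u) (c * v) = c ^ 12 * kf u v := by
  simp only [kf]; ring

theorem kH_smul (c u v : R) : kH (c * u) (c * v) = c ^ 20 * kH u v := by
  simp only [kH]; ring

theorem kT_smul (c u v : R) : kT (c * u) (c * v) = c ^ 30 * kT u v := by
  simp only [kT]; ring

theorem kfu_smul (c u v : R) : kfu (c * u) (c * v) = c ^ 11 * kfu u v := by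
  simp only [kfu]; ring

theorem kfv_smul (c u v : R) : kfv (c * u) (c * v) = c ^ 11 * kfv u v := by
  simp only [kfv]; ring

/-! ### The twist identities over a field, by homogeneity -/

section Field

variable {K : Type*} [Field K]

theorem kH_twist_field (u v s t : K) (hv : v ≠ 0) (hs : s ≠ 0) :
    kH (s * u + t * kfv u v) (s * v - t * kfu u v) =
      hTw (kf u v ^ 5) (kH u v) (kT u v) s t := by
  obtain ⟨z, rfl⟩ : ∃ z, u = v * z := ⟨u / v, by field_simp⟩
  obtain ⟨t', rfl⟩ : ∃ t', t = s * t' := ⟨t / s, by field_simp⟩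
  have e1 : kfv (v * z) v = v ^ 11 * kfv z 1 := by
    have := kfv_smul v z 1; rwa [mul_one] at this
  have e2 : kfu (v * z) v = v ^ 11 * kfu z 1 := by
    have := kfu_smul v z 1; rwa [mul_one] at this
  have e3 : kf (v * z) v = v ^ 12 * kf z 1 := by
    have := kf_smul v z 1; rwa [mul_one] at this
  have e4 : kH (v * z) v = v ^ 20 * kH z 1 := by
    have := kH_smul v z 1; rwa [mul_one] at this
  have e5 : kT (v * z) v = v ^ 30 * kT z 1 := by
    have := kT_smul v z 1; rwa [mul_one] at this
  have e6 : (v ^ 12 * kf z 1) ^ 5 = v ^ 60 * kf z 1 ^ 5 := by ring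
  have a1 : s * (v * z) + s * t' * kfv (v * z) v = (s * v) * (z + (v ^ 10 * t') * kfv z 1) := by
    rw [e1]; ring
  have a2 : s * v - s * t' * kfu (v * z) v = (s * v) * (1 - (v ^ 10 * t') * kfu z 1) := by
    rw [e2]; ring
  rw [a1, a2, kH_smul, kH_twist_dehom, e3, e4, e5, e6, hTw_smul]

theorem kT_twist_field (u v s t : K) (hv : v ≠ 0) (hs : s ≠ 0) :
    kT (s * u + t * kfv u v) (s * v - t * kfu u v) =
      tTw (kf u v ^ 5) (kH u v) (kT u v) s t := by
  obtain ⟨z, rfl⟩ : ∃ z, u = v * z := ⟨u / v, by field_simp⟩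
  obtain ⟨t', rfl⟩ : ∃ t', t = s * t' := ⟨t / s, by field_simp⟩
  have e1 : kfv (v * z) v = v ^ 11 * kfv z 1 := by
    have := kfv_smul v z 1; rwa [mul_one] at this
  have e2 : kfu (v * z) v = v ^ 11 * kfu z 1 := by
    have := kfu_smul v z 1; rwa [mul_one] at this
  have e3 : kf (v * z) v = v ^ 12 * kf z 1 := by
    have := kf_smul v z 1; rwa [mul_one] at this
  have e4 : kH (v * z) v = v ^ 20 * kH z 1 := by
    have := kH_smul v z 1; rwa [mul_one] at this
  have e5 : kT (v * z) v = v ^ 30 * kT z 1 := by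
    have := kT_smul v z 1; rwa [mul_one] at this
  have e6 : (v ^ 12 * kf z 1) ^ 5 = v ^ 60 * kf z 1 ^ 5 := by ring
  have a1 : s * (v * z) + s * t' * kfv (v * z) v = (s * v) * (z + (v ^ 10 * t') * kfv z 1) := by
    rw [e1]; ring
  have a2 : s * v - s * t' * kfu (v * z) v = (s * v) * (1 - (v ^ 10 * t') * kfu z 1) := by
    rw [e2]; ring
  rw [a1, a2, kT_smul, kT_twist_dehom, e3, e4, e5, e6, tTw_smul]

theorem kf_twist_field (u v s t : K) (hv : v ≠ 0) (hs : s ≠ 0) :
    kf (s * u + t * kfv u v) (s * v - t * kfu u v) =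
      kf u v * gTw (kf u v ^ 5) (kH u v) (kT u v) s t := by
  obtain ⟨z, rfl⟩ : ∃ z, u = v * z := ⟨u / v, by field_simp⟩
  obtain ⟨t', rfl⟩ : ∃ t', t = s * t' := ⟨t / s, by field_simp⟩
  have e1 : kfv (v * z) v = v ^ 11 * kfv z 1 := by
    have := kfv_smul v z 1; rwa [mul_one] at this
  have e2 : kfu (v * z) v = v ^ 11 * kfu z 1 := by
    have := kfu_smul v z 1; rwa [mul_one] at this
  have e3 : kf (v * z) v = v ^ 12 * kf z 1 := by
    have := kf_smul v z 1; rwa [mul_one] at this
  have e4 : kH (v * z) v = v ^ 20 * kH z 1 := by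
    have := kH_smul v z 1; rwa [mul_one] at this
  have e5 : kT (v * z) v = v ^ 30 * kT z 1 := by
    have := kT_smul v z 1; rwa [mul_one] at this
  have e6 : (v ^ 12 * kf z 1) ^ 5 = v ^ 60 * kf z 1 ^ 5 := by ring
  have a1 : s * (v * z) + s * t' * kfv (v * z) v = (s * v) * (z + (v ^ 10 * t') * kfv z 1) := by
    rw [e1]; ring
  have a2 : s * v - s * t' * kfu (v * z) v = (s * v) * (1 - (v ^ 10 * t') * kfu z 1) := by
    rw [e2]; ring
  rw [a1, a2, kf_smul, kf_twist_dehom, e3, e4, e5, e6, gTw_smul]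
  ring

end Field

/-! ### The twist identities over an arbitrary commutative ring -/

/-- **Twisted family, `c4`-part**: `kH (s • p + t • q(p))` is the explicit binary form `hTw`
whose coefficients are integer polynomials in the invariants of `p`. -/
theorem kH_twist (u v s t : R) :
    kH (s * u + t * kfv u v) (s * v - t * kfu u v) =
      hTw (kf u v ^ 5) (kH u v) (kT u v) s t := by
  let M := MvPolynomial (Fin 4) ℤ
  let K := FractionRing M
  have key : (kH ((MvPolynomial.X 2 : M) * MvPolynomial.X 0 +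
        MvPolynomial.X 3 * kfv (MvPolynomial.X 0) (MvPolynomial.X 1))
      (MvPolynomial.X 2 * MvPolynomial.X 1 -
        MvPolynomial.X 3 * kfu (MvPolynomial.X 0) (MvPolynomial.X 1)) : M) =
      hTw (kf (MvPolynomial.X 0) (MvPolynomial.X 1) ^ 5)
        (kH (MvPolynomial.X 0) (MvPolynomial.X 1)) (kT (MvPolynomial.X 0) (MvPolynomial.X 1))
        (MvPolynomial.X 2) (MvPolynomial.X 3) := by
    apply IsFractionRing.injective M K
    simp only [map_kT, map_hTw, map_add, map_sub, map_mul, map_pow, map_kf, map_kH, map_kfu,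
      map_kfv]
    apply kH_twist_field
    · intro h
      exact MvPolynomial.X_ne_zero (R := ℤ) (1 : Fin 4)
        (IsFractionRing.injective M K (h.trans (map_zero _).symm))
    · intro h
      exact MvPolynomial.X_ne_zero (R := ℤ) (2 : Fin 4)
        (IsFractionRing.injective M K (h.trans (map_zero _).symm))
  have h := congrArg (MvPolynomial.eval₂Hom (Int.castRingHom R) ![u, v, s, t]) key
  simpa only [map_kT, map_hTw, map_add, map_sub, map_mul, map_pow, map_kf, map_kH, map_kfu,
    map_kfv, MvPolynomial.eval₂Hom_X', Matrix.cons_val_zero, Matrix.cons_val_one,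
    Matrix.cons_val] using h

/-- **Twisted family, `c6`-part**: `kT (s • p + t • q(p))` is the explicit binary form `tTw`
whose coefficients are integer polynomials in the invariants of `p`. -/
theorem kT_twist (u v s t : R) :
    kT (s * u + t * kfv u v) (s * v - t * kfu u v) =
      tTw (kf u v ^ 5) (kH u v) (kT u v) s t := by
  let M := MvPolynomial (Fin 4) ℤ
  let K := FractionRing M
  have key : (kT ((MvPolynomial.X 2 : M) * MvPolynomial.X 0 +
        MvPolynomial.X 3 * kfv (MvPolynomial.X 0) (MvPolynomial.X 1))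
      (MvPolynomial.X 2 * MvPolynomial.X 1 -
        MvPolynomial.X 3 * kfu (MvPolynomial.X 0) (MvPolynomial.X 1)) : M) =
      tTw (kf (MvPolynomial.X 0) (MvPolynomial.X 1) ^ 5)
        (kH (MvPolynomial.X 0) (MvPolynomial.X 1)) (kT (MvPolynomial.X 0) (MvPolynomial.X 1))
        (MvPolynomial.X 2) (MvPolynomial.X 3) := by
    apply IsFractionRing.injective M K
    simp only [map_kT, map_tTw, map_add, map_sub, map_mul, map_pow, map_kf, map_kH, map_kfu,
      map_kfv]
    apply kT_twist_field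
    · intro h
      exact MvPolynomial.X_ne_zero (R := ℤ) (1 : Fin 4)
        (IsFractionRing.injective M K (h.trans (map_zero _).symm))
    · intro h
      exact MvPolynomial.X_ne_zero (R := ℤ) (2 : Fin 4)
        (IsFractionRing.injective M K (h.trans (map_zero _).symm))
  have h := congrArg (MvPolynomial.eval₂Hom (Int.castRingHom R) ![u, v, s, t]) key
  simpa only [map_kT, map_tTw, map_add, map_sub, map_mul, map_pow, map_kf, map_kH, map_kfu,
    map_kfv, MvPolynomial.eval₂Hom_X', Matrix.cons_val_zero, Matrix.cons_val_one,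
    Matrix.cons_val] using h

/-- **Twisted family, discriminant part**: `kf (s • p + t • q(p)) = kf p * gTw`. -/
theorem kf_twist (u v s t : R) :
    kf (s * u + t * kfv u v) (s * v - t * kfu u v) =
      kf u v * gTw (kf u v ^ 5) (kH u v) (kT u v) s t := by
  let M := MvPolynomial (Fin 4) ℤ
  let K := FractionRing M
  have key : (kf ((MvPolynomial.X 2 : M) * MvPolynomial.X 0 +
        MvPolynomial.X 3 * kfv (MvPolynomial.X 0) (MvPolynomial.X 1))
      (MvPolynomial.X 2 * MvPolynomial.X 1 -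
        MvPolynomial.X 3 * kfu (MvPolynomial.X 0) (MvPolynomial.X 1)) : M) =
      kf (MvPolynomial.X 0) (MvPolynomial.X 1) *
        gTw (kf (MvPolynomial.X 0) (MvPolynomial.X 1) ^ 5)
          (kH (MvPolynomial.X 0) (MvPolynomial.X 1)) (kT (MvPolynomial.X 0) (MvPolynomial.X 1))
          (MvPolynomial.X 2) (MvPolynomial.X 3) := by
    apply IsFractionRing.injective M K
    simp only [map_kT, map_gTw, map_add, map_sub, map_mul, map_pow, map_kf, map_kH, map_kfu,
      map_kfv]
    apply kf_twist_field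
    · intro h
      exact MvPolynomial.X_ne_zero (R := ℤ) (1 : Fin 4)
        (IsFractionRing.injective M K (h.trans (map_zero _).symm))
    · intro h
      exact MvPolynomial.X_ne_zero (R := ℤ) (2 : Fin 4)
        (IsFractionRing.injective M K (h.trans (map_zero _).symm))
  have h := congrArg (MvPolynomial.eval₂Hom (Int.castRingHom R) ![u, v, s, t]) key
  simpa only [map_kT, map_gTw, map_add, map_sub, map_mul, map_pow, map_kf, map_kH, map_kfu,
    map_kfv, MvPolynomial.eval₂Hom_X', Matrix.cons_val_zero, Matrix.cons_val_one,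
    Matrix.cons_val] using h

/-! ### Affine versions -/

theorem kH_twist_one (u v t : R) :
    kH (u + t * kfv u v) (v - t * kfu u v) = hTw (kf u v ^ 5) (kH u v) (kT u v) 1 t := by
  have h := kH_twist u v 1 t
  simpa only [one_mul] using h

theorem kT_twist_one (u v t : R) :
    kT (u + t * kfv u v) (v - t * kfu u v) = tTw (kf u v ^ 5) (kH u v) (kT u v) 1 t := by
  have h := kT_twist u v 1 t
  simpa only [one_mul] using h

theorem kf_twist_one (u v t : R) :
    kf (u + t * kfv u v) (v - t * kfu u v) =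
      kf u v * gTw (kf u v ^ 5) (kH u v) (kT u v) 1 t := by
  have h := kf_twist u v 1 t
  simpa only [one_mul] using h

/-- Opposite orientation `q(p) = (- kfv p, kfu p)`: replace `t` by `- t`. -/
theorem kH_twist_one' (u v t : R) :
    kH (u + t * -kfv u v) (v + t * kfu u v) = hTw (kf u v ^ 5) (kH u v) (kT u v) 1 (-t) := by
  rw [← kH_twist_one]; congr 1 <;> ring

theorem kT_twist_one' (u v t : R) :
    kT (u + t * -kfv u v) (v + t * kfu u v) = tTw (kf u v ^ 5) (kH u v) (kT u v) 1 (-t) := by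
  rw [← kT_twist_one]; congr 1 <;> ring

theorem kf_twist_one' (u v t : R) :
    kf (u + t * -kfv u v) (v + t * kfu u v) =
      kf u v * gTw (kf u v ^ 5) (kH u v) (kT u v) 1 (-t) := by
  rw [← kf_twist_one]; congr 1 <;> ring

/-! ### The family as polynomials in `t` -/

/-- `t ↦ kH (p + t • q(p))` as a polynomial in `t` (degree `≤ 20`). -/
noncomputable def hPoly (F H T : R) : R[X] := hTw (C F) (C H) (C T) 1 X

/-- `t ↦ kT (p + t • q(p))` as a polynomial in `t` (degree `≤ 30`). -/
noncomputable def tPoly (F H T : R) : R[X] := tTw (C F) (C H) (C T) 1 X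

/-- `t ↦ kf (p + t • q(p)) / kf p` as a polynomial in `t` (degree `≤ 12`). -/
noncomputable def gPoly (F H T : R) : R[X] := gTw (C F) (C H) (C T) 1 X

section Eval

variable {S : Type*} [CommRing S]

theorem hom_hPoly (φ : R[X] →+* S) (F H T : R) :
    φ (hPoly F H T) = hTw (φ (C F)) (φ (C H)) (φ (C T)) 1 (φ X) := by
  rw [hPoly, map_hTw, map_one]

theorem hom_tPoly (φ : R[X] →+* S) (F H T : R) :
    φ (tPoly F H T) = tTw (φ (C F)) (φ (C H)) (φ (C T)) 1 (φ X) := by
  rw [tPoly, map_tTw, map_one]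

theorem hom_gPoly (φ : R[X] →+* S) (F H T : R) :
    φ (gPoly F H T) = gTw (φ (C F)) (φ (C H)) (φ (C T)) 1 (φ X) := by
  rw [gPoly, map_gTw, map_one]

theorem eval_hPoly (F H T t : R) : (hPoly F H T).eval t = hTw F H T 1 t := by
  have h := hom_hPoly (evalRingHom t) F H T
  simpa only [coe_evalRingHom, eval_C, eval_X] using h

theorem eval_tPoly (F H T t : R) : (tPoly F H T).eval t = tTw F H T 1 t := by
  have h := hom_tPoly (evalRingHom t) F H T
  simpa only [coe_evalRingHom, eval_C, eval_X] using h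

theorem eval_gPoly (F H T t : R) : (gPoly F H T).eval t = gTw F H T 1 t := by
  have h := hom_gPoly (evalRingHom t) F H T
  simpa only [coe_evalRingHom, eval_C, eval_X] using h

theorem aeval_hPoly [Algebra R S] (F H T : R) (t : S) :
    aeval t (hPoly F H T) =
      hTw (algebraMap R S F) (algebraMap R S H) (algebraMap R S T) 1 t := by
  have h := hom_hPoly ((aeval t : R[X] →ₐ[R] S) : R[X] →+* S) F H T
  simpa only [RingHom.coe_coe, aeval_C, aeval_X] using h

theorem aeval_tPoly [Algebra R S] (F H T : R) (t : S) :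
    aeval t (tPoly F H T) =
      tTw (algebraMap R S F) (algebraMap R S H) (algebraMap R S T) 1 t := by
  have h := hom_tPoly ((aeval t : R[X] →ₐ[R] S) : R[X] →+* S) F H T
  simpa only [RingHom.coe_coe, aeval_C, aeval_X] using h

theorem aeval_gPoly [Algebra R S] (F H T : R) (t : S) :
    aeval t (gPoly F H T) =
      gTw (algebraMap R S F) (algebraMap R S H) (algebraMap R S T) 1 t := by
  have h := hom_gPoly ((aeval t : R[X] →ₐ[R] S) : R[X] →+* S) F H T
  simpa only [RingHom.coe_coe, aeval_C, aeval_X] using h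

theorem map_hPoly (φ : R →+* S) (F H T : R) :
    (hPoly F H T).map φ = hPoly (φ F) (φ H) (φ T) := by
  have h := hom_hPoly (mapRingHom φ) F H T
  simp only [coe_mapRingHom, map_C, map_X] at h
  exact h

theorem map_tPoly (φ : R →+* S) (F H T : R) :
    (tPoly F H T).map φ = tPoly (φ F) (φ H) (φ T) := by
  have h := hom_tPoly (mapRingHom φ) F H T
  simp only [coe_mapRingHom, map_C, map_X] at h
  exact h

theorem map_gPoly (φ : R →+* S) (F H T : R) :
    (gPoly F H T).map φ = gPoly (φ F) (φ H) (φ T) := by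
  have h := hom_gPoly (mapRingHom φ) F H T
  simp only [coe_mapRingHom, map_C, map_X] at h
  exact h

end Eval

/-! ### Closeness of the members to the base curve -/

theorem X_dvd_hPoly_sub (F H T : R) : (X : R[X]) ∣ hPoly F H T - C H :=
  dvd_hTw_sub (C F) (C H) (C T) X

theorem X_dvd_tPoly_sub (F H T : R) : (X : R[X]) ∣ tPoly F H T - C T :=
  dvd_tTw_sub (C F) (C H) (C T) X

theorem X_sq_dvd_gPoly_sub (F H T : R) : (X : R[X]) ^ 2 ∣ gPoly F H T - 1 :=
  sq_dvd_gTw_sub (C F) (C H) (C T) X

theorem dvd_eval_hPoly_sub (F H T t : R) : t ∣ (hPoly F H T).eval t - H := by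
  rw [eval_hPoly]; exact dvd_hTw_sub F H T t

theorem dvd_eval_tPoly_sub (F H T t : R) : t ∣ (tPoly F H T).eval t - T := by
  rw [eval_tPoly]; exact dvd_tTw_sub F H T t

theorem sq_dvd_eval_gPoly_sub (F H T t : R) : t ^ 2 ∣ (gPoly F H T).eval t - 1 := by
  rw [eval_gPoly]; exact sq_dvd_gTw_sub F H T t

theorem eval_zero_hPoly (F H T : R) : (hPoly F H T).eval 0 = H := by
  rw [eval_hPoly, hTw_one_zero]

theorem eval_zero_tPoly (F H T : R) : (tPoly F H T).eval 0 = T := by
  rw [eval_tPoly, tTw_one_zero]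

theorem eval_zero_gPoly (F H T : R) : (gPoly F H T).eval 0 = 1 := by
  rw [eval_gPoly, gTw_one_zero]

/-- If `K ∣ t` then the `c4`-polynomial at `t` is congruent to `H` modulo `K`. -/
theorem dvd_eval_hPoly_sub_of_dvd (F H T : R) {K t : R} (h : K ∣ t) :
    K ∣ (hPoly F H T).eval t - H :=
  h.trans (dvd_eval_hPoly_sub F H T t)

/-- If `K ∣ t` then the `c6`-polynomial at `t` is congruent to `T` modulo `K`. -/
theorem dvd_eval_tPoly_sub_of_dvd (F H T : R) {K t : R} (h : K ∣ t) :
    K ∣ (tPoly F H T).eval t - T :=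
  h.trans (dvd_eval_tPoly_sub F H T t)

/-! ### The twisted family with integer invariants -/

section Integer

variable {A : Type*} [CommRing A]

/-- **Twisted family with integral invariants.**  If `(u, v)` is a point (over any commutative
ring `A`) whose Klein invariants are the integers `F, H, T`, then along the line
`p + t • q(p)` the invariants `kH`, `kT` are the values at `t` of the INTEGER polynomials
`hPoly F H T`, `tPoly F H T`, and `kf` is `kf p` times the value of `gPoly F H T`. -/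
theorem twist_aeval (F H T : ℤ) (u v t : A)
    (hF : kf u v ^ 5 = (F : A)) (hH : kH u v = (H : A)) (hT : kT u v = (T : A)) :
    kH (u + t * kfv u v) (v - t * kfu u v) = aeval t (hPoly F H T) ∧
    kT (u + t * kfv u v) (v - t * kfu u v) = aeval t (tPoly F H T) ∧
    kf (u + t * kfv u v) (v - t * kfu u v) = kf u v * aeval t (gPoly F H T) := by
  refine ⟨?_, ?_, ?_⟩
  · rw [kH_twist_one, aeval_hPoly, hF, hH, hT]; simp only [eq_intCast]
  · rw [kT_twist_one, aeval_tPoly, hF, hH, hT]; simp only [eq_intCast]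
  · rw [kf_twist_one, aeval_gPoly, hF, hH, hT]; simp only [eq_intCast]

/-- Opposite orientation `q(p) = (- kfv p, kfu p)`. -/
theorem twist_aeval' (F H T : ℤ) (u v t : A)
    (hF : kf u v ^ 5 = (F : A)) (hH : kH u v = (H : A)) (hT : kT u v = (T : A)) :
    kH (u + t * -kfv u v) (v + t * kfu u v) = aeval (-t) (hPoly F H T) ∧
    kT (u + t * -kfv u v) (v + t * kfu u v) = aeval (-t) (tPoly F H T) ∧
    kf (u + t * -kfv u v) (v + t * kfu u v) = kf u v * aeval (-t) (gPoly F H T) := by
  have h := twist_aeval F H T u v (-t) hF hH hT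
  have e1 : u + -t * kfv u v = u + t * -kfv u v := by ring
  have e2 : v - -t * kfu u v = v + t * kfu u v := by ring
  rwa [e1, e2] at h

/-- Integer parameters: the invariants of the member at `t : ℤ` are (casts of) integers. -/
theorem twist_eval_int (F H T : ℤ) (u v : A) (t : ℤ)
    (hF : kf u v ^ 5 = (F : A)) (hH : kH u v = (H : A)) (hT : kT u v = (T : A)) :
    kH (u + (t : A) * kfv u v) (v - (t : A) * kfu u v) = (((hPoly F H T).eval t : ℤ) : A) ∧
    kT (u + (t : A) * kfv u v) (v - (t : A) * kfu u v) = (((tPoly F H T).eval t : ℤ) : A) ∧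
    kf (u + (t : A) * kfv u v) (v - (t : A) * kfu u v) =
      kf u v * (((gPoly F H T).eval t : ℤ) : A) := by
  have h := twist_aeval F H T u v (t : A) hF hH hT
  have key : ∀ p : ℤ[X], aeval (t : A) p = ((p.eval t : ℤ) : A) := by
    intro p
    have := aeval_algebraMap_apply (A := ℤ) A t p
    simpa only [eq_intCast, aeval_X_left_apply, coe_aeval_eq_eval] using this
  simpa only [key] using h

end Integer

/-! ### Weierstrass curves over `ℤ` -/

section Weierstrass

variable {K : Type*} [Field K] [CharZero K]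

/-- For a point `(u, v)` with `kH u v = - c₄`, `kT u v = - c₆` one has `kf u v ^ 5 = - Δ`. -/
theorem kf_pow_five_eq_neg_Δ (W : WeierstrassCurve ℤ) (u v : K)
    (hH : kH u v = -(W.c₄ : K)) (hT : kT u v = -(W.c₆ : K)) :
    kf u v ^ 5 = ((-W.Δ : ℤ) : K) := by
  have hrel := klein_relation u v
  rw [hH, hT] at hrel
  have hc : (1728 : K) * (W.Δ : K) = (W.c₄ : K) ^ 3 - (W.c₆ : K) ^ 2 := by
    have := W.c_relation
    exact_mod_cast this
  have h1728 : (1728 : K) ≠ 0 := by norm_num
  apply mul_left_cancel₀ h1728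
  push_cast
  linear_combination (-1 : K) * hrel + hc

/-- **The twisted family of an integral Weierstrass curve**: if `(u, v)` is a base point of
`W : WeierstrassCurve ℤ` (i.e. `kH u v = - c₄`, `kT u v = - c₆`) then along `p + t • q(p)` the
invariants are the values of the integer polynomials
`hPoly (-Δ) (-c₄) (-c₆)`, `tPoly (-Δ) (-c₄) (-c₆)`. -/
theorem twist_aeval_weierstrass (W : WeierstrassCurve ℤ) (u v : K)
    (hH : kH u v = -(W.c₄ : K)) (hT : kT u v = -(W.c₆ : K)) (t : K) :
    kH (u + t * kfv u v) (v - t * kfu u v) = aeval t (hPoly (-W.Δ) (-W.c₄) (-W.c₆)) ∧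
    kT (u + t * kfv u v) (v - t * kfu u v) = aeval t (tPoly (-W.Δ) (-W.c₄) (-W.c₆)) ∧
    kf (u + t * kfv u v) (v - t * kfu u v) =
      kf u v * aeval t (gPoly (-W.Δ) (-W.c₄) (-W.c₆)) := by
  apply twist_aeval
  · exact kf_pow_five_eq_neg_Δ W u v hH hT
  · rw [hH]; push_cast; ring
  · rw [hT]; push_cast; ring

/-- Integer parameter version of `twist_aeval_weierstrass`: the member at `t : ℤ` has
`c₄' = - (hPoly ..).eval t`, `c₆' = - (tPoly ..).eval t`. -/
theorem twist_eval_int_weierstrass (W : WeierstrassCurve ℤ) (u v : K)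
    (hH : kH u v = -(W.c₄ : K)) (hT : kT u v = -(W.c₆ : K)) (t : ℤ) :
    kH (u + (t : K) * kfv u v) (v - (t : K) * kfu u v) =
      -((-(hPoly (-W.Δ) (-W.c₄) (-W.c₆)).eval t : ℤ) : K) ∧
    kT (u + (t : K) * kfv u v) (v - (t : K) * kfu u v) =
      -((-(tPoly (-W.Δ) (-W.c₄) (-W.c₆)).eval t : ℤ) : K) := by
  have h := twist_eval_int (-W.Δ) (-W.c₄) (-W.c₆) u v t
    (kf_pow_five_eq_neg_Δ W u v hH hT) (by rw [hH]; push_cast; ring) (by rw [hT]; push_cast; ring)
  refine ⟨?_, ?_⟩
  · rw [h.1]; push_cast; ring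
  · rw [h.2.1]; push_cast; ring

/-- Closeness: `t ∣ c₄' - c₄` for `c₄' = - (hPoly (-Δ) (-c₄) (-c₆)).eval t`. -/
theorem int_dvd_c4_sub (W : WeierstrassCurve ℤ) (t : ℤ) :
    t ∣ -(hPoly (-W.Δ) (-W.c₄) (-W.c₆)).eval t - W.c₄ := by
  have h := dvd_eval_hPoly_sub (-W.Δ) (-W.c₄) (-W.c₆) t
  have e : -(hPoly (-W.Δ) (-W.c₄) (-W.c₆)).eval t - W.c₄ =
      -((hPoly (-W.Δ) (-W.c₄) (-W.c₆)).eval t - -W.c₄) := by ring
  rw [e]; exact (dvd_neg).mpr h

/-- Closeness: `t ∣ c₆' - c₆` for `c₆' = - (tPoly (-Δ) (-c₄) (-c₆)).eval t`. -/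
theorem int_dvd_c6_sub (W : WeierstrassCurve ℤ) (t : ℤ) :
    t ∣ -(tPoly (-W.Δ) (-W.c₄) (-W.c₆)).eval t - W.c₆ := by
  have h := dvd_eval_tPoly_sub (-W.Δ) (-W.c₄) (-W.c₆) t
  have e : -(tPoly (-W.Δ) (-W.c₄) (-W.c₆)).eval t - W.c₆ =
      -((tPoly (-W.Δ) (-W.c₄) (-W.c₆)).eval t - -W.c₆) := by ring
  rw [e]; exact (dvd_neg).mpr h

end Weierstrass

/-! ### The relation `c₆(t)² + ... = 1728 Δ g(t)⁵` -/

/-- Value version of `poly_relation`: `Δ (E_{s,t}) = Δ (E) * g(s,t) ^ 5`. -/
theorem twist_relation (u v s t : R) :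
    tTw (kf u v ^ 5) (kH u v) (kT u v) s t ^ 2 + hTw (kf u v ^ 5) (kH u v) (kT u v) s t ^ 3 =
      1728 * kf u v ^ 5 * gTw (kf u v ^ 5) (kH u v) (kT u v) s t ^ 5 := by
  have h := klein_relation (s * u + t * kfv u v) (s * v - t * kfu u v)
  have hH := kH_twist u v s t
  have hT := kT_twist u v s t
  have hf := kf_twist u v s t
  calc tTw (kf u v ^ 5) (kH u v) (kT u v) s t ^ 2 + hTw (kf u v ^ 5) (kH u v) (kT u v) s t ^ 3
      = kT (s * u + t * kfv u v) (s * v - t * kfu u v) ^ 2 +
          kH (s * u + t * kfv u v) (s * v - t * kfu u v) ^ 3 := by rw [hH, hT]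
    _ = 1728 * kf (s * u + t * kfv u v) (s * v - t * kfu u v) ^ 5 := h
    _ = 1728 * (kf u v * gTw (kf u v ^ 5) (kH u v) (kT u v) s t) ^ 5 := by rw [hf]
    _ = 1728 * kf u v ^ 5 * gTw (kf u v ^ 5) (kH u v) (kT u v) s t ^ 5 := by ring

/-- For Klein-parametrised invariants the polynomials satisfy Klein's relation with
discriminant `F * gPoly ^ 5`: `Δ (E_t) = Δ (E) * g(t) ^ 5`. -/
theorem poly_relation (u v : R) :
    tPoly (kf u v ^ 5) (kH u v) (kT u v) ^ 2 + hPoly (kf u v ^ 5) (kH u v) (kT u v) ^ 3 =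
      C 1728 * C (kf u v ^ 5) * gPoly (kf u v ^ 5) (kH u v) (kT u v) ^ 5 := by
  have h := twist_relation (C u : R[X]) (C v) 1 X
  have e1 : kf (C u : R[X]) (C v) = C (kf u v) := (map_kf (C : R →+* R[X]) u v).symm
  have e2 : kH (C u : R[X]) (C v) = C (kH u v) := (map_kH (C : R →+* R[X]) u v).symm
  have e3 : kT (C u : R[X]) (C v) = C (kT u v) := (map_kT (C : R →+* R[X]) u v).symm
  rw [e1, e2, e3, ← C_pow] at h
  have e4 : (C (1728 : R) : R[X]) = 1728 := map_ofNat C 1728
  rw [e4]
  exact h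

end Fermat.Agent.S52.Klein.Twist32
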